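import Fermat.Agent.JacCharts.OrthBasis
import Fermat.Prelude.Def_ModularCurve_ArithmeticGalois

/-!
# Fields of definition of functions on `X₀(N)`

Every element of a base change to `ℚ̄` of a field of Laurent series over `ℚ` has coefficients in
a number field.
-/

set_option autoImplicit false

noncomputable section

open AlgebraicCurve ModularCurve

namespace FermatAgent.JacCharts

local notation "ℚ̄" => AlgebraicClosure ℚ

/-- The series with coefficients in `E`, as a subfield. -/
def seriesOver (E : IntermediateField ℚ ℚ̄) : Subfield (LaurentSeries ℚ̄) :=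
  (coeffMap (algebraMap E ℚ̄)).fieldRange

theorem mem_seriesOver_iff {E : IntermediateField ℚ ℚ̄} {x : LaurentSeries ℚ̄} :
    x ∈ seriesOver E ↔ ∀ n : ℤ, x.coeff n ∈ E := by
  constructor
  · rintro ⟨y, rfl⟩ n
    exact (y.coeff n).2
  · intro h
    refine ⟨⟨fun n => ⟨x.coeff n, h n⟩, x.isPWO_support.mono fun n hn => ?_⟩, ?_⟩
    · simpa [Function.mem_support, Subtype.ext_iff] using hn
    · ext n
      rfl

theorem seriesOver_mono {E E' : IntermediateField ℚ ℚ̄} (h : E ≤ E') {x : LaurentSeries ℚ̄}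
    (hx : x ∈ seriesOver E) : x ∈ seriesOver E' :=
  mem_seriesOver_iff.mpr fun n => h (mem_seriesOver_iff.mp hx n)

theorem exists_seriesOver_of_mem {F₀ : IntermediateField ℚ (LaurentSeries ℚ)}
    {x : LaurentSeries ℚ̄} (hx : x ∈ laurentBaseChange ℚ̄ F₀) :
    ∃ E : IntermediateField ℚ ℚ̄, FiniteDimensional ℚ E ∧ x ∈ seriesOver E := by
  rw [mem_laurentBaseChange_iff] at hx
  induction hx using Subfield.closure_induction with
  | mem y hy =>
    rcases hy with ⟨a, rfl⟩ | ⟨z, -, rfl⟩
    · refine ⟨IntermediateField.adjoin ℚ {a},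
        IntermediateField.adjoin.finiteDimensional ((AlgebraicClosure.isAlgebraic ℚ).isAlgebraic a).isIntegral,
        mem_seriesOver_iff.mpr fun n => ?_⟩
      rw [algebraMap_laurentSeries_eq_single, HahnSeries.coeff_single]
      split
      · exact IntermediateField.subset_adjoin ℚ _ rfl
      · exact zero_mem _
    · exact ⟨⊥, inferInstance, mem_seriesOver_iff.mpr fun n => by
        rw [coeffEmb_coeff]
        exact IntermediateField.algebraMap_mem _ _⟩
  | one => exact ⟨⊥, inferInstance, one_mem _⟩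
  | add x y _ _ hx hy =>
    obtain ⟨E, hE, hxE⟩ := hx
    obtain ⟨E', hE', hyE⟩ := hy
    exact ⟨E ⊔ E', inferInstance,
      add_mem (seriesOver_mono le_sup_left hxE) (seriesOver_mono le_sup_right hyE)⟩
  | neg x _ hx =>
    obtain ⟨E, hE, hxE⟩ := hx
    exact ⟨E, hE, neg_mem hxE⟩
  | inv x _ hx =>
    obtain ⟨E, hE, hxE⟩ := hx
    exact ⟨E, hE, inv_mem hxE⟩
  | mul x y _ _ hx hy =>
    obtain ⟨E, hE, hxE⟩ := hx
    obtain ⟨E', hE', hyE⟩ := hy
    exact ⟨E ⊔ E', inferInstance,
      mul_mem (seriesOver_mono le_sup_left hxE) (seriesOver_mono le_sup_right hyE)⟩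

theorem exists_numberField_coeff {F₀ : IntermediateField ℚ (LaurentSeries ℚ)}
    (x : laurentBaseChange ℚ̄ F₀) :
    ∃ E : IntermediateField ℚ ℚ̄, FiniteDimensional ℚ E ∧
      ∀ n : ℤ, (x : LaurentSeries ℚ̄).coeff n ∈ E := by
  obtain ⟨E, hE, hx⟩ := exists_seriesOver_of_mem x.2
  exact ⟨E, hE, mem_seriesOver_iff.mp hx⟩

end FermatAgent.JacCharts
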