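import Fermat.Agent.JacCharts.Torsion
import Fermat.Agent.JacCharts.FieldOfDef
import Fermat.Agent.ModCurve.Fun.Instances
import Fermat.Prelude.Def_ModularCurve_ReductionModL

/-!
# Good reduction data for `X₀(N)` and the prelude's reduction predicates

A Laurent good reduction datum for `modularFunctionFieldBar N` gives `ReductionInputsAlong`; its
map on places is the only one satisfying `IsPlaceReductionAlong`, so `reductionAlong` is its
reduction on `Pic⁰`, which is injective on torsion prime to the residue characteristic.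
-/

set_option autoImplicit false

noncomputable section

open AlgebraicCurve ModularCurve FermatAgent.Curve.RR

namespace FermatAgent.JacCharts

namespace GoodReductionDatum

local notation "ℚ̄" => AlgebraicClosure ℚ

variable {N : ℕ} {A : ValuationSubring ℚ̄} {k : Type*} [Field k] {π : A →+* k}
variable {d : GoodReductionDatum A π (modularFunctionFieldBar N) (modularFunctionFieldFullC k N)}

namespace IsLaurent

/-- A series with coefficients in `A` lying in the function field, as an integer of the datum. -/
def intOfSeries (hd : d.IsLaurent) (y : LaurentSeries A)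
    (hy : coeffMap A.subtype y ∈ modularFunctionFieldBar N) : d.integers :=
  ⟨⟨coeffMap A.subtype y, hy⟩, hd.mem_integers _ fun n => by
    rw [coeffMap_coeff]; exact (y.coeff n).2⟩

theorem coe_red_intOfSeries (hd : d.IsLaurent) (y : LaurentSeries A)
    (hy : coeffMap A.subtype y ∈ modularFunctionFieldBar N) :
    ((d.red (hd.intOfSeries y hy) : modularFunctionFieldFullC k N) : LaurentSeries k) =
      coeffMap π y := by
  ext n
  rw [hd.coeff_red (hd.intOfSeries y hy) (fun n => by
    show (coeffMap A.subtype y).coeff n ∈ A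
    rw [coeffMap_coeff]; exact (y.coeff n).2) n]
  rfl

theorem exists_series (hd : d.IsLaurent) (x : d.integers)
    (hx : ∀ n : ℤ, ((x : modularFunctionFieldBar N) : LaurentSeries ℚ̄).coeff n ∈ A) :
    ∃ (y : LaurentSeries A) (hy : coeffMap A.subtype y ∈ modularFunctionFieldBar N),
      hd.intOfSeries y hy = x := by
  let y : LaurentSeries A := ⟨fun n => ⟨_, hx n⟩,
    ((x : modularFunctionFieldBar N) : LaurentSeries ℚ̄).isPWO_support.mono fun n hn => by
      simpa [Function.mem_support, Subtype.ext_iff] using hn⟩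
  have h : coeffMap A.subtype y = ((x : modularFunctionFieldBar N) : LaurentSeries ℚ̄) :=
    HahnSeries.ext rfl
  exact ⟨y, h ▸ (x : modularFunctionFieldBar N).2, Subtype.ext (Subtype.ext h)⟩

variable [RRSetting ℚ̄ (modularFunctionFieldBar N)] [RRSetting k (modularFunctionFieldFullC k N)]

theorem isPlaceReductionAlong (hd : d.IsLaurent) : IsPlaceReductionAlong A π N d.place := by
  refine ⟨fun P => by rw [RRSetting.deg_eq_one, RRSetting.deg_eq_one],
    fun y hy hyk hne D hD Q => ?_⟩
  have h : d.red (hd.intOfSeries y hy) = ⟨coeffMap π y, hyk⟩ :=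
    Subtype.ext (hd.coe_red_intOfSeries y hy)
  rw [← h]
  refine d.mapDomain_place (hd.intOfSeries y hy) ?_ D hD Q
  rw [h]
  exact fun h0 => hne (congrArg Subtype.val h0)

omit [RRSetting k (modularFunctionFieldFullC k N)] in
theorem principalGeneratedByIntegral (hd : d.IsLaurent) : PrincipalGeneratedByIntegral A π N := by
  rintro D ⟨f, hf, hD⟩
  obtain ⟨c, hc, fb, hfb, hm, rfl⟩ := d.exists_scale hf
  obtain ⟨y, z, hy, hz, hz0, hxyz⟩ := hd.exists_fraction ⟨c • f, hm⟩
  have hy0 : d.red y ≠ 0 := by
    rw [← hxyz, map_mul]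
    exact mul_ne_zero hfb hz0
  have hmem : ∀ x : d.integers,
      (∀ n : ℤ, ((x : modularFunctionFieldBar N) : LaurentSeries ℚ̄).coeff n ∈ A) → d.red x ≠ 0 →
      divOf (K := ℚ̄) (x : modularFunctionFieldBar N) ∈ integralPrincipalDivisors A π N := by
    intro x hx hx0
    obtain ⟨s, hs, rfl⟩ := hd.exists_series x hx
    refine ⟨s, hs, ?_, ?_, fun P => ?_⟩
    · rw [← hd.coe_red_intOfSeries s hs]
      exact (d.red (hd.intOfSeries s hs)).2
    · rw [← hd.coe_red_intOfSeries s hs]
      exact fun h => hx0 (Subtype.ext h)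
    · exact divOf_apply (RedsTo.ne_zero (redsTo_red _) hx0) P
  have hzF := RedsTo.ne_zero (redsTo_red z) hz0
  have hD' : D = divOf (K := ℚ̄) (y : modularFunctionFieldBar N) -
      divOf (K := ℚ̄) (z : modularFunctionFieldBar N) := by
    ext P
    have hcf : c • f ≠ 0 := RedsTo.ne_zero ⟨hm, rfl⟩ hfb
    have h : (y : modularFunctionFieldBar N) = c • f * (z : modularFunctionFieldBar N) :=
      (congrArg Subtype.val hxyz).symm
    rw [Finsupp.sub_apply, divOf_apply (RedsTo.ne_zero (redsTo_red y) hy0), divOf_apply hzF, h,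
      P.ord_mul hcf hzF, ord_const_smul P hc hf, hD P]
    ring
  rw [hD']
  exact sub_mem (AddSubgroup.subset_closure (hmem y hy hy0))
    (AddSubgroup.subset_closure (hmem z hz hz0))

theorem reductionInputsAlong (hd : d.IsLaurent) : ReductionInputsAlong A π N :=
  ⟨d.place, hd.isPlaceReductionAlong, hd.principalGeneratedByIntegral⟩

/-- A map on places satisfying `IsPlaceReductionAlong` is the one of the datum. -/
theorem place_eq (hd : d.IsLaurent)
    {r : Place ℚ̄ (modularFunctionFieldBar N) → Place k (modularFunctionFieldFullC k N)}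
    (hr : IsPlaceReductionAlong A π N r) : r = d.place := by
  refine place_unique r fun x hx0 D hD Q => ?_
  obtain ⟨y, z, hy, hz, hz0, hxyz⟩ := hd.exists_fraction x
  have hy0 : d.red y ≠ 0 := by
    rw [← hxyz, map_mul]
    exact mul_ne_zero hx0 hz0
  have hkey : ∀ w : d.integers,
      (∀ n : ℤ, ((w : modularFunctionFieldBar N) : LaurentSeries ℚ̄).coeff n ∈ A) → d.red w ≠ 0 →
      Finsupp.mapDomain r (divOf (K := ℚ̄) (w : modularFunctionFieldBar N)) Q = Q.ord (d.red w) := by
    intro w hw hw0
    obtain ⟨s, hs, rfl⟩ := hd.exists_series w hw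
    have hcoe := hd.coe_red_intOfSeries s hs
    have hsk : coeffMap π s ∈ modularFunctionFieldFullC k N :=
      hcoe ▸ (d.red (hd.intOfSeries s hs)).2
    rw [show d.red (hd.intOfSeries s hs) = ⟨coeffMap π s, hsk⟩ from Subtype.ext hcoe]
    exact hr.2 s hs hsk (fun h => hw0 (Subtype.ext (hcoe.trans h))) _
      (fun P => divOf_apply (RedsTo.ne_zero (redsTo_red _) hw0) P) Q
  have hzF := RedsTo.ne_zero (redsTo_red z) hz0
  have hxF := RedsTo.ne_zero (redsTo_red x) hx0
  have hD' : D = divOf (K := ℚ̄) (y : modularFunctionFieldBar N) -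
      divOf (K := ℚ̄) (z : modularFunctionFieldBar N) := by
    ext P
    have h : (y : modularFunctionFieldBar N) = x * (z : modularFunctionFieldBar N) :=
      (congrArg Subtype.val hxyz).symm
    rw [Finsupp.sub_apply, divOf_apply (RedsTo.ne_zero (redsTo_red y) hy0), divOf_apply hzF, h,
      P.ord_mul hxF hzF, hD P]
    ring
  have e1 := hkey y hy hy0
  have e2 := hkey z hz hz0
  rw [hD', Finsupp.mapDomain_sub, Finsupp.sub_apply, e1, e2, ← hxyz, map_mul, Q.ord_mul hx0 hz0]
  ring

theorem reductionAlong_eq_redPic0 (hd : d.IsLaurent) (h : ReductionInputsAlong A π N)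
    (x : Pic0 ℚ̄ (modularFunctionFieldBar N)) : reductionAlong A π N x = d.redPic0 x := by
  obtain ⟨D, rfl⟩ := Pic0.mk_surjective x
  rw [reductionAlong_mk h]
  refine congrArg Pic0.mk (Subtype.ext ?_)
  show Finsupp.mapDomain h.choose (D : Divisor ℚ̄ (modularFunctionFieldBar N)) = _
  rw [hd.place_eq h.choose_spec.1]
  rfl

theorem eq_zero_of_reductionAlong_eq_zero [Infinite k] (hd : d.IsLaurent)
    (h : ReductionInputsAlong A π N) {x : Pic0 ℚ̄ (modularFunctionFieldBar N)}
    (hx : reductionAlong A π N x = 0) {m : ℕ} (hm : (m : k) ≠ 0) (hmx : m • x = 0) : x = 0 := by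
  rw [hd.reductionAlong_eq_redPic0 h] at hx
  exact eq_zero_of_redPic0_eq_zero_of_nsmul_eq_zero hx hm hmx

end IsLaurent

end GoodReductionDatum

end FermatAgent.JacCharts
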