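import Fermat.Agent.TW.Places
import Fermat.Agent.GalRep.Flat.Indep
import Mathlib.RingTheory.Invariant.Profinite

/-!
# Algebraic integers at a place of `ℚ̄` and open subgroups of the Galois group

Elementary facts on the centre of a place above `ℓ`, and two consequences of the transitivity
of an open subgroup on the primes above an invariant prime: an element preserving the centre on
the invariant integers lies in the open subgroup times the decomposition group, and if it acts
trivially modulo the centre it lies in the open subgroup as soon as this contains inertia.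
-/

set_option autoImplicit false

noncomputable section

open scoped Pointwise
open FermatAgent.RT FermatAgent.TW

namespace FermatAgent.JacCharts

local notation "Qb" => AlgebraicClosure ℚ
local notation "GQ" => AlgebraicClosure ℚ ≃ₐ[ℚ] AlgebraicClosure ℚ
local notation "ZB" => integralClosure ℤ (AlgebraicClosure ℚ)
local notation "Rp" => GaloisRep.ratLocalizedAt

attribute [local instance] isGalois_algClosureRat

variable {ℓ : ℕ} {A : ValuationSubring Qb}

theorem val_lt_one_of_mem_centre {b : ZB} (hb : b ∈ centre A) : A.valuation (b : Qb) < 1 :=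
  mem_centre_iff.mp hb

theorem val_eq_one_of_notMem_centre {b : ZB} (hb : b ∉ centre A) : A.valuation (b : Qb) = 1 :=
  le_antisymm ((A.valuation_le_one_iff _).mpr (mem_of_isIntegral_int A b.2))
    (not_lt.mp fun h => hb (mem_centre_iff.mpr h))

theorem inv_mem_of_notMem_centre {b : ZB} (hb : b ∉ centre A) : (b : Qb)⁻¹ ∈ A := by
  rw [← A.valuation_le_one_iff, map_inv₀, val_eq_one_of_notMem_centre hb, inv_one]

theorem mem_centre_iff_val {b : ZB} : b ∈ centre A ↔ A.valuation (b : Qb) < 1 :=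
  ⟨val_lt_one_of_mem_centre, fun h => mem_centre_iff.mpr h⟩

/-- A rational number is in the place exactly when it is `ℓ`-integral. -/
theorem ratCast_mem_place_iff (hℓ : ℓ.Prime) (hA : A.LiesOverPrime ℓ) {q : ℚ} :
    (q : Qb) ∈ A ↔ q ∈ Rp ℓ := by
  constructor
  · intro h
    rw [GalRep.Flat.mem_ratLocalized, Nat.coprime_comm, hℓ.coprime_iff_not_dvd]
    intro hdvd
    have hnum : ¬ (ℓ : ℤ) ∣ q.num := fun hd => by
      have := Int.natCast_dvd.mp hd
      exact hℓ.one_lt.ne'
        (Nat.eq_one_of_dvd_coprimes q.reduced this hdvd)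
    have h1 : A.valuation ((q.den : ℕ) : Qb) < 1 := by
      obtain ⟨c, hc⟩ := hdvd
      rw [hc, Nat.cast_mul, map_mul]
      exact lt_of_le_of_lt (mul_le_of_le_one_right'
        ((A.valuation_le_one_iff _).mpr (natCast_mem A c))) (Local.val_natCast_lt_one hA)
    have h2 : (q : Qb) * ((q.den : ℕ) : Qb) = ((q.num : ℤ) : Qb) := by
      have := congrArg (Rat.cast : ℚ → Qb) (Rat.mul_den_eq_num q)
      push_cast at this ⊢
      exact this
    have h3 := congrArg A.valuation h2
    rw [map_mul, Local.val_intCast_eq_one hℓ hA hnum] at h3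
    have : A.valuation (q : Qb) * A.valuation ((q.den : ℕ) : Qb) < 1 :=
      lt_of_le_of_lt (mul_le_of_le_one_left' ((A.valuation_le_one_iff _).mpr h)) h1
    exact this.ne h3
  · intro h
    rw [GalRep.Flat.mem_ratLocalized, Nat.coprime_comm, hℓ.coprime_iff_not_dvd] at h
    rw [← A.valuation_le_one_iff, Rat.cast_def, map_div₀,
      Local.val_natCast_eq_one hℓ hA h, div_one]
    exact (A.valuation_le_one_iff _).mpr (intCast_mem A q.num)

theorem algebraMap_ratLocalized_mem (hℓ : ℓ.Prime) (hA : A.LiesOverPrime ℓ) (r : Rp ℓ) :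
    algebraMap (Rp ℓ) Qb r ∈ A := by
  rw [IsScalarTower.algebraMap_apply (Rp ℓ) ℚ Qb, eq_ratCast]
  exact (ratCast_mem_place_iff hℓ hA).mpr r.2

/-- An element all whose conjugates lie in the place is integral over `ℤ_(ℓ)`. -/
theorem isIntegral_ratLocalized_of_forall_mem (hℓ : ℓ.Prime) (hA : A.LiesOverPrime ℓ) {z : Qb}
    (h : ∀ σ : GQ, σ z ∈ A) : IsIntegral (Rp ℓ) z := by
  classical
  have hz : IsIntegral ℚ z := isGalois_algClosureRat.to_normal.isIntegral z
  set P := (minpoly ℚ z).map (algebraMap ℚ Qb) with hP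
  have hsplit : P.Splits := IsAlgClosed.splits _
  have hroots : ∀ r ∈ P.roots, r ∈ A := fun r hr => by
    have hr' : Polynomial.aeval r (minpoly ℚ z) = 0 := by
      rw [hP, Polynomial.mem_roots', Polynomial.IsRoot.def, Polynomial.eval_map] at hr
      exact hr.2
    have hmin : minpoly ℚ r = minpoly ℚ z :=
      (minpoly.eq_of_irreducible_of_monic (minpoly.irreducible hz) hr' (minpoly.monic hz)).symm
    obtain ⟨σ, rfl⟩ := Normal.minpoly_eq_iff_mem_orbit (F := ℚ) (E := Qb) |>.mp hmin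
    exact h σ
  have hprod : P = (P.roots.map fun r => Polynomial.X - Polynomial.C r).prod :=
    Polynomial.Splits.eq_prod_roots_of_monic hsplit ((minpoly.monic hz).map _)
  have hlift : P ∈ Polynomial.lifts A.subtype := by
    rw [hprod]
    refine Subsemiring.multiset_prod_mem _ _ fun q hq => ?_
    obtain ⟨r, hr, rfl⟩ := Multiset.mem_map.mp hq
    refine (Polynomial.lifts_iff_liftsRing _ _).mpr ?_
    exact sub_mem ((Polynomial.lifts_iff_liftsRing _ _).mp (Polynomial.X_mem_lifts _))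
      ((Polynomial.lifts_iff_liftsRing _ _).mp (Polynomial.C'_mem_lifts ⟨⟨r, hroots r hr⟩, rfl⟩))
  have hcoeff : ∀ n, (minpoly ℚ z).coeff n ∈ Rp ℓ := fun n => by
    obtain ⟨a, ha⟩ := (Polynomial.lifts_iff_coeff_lifts _).mp hlift n
    rw [← ratCast_mem_place_iff hℓ hA, ← eq_ratCast (algebraMap ℚ Qb), ← Polynomial.coeff_map]
    show P.coeff n ∈ A
    rw [← ha]
    exact a.2
  have hl : minpoly ℚ z ∈ Polynomial.lifts (algebraMap (Rp ℓ) ℚ) :=
    (Polynomial.lifts_iff_coeff_lifts _).mpr fun n => ⟨⟨_, hcoeff n⟩, rfl⟩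
  obtain ⟨p, hp, -, hmon⟩ := Polynomial.lifts_and_degree_eq_and_monic hl (minpoly.monic hz)
  refine ⟨p, hmon, ?_⟩
  have := congrArg (Polynomial.aeval z) hp
  rwa [Polynomial.aeval_map_algebraMap, minpoly.aeval] at this

/-- A power of an algebraic integer is congruent to a higher one. -/
theorem exists_pow_sub_pow {y : Qb} (hy : IsIntegral ℤ y) (n : ℕ) [NeZero n] :
    ∃ a b : ℕ, a < b ∧ ∃ u : Qb, IsIntegral ℤ u ∧ y ^ a - y ^ b = (n : Qb) * u := by
  classical
  set P := minpoly ℤ y with hP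
  have hmon : P.Monic := minpoly.monic hy
  let c : ℕ → Fin P.natDegree → ZMod n := fun i j =>
    (((Polynomial.X ^ i) %ₘ P).coeff j : ZMod n)
  obtain ⟨a, b, hne, hab⟩ := Finite.exists_ne_map_eq_of_infinite c
  wlog hlt : a < b generalizing a b
  · exact this b a hne.symm hab.symm (lt_of_le_of_ne (not_lt.mp hlt) hne.symm)
  set q := (Polynomial.X ^ a) %ₘ P - (Polynomial.X ^ b) %ₘ P with hq
  have hdvd : Polynomial.C (n : ℤ) ∣ q := by
    rw [Polynomial.C_dvd_iff_dvd_coeff]
    intro j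
    by_cases hj : j < P.natDegree
    · rw [← ZMod.intCast_zmod_eq_zero_iff_dvd, hq, Polynomial.coeff_sub, Int.cast_sub, sub_eq_zero]
      exact congrFun hab ⟨j, hj⟩
    · have hz : ∀ i, ((Polynomial.X ^ i) %ₘ P).coeff j = 0 := fun i =>
        Polynomial.coeff_eq_zero_of_degree_lt (lt_of_lt_of_le (Polynomial.degree_modByMonic_lt _ hmon)
          (Polynomial.degree_le_natDegree.trans (by exact_mod_cast not_lt.mp hj)))
      rw [hq, Polynomial.coeff_sub, hz, hz, sub_zero]
      exact dvd_zero _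
  obtain ⟨u, hu⟩ := hdvd
  refine ⟨a, b, hlt, Polynomial.aeval y u, ?_, ?_⟩
  · exact (Algebra.adjoin_le (S := integralClosure ℤ Qb) (Set.singleton_subset_iff.mpr hy))
      (Polynomial.aeval_mem_adjoin_singleton ℤ y)
  · have hz : ∀ i, Polynomial.aeval y ((Polynomial.X ^ i) %ₘ P) = y ^ i := fun i => by
      rw [Polynomial.modByMonic_eq_sub_mul_div, map_sub, map_mul, minpoly.aeval, zero_mul,
        sub_zero, map_pow, Polynomial.aeval_X]
    have := congrArg (Polynomial.aeval y) hu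
    rw [hq, map_sub, hz, hz, map_mul, Polynomial.aeval_C] at this
    simpa using this

/-- Outside the centre, some positive power is `≡ 1`. -/
theorem exists_pow_sub_one_mem_centre (hℓ : ℓ.Prime) (hA : A.LiesOverPrime ℓ) {y : ZB}
    (hy : y ∉ centre A) : ∃ m : ℕ, 0 < m ∧ y ^ m - 1 ∈ centre A := by
  have : NeZero ℓ := ⟨hℓ.ne_zero⟩
  obtain ⟨a, b, hab, u, hu, h⟩ := exists_pow_sub_pow y.2 ℓ
  refine ⟨b - a, Nat.sub_pos_of_lt hab, ?_⟩
  have h' : y ^ a * (1 - y ^ (b - a)) = (ℓ : ZB) * ⟨u, hu⟩ := by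
    refine Subtype.ext ?_
    push_cast
    rw [mul_sub, mul_one, ← pow_add, Nat.add_sub_cancel' hab.le]
    exact h
  have hmem : y ^ a * (1 - y ^ (b - a)) ∈ centre A := by
    rw [h']
    exact Ideal.mul_mem_right _ _ (natCast_mem_centre hA)
  rcases (centre_isPrime A).mem_or_mem hmem with h1 | h1
  · exact absurd ((centre_isPrime A).mem_of_pow_mem _ h1) hy
  · simpa [neg_sub] using neg_mem h1

/-- An element of the centre is topologically nilpotent. -/
theorem exists_pow_eq_mul (hℓ : ℓ.Prime) {y : ZB} (hy : y ∈ centre A) (N : ℕ) :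
    ∃ a : ℕ, ∀ b, a ≤ b → ∃ u ∈ A, (y : Qb) ^ b = (ℓ : Qb) ^ N * u := by
  have : NeZero (ℓ ^ N) := ⟨pow_ne_zero _ hℓ.ne_zero⟩
  obtain ⟨a, c, hac, u, hu, h⟩ := exists_pow_sub_pow y.2 (ℓ ^ N)
  refine ⟨a, fun b hb => ?_⟩
  have hne : 1 - y ^ (c - a) ∉ centre A := fun hm => by
    have h1 : (1 : ZB) ∈ centre A := by
      simpa using add_mem hm (Ideal.pow_mem_of_mem _ hy _ (Nat.sub_pos_of_lt hac))
    exact (centre_isPrime A).ne_top ((Ideal.eq_top_iff_one _).mpr h1)
  have hinv := inv_mem_of_notMem_centre hne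
  have hne0 : ((1 - y ^ (c - a) : ZB) : Qb) ≠ 0 := fun h0 => by
    have : (1 - y ^ (c - a) : ZB) = 0 := Subtype.ext h0
    exact hne (by rw [this]; exact zero_mem _)
  refine ⟨u * ((1 - y ^ (c - a) : ZB) : Qb)⁻¹ * (y : Qb) ^ (b - a),
    mul_mem (mul_mem (mem_of_isIntegral_int A hu) hinv)
      (pow_mem (mem_of_isIntegral_int A y.2) _), ?_⟩
  have h' : (y : Qb) ^ a * ((1 - y ^ (c - a) : ZB) : Qb) = (ℓ : Qb) ^ N * u := by
    push_cast
    rw [mul_sub, mul_one, ← pow_add, Nat.add_sub_cancel' hac.le, h]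
    push_cast
    rfl
  rw [← mul_assoc, ← mul_assoc, ← h', mul_assoc ((y : Qb) ^ a), mul_inv_cancel₀ hne0, mul_one,
    ← pow_add, Nat.add_sub_cancel' hb]

/-- Every algebraic number becomes integral at the place after multiplying by a power of `ℓ`. -/
theorem exists_pow_mul_mem (hℓ : ℓ.Prime) (hA : A.LiesOverPrime ℓ) (z : Qb) :
    ∃ M : ℕ, (ℓ : Qb) ^ M * z ∈ A := by
  have halg : IsAlgebraic ℤ z := (IsFractionRing.isAlgebraic_iff ℤ ℚ Qb).mpr
    ((isGalois_algClosureRat.to_normal.isIntegral z).isAlgebraic)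
  obtain ⟨y, hy0, hy⟩ := halg.exists_integral_multiple
  obtain ⟨M, m, hm, hym⟩ :=
    Nat.exists_eq_pow_mul_and_not_dvd (Int.natAbs_ne_zero.mpr hy0) ℓ hℓ.ne_one
  refine ⟨M, ?_⟩
  have h1 : ((y.natAbs : ℕ) : Qb) * z ∈ A := by
    have h2 := mem_of_isIntegral_int A hy
    rw [Algebra.smul_def, eq_intCast] at h2
    rcases Int.natAbs_eq y with h | h <;> rw [h] at h2
    · rwa [Int.cast_natCast] at h2
    · rw [Int.cast_neg, Int.cast_natCast, neg_mul] at h2
      exact neg_mem_iff.mp h2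
  rw [← A.valuation_le_one_iff] at h1 ⊢
  rw [hym, Nat.cast_mul, Nat.cast_pow, mul_right_comm, map_mul,
    Local.val_natCast_eq_one hℓ hA hm, mul_one] at h1
  exact h1

theorem smul_centre_of_decomposition {σ : GQ} (hσ : σ ∈ A.decompositionSubgroup ℚ) :
    σ • centre A = centre A := by
  refine Ideal.ext fun b => ?_
  rw [Ideal.mem_pointwise_smul_iff_inv_smul_mem, mem_centre_iff_val, mem_centre_iff_val]
  show A.valuation (σ⁻¹ (b : Qb)) < 1 ↔ _
  rw [Local.val_galois_eq (inv_mem hσ)]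

theorem smul_mem_centre_iff {σ : GQ} (hσ : σ ∈ A.decompositionSubgroup ℚ) {b : ZB} :
    σ • b ∈ centre A ↔ b ∈ centre A := by
  conv_lhs => rw [← smul_centre_of_decomposition hσ]
  exact Ideal.smul_mem_pointwise_smul_iff

theorem galois_mem_of_decomposition {σ : GQ} (hσ : σ ∈ A.decompositionSubgroup ℚ) {z : Qb}
    (hz : z ∈ A) : σ z ∈ A := by
  rw [← A.valuation_le_one_iff, Local.val_galois_eq hσ, A.valuation_le_one_iff]
  exact hz

/-- Acting trivially modulo the centre means lying in the inertia group. -/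
theorem mem_inertia_of_congr (hℓ : ℓ.Prime) (hA : A.LiesOverPrime ℓ) {σ : GQ}
    (hσ : σ • centre A = centre A) (h : ∀ b : ZB, σ • b - b ∈ centre A) :
    σ ∈ A.inertiaSubgroupIn ℚ := by
  have hd := mem_decompositionSubgroup_of_smul_centre hℓ hA hσ
  refine mem_inertia_iff.mpr ⟨hd, fun z hz => ?_⟩
  obtain ⟨a, s, hs, hzs⟩ := exists_mul_eq_of_mem hℓ hA hz
  have hσs : σ • s ∉ centre A := fun h1 => hs ((smul_mem_centre_iff hd).mp h1)
  have key : (σ z - z) * σ (s : Qb) = (σ (a : Qb) - a) - z * (σ (s : Qb) - s) := by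
    rw [← hzs, map_mul]
    ring
  have h1 : A.valuation ((σ (a : Qb) - a) - z * (σ (s : Qb) - s)) < 1 := by
    refine lt_of_le_of_lt (A.valuation.map_sub _ _) (max_lt (val_lt_one_of_mem_centre (h a)) ?_)
    rw [map_mul]
    exact lt_of_le_of_lt (mul_le_of_le_one_left' ((A.valuation_le_one_iff _).mpr hz))
      (val_lt_one_of_mem_centre (h s))
  have h2 : A.valuation (σ (s : Qb)) = 1 := val_eq_one_of_notMem_centre hσs
  rwa [← key, map_mul, h2, mul_one] at h1

/-- The algebraic integers fixed by a subgroup. -/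
def fixedInts (Γ : Subgroup GQ) : Subalgebra ℤ ZB where
  carrier := {b | ∀ σ ∈ Γ, σ • b = b}
  mul_mem' {a b} ha hb σ hσ := by rw [smul_mul', ha σ hσ, hb σ hσ]
  add_mem' {a b} ha hb σ hσ := by rw [smul_add, ha σ hσ, hb σ hσ]
  algebraMap_mem' z σ _ := Subtype.ext (by
    show σ ((z : ZB) : Qb) = _
    simp)

section Open

variable (hℓ : ℓ.Prime) (hA : A.LiesOverPrime ℓ) {Γ : Subgroup GQ} (hΓ : IsOpen (Γ : Set GQ))

include hℓ hA in
/-- If `σ` carries invariant integers of the centre into the centre, the converse holds too. -/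
theorem mem_centre_of_forall_imp (σ : GQ)
    (h : ∀ c ∈ fixedInts Γ, σ • c ∈ centre A → c ∈ centre A) {c : ZB} (hc : c ∈ fixedInts Γ)
    (hcA : c ∈ centre A) : σ • c ∈ centre A := by
  by_contra hn
  obtain ⟨m, hm, hm'⟩ := exists_pow_sub_one_mem_centre hℓ hA hn
  have h1 : σ • (c ^ m - 1) ∈ centre A := by
    rwa [smul_sub, smul_pow', smul_one]
  have h2 : c ^ m - 1 ∈ centre A := h _ (sub_mem (pow_mem hc m) (one_mem _)) h1
  have h3 : (1 : ZB) ∈ centre A := by
    simpa using sub_mem (Ideal.pow_mem_of_mem _ hcA _ hm) h2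
  exact (centre_isPrime A).ne_top ((Ideal.eq_top_iff_one _).mpr h3)

include hℓ hA hΓ in
/-- Transitivity of an open subgroup on the places above an invariant prime. -/
theorem exists_mul_mem_decomposition (σ : GQ)
    (h : ∀ c ∈ fixedInts Γ, (σ • c ∈ centre A ↔ c ∈ centre A)) :
    ∃ τ ∈ Γ, σ * τ ∈ A.decompositionSubgroup ℚ := by
  let : TopologicalSpace ZB := ⊥
  have : DiscreteTopology ZB := ⟨rfl⟩
  have : ContinuousSMul GQ ZB := continuousSMul_intClosure
  have : CompactSpace Γ :=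
    isCompact_iff_compactSpace.mp (Subgroup.isClosed_of_isOpen Γ hΓ).isCompact
  have : SMulCommClass Γ (fixedInts Γ) ZB := ⟨fun g c b => by
    show (g : GQ) • ((c : ZB) * b) = (c : ZB) * ((g : GQ) • b)
    rw [smul_mul', c.2 _ g.2]⟩
  have : Algebra.IsInvariant (fixedInts Γ) ZB Γ :=
    ⟨fun b hb => ⟨⟨b, fun g hg => hb ⟨g, hg⟩⟩, rfl⟩⟩
  have : (σ⁻¹ • centre A).IsPrime := inferInstance
  obtain ⟨τ, hτ⟩ := Algebra.IsInvariant.exists_smul_of_under_eq_of_profinite
    (A := fixedInts Γ) (G := Γ) (centre A) (σ⁻¹ • centre A) (by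
      ext c
      show (c : ZB) ∈ centre A ↔ (c : ZB) ∈ σ⁻¹ • centre A
      rw [Ideal.mem_pointwise_smul_iff_inv_smul_mem, inv_inv]
      exact (h c c.2).symm)
  refine ⟨τ, τ.2, mem_decompositionSubgroup_of_smul_centre hℓ hA ?_⟩
  have hτ' : σ⁻¹ • centre A = (τ : GQ) • centre A := hτ
  rw [mul_smul, ← hτ', smul_inv_smul]

include hℓ hA hΓ in
/-- Acting trivially on the invariant integers modulo the centre. -/
theorem mem_of_congr (hI : A.inertiaSubgroupIn ℚ ≤ Γ) (σ : GQ)
    (h : ∀ c ∈ fixedInts Γ, σ • c - c ∈ centre A) : σ ∈ Γ := by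
  obtain ⟨τ, hτ, hd⟩ := exists_mul_mem_decomposition hℓ hA hΓ σ fun c hc => by
    constructor
    · intro h1
      simpa using sub_mem h1 (h c hc)
    · intro h1
      simpa using add_mem h1 (h c hc)
  suffices hmem : σ * τ ∈ Γ by simpa using mul_mem hmem (inv_mem hτ)
  generalize hρdef : σ * τ = ρ at hd
  have hρ : ∀ c ∈ fixedInts Γ, ρ • c - c ∈ centre A := fun c hc => by
    rw [← hρdef, mul_smul, hc τ hτ]
    exact h c hc
  let : TopologicalSpace ZB := ⊥
  have : DiscreteTopology ZB := ⟨rfl⟩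
  have : ContinuousSMul GQ ZB := continuousSMul_intClosure
  have : CompactSpace Γ :=
    isCompact_iff_compactSpace.mp (Subgroup.isClosed_of_isOpen Γ hΓ).isCompact
  have : SMulCommClass Γ (fixedInts Γ) ZB := ⟨fun g c b => by
    show (g : GQ) • ((c : ZB) * b) = (c : ZB) * ((g : GQ) • b)
    rw [smul_mul', c.2 _ g.2]⟩
  have : Algebra.IsInvariant (fixedInts Γ) ZB Γ :=
    ⟨fun b hb => ⟨⟨b, fun g hg => hb ⟨g, hg⟩⟩, rfl⟩⟩
  let P : Ideal (fixedInts Γ) := (centre A).under (fixedInts Γ)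
  let f : ZB ⧸ centre A ≃+* ZB ⧸ centre A :=
    Ideal.quotientEquiv (centre A) (centre A) (MulSemiringAction.toRingEquiv GQ ZB ρ) (by
      exact (smul_centre_of_decomposition hd).symm)
  let e : (ZB ⧸ centre A) ≃ₐ[fixedInts Γ ⧸ P] (ZB ⧸ centre A) :=
    AlgEquiv.ofRingEquiv (f := f) (fun x => by
      obtain ⟨c, rfl⟩ := Ideal.Quotient.mk_surjective x
      show Ideal.Quotient.mk (centre A) (ρ • (c : ZB)) = Ideal.Quotient.mk (centre A) (c : ZB)
      rw [Ideal.Quotient.eq]
      exact hρ c c.2)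
  obtain ⟨⟨τ', hτ'⟩, he⟩ :=
    Ideal.Quotient.stabilizerHom_surjective_of_profinite (G := Γ) P (centre A) e
  have hfix : ∀ b : ZB, (τ' : GQ) • b - ρ • b ∈ centre A := fun b => by
    rw [← Ideal.Quotient.eq]
    exact DFunLike.congr_fun he (Ideal.Quotient.mk (centre A) b)
  have hτ'' : (τ' : GQ) • centre A = centre A := hτ'
  have hd' := mem_decompositionSubgroup_of_smul_centre hℓ hA hτ''
  have hin : ((τ' : GQ))⁻¹ * ρ ∈ A.inertiaSubgroupIn ℚ := by
    refine mem_inertia_of_congr hℓ hA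
      (smul_centre_of_decomposition (mul_mem (inv_mem hd') hd)) fun b => ?_
    rw [← smul_mem_centre_iff hd', smul_sub, ← mul_smul, mul_inv_cancel_left]
    simpa [neg_sub] using neg_mem (hfix b)
  simpa using mul_mem τ'.2 (hI hin)

end Open

end FermatAgent.JacCharts
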