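import Fermat.Agent.JacCharts.Transport
import Fermat.Agent.JacCharts.Laurent
import Fermat.Agent.JacCharts.Centre
import Fermat.Agent.ES.Galois
import Fermat.Agent.ModCurve.Fun.Degree

/-!
# Inertia-rational lifts on `X₀(N)` at a place of good reduction

The Galois action on `modularFunctionFieldBar N` is compatible with a Laurent good reduction
datum; residues, functions in `L(B)` and places of the fibre lift to inertia invariant ones; a
Galois invariant divisor of large degree.
-/

set_option autoImplicit false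

noncomputable section

open AlgebraicCurve ModularCurve FermatAgent.Curve.RR

namespace FermatAgent.JacCharts

local notation "Qb" => AlgebraicClosure ℚ
local notation "GQ" => AlgebraicClosure ℚ ≃ₐ[ℚ] AlgebraicClosure ℚ
local notation "ZB" => integralClosure ℤ (AlgebraicClosure ℚ)

variable {N : ℕ}

/-- The action of the Galois group on the function field. -/
abbrev galAut (N : ℕ) (σ : GQ) : SemilinearAut Qb (modularFunctionFieldBar N) :=
  arithmeticGalois (modularFunctionFieldFull N) σ

theorem coeff_galAut (σ : GQ) (x : modularFunctionFieldBar N) (n : ℤ) :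
    ((galAut N σ • x : modularFunctionFieldBar N) : LaurentSeries Qb).coeff n =
      σ ((x : LaurentSeries Qb).coeff n) := rfl

theorem galAut_mul_smul (σ τ : GQ) (x : modularFunctionFieldBar N) :
    galAut N (σ * τ) • x = galAut N σ • galAut N τ • x := by
  rw [galAut, map_mul, mul_smul]

/-- The orbit of a function under a set of automorphisms is finite. -/
theorem finite_galAut_orbit (H : Set GQ) (x : modularFunctionFieldBar N) :
    ((fun σ => galAut N σ • x) '' H).Finite := by
  obtain ⟨E, hE, hx⟩ := exists_numberField_coeff x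
  let r : GQ → (E →ₐ[ℚ] Qb) := fun σ => (σ : Qb →ₐ[ℚ] Qb).comp E.val
  have key : ∀ σ τ : GQ, r σ = r τ → galAut N σ • x = galAut N τ • x := fun σ τ h => by
    apply Subtype.ext
    ext n
    rw [coeff_galAut, coeff_galAut]
    exact DFunLike.congr_fun h ⟨_, hx n⟩
  rw [Set.finite_coe_iff.symm]
  have hmem : ∀ y : ↥((fun σ => galAut N σ • x) '' H), ∃ σ, galAut N σ • x = (y : _) := fun y => by
    obtain ⟨σ, -, hσ⟩ := y.2
    exact ⟨σ, hσ⟩
  choose σ hσ using hmem
  exact Finite.of_injective (fun y => r (σ y)) fun y y' h =>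
    Subtype.ext ((hσ y).symm.trans ((key _ _ h).trans (hσ y')))

variable {A : ValuationSubring Qb} {ℓ : ℕ}

local notation "kA" => IsLocalRing.ResidueField A
local notation "πA" => IsLocalRing.residue A

theorem charP_residueField (hℓ : ℓ.Prime) (hA : A.LiesOverPrime ℓ) : CharP kA ℓ := by
  refine (CharP.charP_iff_prime_eq_zero hℓ).mpr ?_
  rw [← map_natCast πA, IsLocalRing.residue_eq_zero_iff]
  exact (A.valuation_lt_one_iff _).2 (by
    show A.valuation ((ℓ : A) : Qb) < 1
    rw [show ((ℓ : A) : Qb) = (ℓ : Qb) from map_natCast A.subtype ℓ]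
    exact Local.val_natCast_lt_one hA)

theorem residue_intClosureToPlace_eq {y : ZB} (h : y ∈ RT.centre A) :
    πA (RT.intClosureToPlace A y) = 0 :=
  (IsLocalRing.residue_eq_zero_iff _).mpr h

/-- A nonzero residue has finite order prime to `ℓ`. -/
theorem exists_pow_eq_one_residue (hℓ : ℓ.Prime) (hA : A.LiesOverPrime ℓ) {c : kA} (hc : c ≠ 0) :
    ∃ m : ℕ, 0 < m ∧ ¬ ℓ ∣ m ∧ c ^ m = 1 := by
  have := charP_residueField hℓ hA
  have := Fact.mk hℓ
  obtain ⟨⟨x, hx⟩, rfl⟩ := IsLocalRing.residue_surjective c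
  obtain ⟨a, s, hs, h⟩ := RT.exists_mul_eq_of_mem hℓ hA hx
  have hmul : πA ⟨x, hx⟩ * πA (RT.intClosureToPlace A s) = πA (RT.intClosureToPlace A a) := by
    rw [← map_mul]
    exact congrArg _ (Subtype.ext h)
  have hs0 : πA (RT.intClosureToPlace A s) ≠ 0 := fun h0 =>
    hs ((IsLocalRing.residue_eq_zero_iff _).mp h0)
  have ha : a ∉ RT.centre A := fun ha => by
    rw [residue_intClosureToPlace_eq ha] at hmul
    exact mul_ne_zero hc hs0 hmul
  have key : ∀ y : ZB, y ∉ RT.centre A →
      ∃ m : ℕ, 0 < m ∧ πA (RT.intClosureToPlace A y) ^ m = 1 := fun y hy => by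
    obtain ⟨m, hm, hm'⟩ := exists_pow_sub_one_mem_centre hℓ hA hy
    refine ⟨m, hm, sub_eq_zero.mp ?_⟩
    have := residue_intClosureToPlace_eq hm'
    simpa using this
  obtain ⟨m₁, hm₁, e₁⟩ := key a ha
  obtain ⟨m₂, hm₂, e₂⟩ := key s hs
  have hpow : πA ⟨x, hx⟩ ^ (m₁ * m₂) = 1 := by
    have := congrArg (· ^ (m₁ * m₂)) hmul
    simp only [mul_pow] at this
    rwa [pow_mul (πA (RT.intClosureToPlace A a)), e₁, one_pow, mul_comm m₁ m₂,
      pow_mul (πA (RT.intClosureToPlace A s)), e₂, one_pow, mul_one, mul_comm m₂ m₁] at this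
  obtain ⟨v, m, hm, hvm⟩ :=
    Nat.exists_eq_pow_mul_and_not_dvd (Nat.mul_pos hm₁ hm₂).ne' ℓ hℓ.ne_one
  refine ⟨m, Nat.pos_of_ne_zero fun h0 => hm (h0 ▸ dvd_zero ℓ), hm, ?_⟩
  rw [hvm, mul_comm (ℓ ^ v), pow_mul] at hpow
  refine iterateFrobenius_inj kA ℓ v ?_
  rw [iterateFrobenius_def, iterateFrobenius_def, hpow, one_pow]

/-- Residues lift to inertia invariant elements. -/
theorem exists_fixed_residue (hℓ : ℓ.Prime) (hA : A.LiesOverPrime ℓ) (c : kA) :
    ∃ z : A, πA z = c ∧ ∀ σ ∈ A.inertiaSubgroupIn ℚ, σ (z : Qb) = z := by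
  rcases eq_or_ne c 0 with rfl | hc
  · exact ⟨0, map_zero _, fun σ _ => map_zero σ⟩
  have := charP_residueField hℓ hA
  obtain ⟨m, hm, hmℓ, hcm⟩ := exists_pow_eq_one_residue hℓ hA hc
  have hm0 : (m : kA) ≠ 0 := fun h => hmℓ ((CharP.cast_eq_zero_iff kA ℓ m).mp h)
  have : NeZero (m : Qb) := ⟨by exact_mod_cast hm.ne'⟩
  obtain ⟨ζ₀, hζ₀⟩ := HasEnoughRootsOfUnity.exists_primitiveRoot Qb m
  have hint : ∀ i : ℕ, ζ₀ ^ i ∈ A := fun i =>
    pow_mem (RT.mem_of_isIntegral_int A (hζ₀.isIntegral hm)) i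
  have hprod := Polynomial.X_pow_sub_one_eq_prod hm hζ₀
  let ζA : A := ⟨ζ₀, pow_one ζ₀ ▸ hint 1⟩
  have hζA : IsPrimitiveRoot ζA m := IsPrimitiveRoot.of_map_of_injective (f := A.subtype)
    hζ₀ Subtype.val_injective
  have hprodA := Polynomial.X_pow_sub_one_eq_prod hm hζA
  have hev := congrArg (Polynomial.eval c) (congrArg (Polynomial.map πA) hprodA)
  rw [Polynomial.map_prod, Polynomial.eval_prod] at hev
  simp only [Polynomial.map_sub, Polynomial.map_pow, Polynomial.map_X, Polynomial.map_one,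
    Polynomial.eval_sub, Polynomial.eval_pow, Polynomial.eval_X, Polynomial.eval_one,
    Polynomial.map_C, Polynomial.eval_C, hcm, sub_self] at hev
  obtain ⟨z, hz, hz0⟩ := Finset.prod_eq_zero_iff.mp hev.symm
  have hzm : (z : A) ^ m = 1 := (Polynomial.mem_nthRootsFinset hm _).mp hz
  refine ⟨z, (sub_eq_zero.mp hz0).symm, fun σ hσ => ?_⟩
  have hzQ : (z : Qb) ^ m = 1 := by
    have := congrArg Subtype.val hzm
    simpa using this
  have hz0' : (z : Qb) ≠ 0 := fun h0 => by simp [h0, hm.ne'] at hzQ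
  have hη : (σ (z : Qb) / z) ^ m = 1 := by rw [div_pow, ← map_pow, hzQ, map_one, div_one]
  by_contra hne
  have hη1 : σ (z : Qb) / z ≠ 1 := fun h => hne ((div_eq_one_iff_eq hz0').mp h)
  have hgeom : ∑ i ∈ Finset.range m, (σ (z : Qb) / z) ^ i = 0 := by
    have := geom_sum_mul (σ (z : Qb) / z) m
    rw [hη, sub_self, mul_eq_zero] at this
    exact this.resolve_right (sub_ne_zero.mpr hη1)
  have hσz : σ (z : Qb) ∈ A :=
    galois_mem_of_decomposition (Local.mem_decomposition_of_inertia hσ) z.2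
  have hzinv : (z : Qb)⁻¹ ∈ A := by
    rw [inv_eq_of_mul_eq_one_right (show (z : Qb) * (z : Qb) ^ (m - 1) = 1 by
      rw [← pow_succ', Nat.sub_add_cancel hm, hzQ])]
    exact pow_mem z.2 _
  let η : A := ⟨σ (z : Qb) / z, by rw [div_eq_mul_inv]; exact mul_mem hσz hzinv⟩
  have hηres : πA η = 1 := by
    rw [← sub_eq_zero, ← map_one πA, ← map_sub, IsLocalRing.residue_eq_zero_iff]
    refine (A.valuation_lt_one_iff _).2 ?_
    show A.valuation (σ (z : Qb) / z - 1) < 1
    rw [div_sub_one hz0', map_div₀]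
    have hv : A.valuation (z : Qb) = 1 := le_antisymm ((A.valuation_le_one_iff _).mpr z.2)
      (by
        have := (A.valuation_le_one_iff _).mpr hzinv
        rwa [map_inv₀, inv_le_one₀ (zero_lt_iff.2 ((map_ne_zero _).2 hz0'))] at this)
    rw [hv, div_one]
    exact Local.inertia_val_sub_lt_one hσ z.2
  have h1 := congrArg πA (Subtype.ext (by
    rw [AddSubmonoidClass.coe_finsetSum]
    simp only [SubmonoidClass.coe_pow]
    exact hgeom) : ∑ i ∈ Finset.range m, η ^ i = (0 : A))
  simp only [map_sum, map_pow, hηres, one_pow, Finset.sum_const, Finset.card_range, nsmul_one,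
    map_zero] at h1
  exact hm0 h1

variable {k : Type*} [Field k] {π : A →+* k}
  {d : GoodReductionDatum A π (modularFunctionFieldBar N) (modularFunctionFieldFullC k N)}

namespace GoodReductionDatum.IsLaurent

/-- The functions all of whose coefficients lie in `A`. -/
def coeffRing (A : ValuationSubring Qb) : Subring (modularFunctionFieldBar N) :=
  (coeffMap A.subtype).range.comap (modularFunctionFieldBar N).toSubfield.subtype

theorem mem_coeffRing_iff {x : modularFunctionFieldBar N} :
    x ∈ coeffRing A ↔ ∀ n : ℤ, (x : LaurentSeries Qb).coeff n ∈ A := by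
  constructor
  · rintro ⟨y, hy⟩ n
    rw [show (x : LaurentSeries Qb) = coeffMap A.subtype y from hy.symm, coeffMap_coeff]
    exact (y.coeff n).2
  · intro h
    refine ⟨⟨fun n => ⟨_, h n⟩, (x : LaurentSeries Qb).isPWO_support.mono fun n hn => by
      simpa [Function.mem_support, Subtype.ext_iff] using hn⟩, HahnSeries.ext rfl⟩

variable [RRSetting Qb (modularFunctionFieldBar N)]
  [RRSetting k (modularFunctionFieldFullC k N)]

omit [RRSetting Qb (modularFunctionFieldBar N)] [RRSetting k (modularFunctionFieldFullC k N)] in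
theorem redsTo_galAut (hd : d.IsLaurent) (g : A.decompositionSubgroup ℚ) (τ : k ≃+* k)
    (hτ : ∀ a : A, τ (π a) = π (g • a))
    (f : modularFunctionFieldBar N) (fb : modularFunctionFieldFullC k N) (h : d.RedsTo f fb) :
    d.RedsTo (galAut N (g : GQ) • f) (ES.coeffSemilinear N (τ) • fb) := by
  have key : ∀ (y : modularFunctionFieldBar N) (yb : modularFunctionFieldFullC k N),
      (∀ n : ℤ, (y : LaurentSeries Qb).coeff n ∈ A) → d.RedsTo y yb →
      d.RedsTo (galAut N (g : GQ) • y) (ES.coeffSemilinear N (τ) • yb) := by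
    rintro y yb hy ⟨hm, rfl⟩
    have hy' : ∀ n : ℤ, ((galAut N (g : GQ) • y : modularFunctionFieldBar N) :
        LaurentSeries Qb).coeff n ∈ A := fun n => by
      rw [coeff_galAut]
      exact galois_mem_of_decomposition g.2 (hy n)
    refine ⟨hd.mem_integers _ hy', Subtype.ext (HahnSeries.ext (funext fun n => ?_))⟩
    rw [hd.coeff_red ⟨_, hd.mem_integers _ hy'⟩ hy' n, ES.coe_coeffSemilinear_smul,
      coeffMap_coeff, hd.coeff_red ⟨y, hm⟩ hy n]
    exact (hτ ⟨_, hy n⟩).symm
  obtain ⟨hm, rfl⟩ := h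
  obtain ⟨y, z, hy, hz, hz0, hxyz⟩ := hd.exists_fraction ⟨f, hm⟩
  have h1 := key _ _ hz (redsTo_red z)
  have h2 := key _ _ hy (redsTo_red y)
  have h0 : ES.coeffSemilinear N (τ) • d.red z ≠ 0 := semilinear_smul_ne_zero _ hz0
  have h3 := redsTo_of_mul_eq h1 h0 h2 (x := galAut N (g : GQ) • f) (by
    rw [← smul_mul']
    exact congrArg (galAut N (g : GQ) • ·) (congrArg Subtype.val hxyz))
  rwa [← hxyz, map_mul, smul_mul', mul_div_assoc, div_self h0, mul_one] at h3

omit [RRSetting Qb (modularFunctionFieldBar N)] [RRSetting k (modularFunctionFieldFullC k N)] in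
theorem compatible_galAut (hd : d.IsLaurent) (g : A.decompositionSubgroup ℚ) (τ : k ≃+* k)
    (hτ : ∀ a : A, τ (π a) = π (g • a)) :
    d.Compatible (galAut N (g : GQ)) (ES.coeffSemilinear N (τ)) :=
  ⟨fun a => galois_mem_of_decomposition g.2 a.2, hd.redsTo_galAut g τ hτ⟩

omit [RRSetting Qb (modularFunctionFieldBar N)] [RRSetting k (modularFunctionFieldFullC k N)] in
theorem compatible_inertia (hd : d.IsLaurent) {σ : GQ} (hσ : σ ∈ A.inertiaSubgroupIn ℚ) :
    d.Compatible (galAut N σ) 1 := by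
  have hD := Local.mem_decomposition_of_inertia hσ
  have hτ : ∀ a : A, RingEquiv.refl k (π a) = π ((⟨σ, hD⟩ : A.decompositionSubgroup ℚ) • a) := by
    intro a
    rw [RingEquiv.refl_apply, eq_comm, ← sub_eq_zero, ← map_sub, d.pi_eq_zero_iff]
    exact (A.valuation_lt_one_iff _).2 (Local.inertia_val_sub_lt_one hσ a.2)
  have := hd.compatible_galAut ⟨σ, hD⟩ _ hτ
  rwa [ES.coeffSemilinear_refl] at this

omit [RRSetting Qb (modularFunctionFieldBar N)] [RRSetting k (modularFunctionFieldFullC k N)] in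
/-- An inertia invariant function with coefficients in `A` and nonzero reduction clearing the
denominators of finitely many integers. -/
theorem exists_fixed_denominator (hd : d.IsLaurent) {ι : Type*} [Fintype ι]
    (x : ι → modularFunctionFieldBar N) (hx : ∀ i, x i ∈ d.integers) :
    ∃ (Z : modularFunctionFieldBar N) (Zb : modularFunctionFieldFullC k N),
      (∀ σ ∈ A.inertiaSubgroupIn ℚ, galAut N σ • Z = Z) ∧ d.RedsTo Z Zb ∧ Zb ≠ 0 ∧
        ∀ i n, ((Z * x i : modularFunctionFieldBar N) : LaurentSeries Qb).coeff n ∈ A := by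
  classical
  choose y z hy hz hz0 hxyz using fun i => hd.exists_fraction ⟨x i, hx i⟩
  set Z₀ : modularFunctionFieldBar N := ∏ i, (z i : modularFunctionFieldBar N) with hZ₀
  have hZ₀r : d.RedsTo Z₀ (∏ i, d.red (z i)) := by
    have := redsTo_red (d := d) (∏ i, z i)
    rwa [SubmonoidClass.coe_finsetProd, map_prod] at this
  have hZ₀ne : (∏ i, d.red (z i)) ≠ 0 := Finset.prod_ne_zero_iff.mpr fun i _ => hz0 i
  have hZ₀c : Z₀ ∈ coeffRing A := prod_mem fun i _ => mem_coeffRing_iff.mpr (hz i)
  set O := (finite_galAut_orbit (A.inertiaSubgroupIn ℚ : Set GQ) Z₀).toFinset with hO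
  have hmemO : ∀ {w}, w ∈ O ↔ ∃ σ ∈ A.inertiaSubgroupIn ℚ, galAut N σ • Z₀ = w := by
    simp [hO]
  have hZmem : Z₀ ∈ O := hmemO.mpr ⟨1, one_mem _, by simp⟩
  have hred : ∀ w ∈ O, d.RedsTo w (∏ i, d.red (z i)) := fun w hw => by
    obtain ⟨σ, hσ, rfl⟩ := hmemO.mp hw
    simpa using (hd.compatible_inertia hσ).redsTo_smul _ _ hZ₀r
  have hcoef : ∀ w ∈ O, w ∈ coeffRing A := fun w hw => by
    obtain ⟨σ, hσ, rfl⟩ := hmemO.mp hw
    exact mem_coeffRing_iff.mpr fun n => by
      rw [coeff_galAut]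
      exact galois_mem_of_decomposition (Local.mem_decomposition_of_inertia hσ)
        (mem_coeffRing_iff.mp hZ₀c n)
  refine ⟨∏ w ∈ O, w, ∏ _w ∈ O, ∏ i, d.red (z i), fun σ hσ => ?_, ?_,
    Finset.prod_ne_zero_iff.mpr fun _ _ => hZ₀ne, fun i => ?_⟩
  · rw [Finset.smul_prod']
    refine Finset.prod_bij (fun w _ => galAut N σ • w) (fun w hw => ?_) (fun w _ w' _ h => ?_)
      (fun w hw => ?_) (fun w _ => rfl)
    · obtain ⟨τ, hτ, rfl⟩ := hmemO.mp hw
      exact hmemO.mpr ⟨σ * τ, mul_mem hσ hτ, galAut_mul_smul σ τ Z₀⟩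
    · exact MulAction.injective _ h
    · obtain ⟨τ, hτ, rfl⟩ := hmemO.mp hw
      refine ⟨galAut N (σ⁻¹ * τ) • Z₀, hmemO.mpr ⟨_, mul_mem (inv_mem hσ) hτ, rfl⟩, ?_⟩
      show galAut N σ • galAut N (σ⁻¹ * τ) • Z₀ = _
      rw [← galAut_mul_smul, mul_inv_cancel_left]
  · have key : ∀ s : Finset (modularFunctionFieldBar N),
        (∀ w ∈ s, d.RedsTo w (∏ i, d.red (z i))) →
          d.RedsTo (∏ w ∈ s, w) (∏ _w ∈ s, ∏ i, d.red (z i)) := by
      intro s hs
      induction s using Finset.induction with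
      | empty => simpa using redsTo_one
      | @insert a s ha ih =>
        rw [Finset.prod_insert ha, Finset.prod_insert ha]
        exact (hs a (Finset.mem_insert_self a s)).mul
          (ih (fun w hw => hs w (Finset.mem_insert_of_mem hw)))
    exact key O hred
  · rw [← mem_coeffRing_iff, ← Finset.mul_prod_erase O (fun w => w) hZmem, mul_comm Z₀ _,
      mul_assoc]
    refine mul_mem (prod_mem fun w hw => hcoef w (Finset.mem_of_mem_erase hw)) ?_
    rw [hZ₀, ← Finset.mul_prod_erase _ _ (Finset.mem_univ i), mul_assoc, mul_comm, mul_assoc]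
    refine mul_mem (prod_mem fun j _ => mem_coeffRing_iff.mpr (hz j)) ?_
    refine mem_coeffRing_iff.mpr fun n => ?_
    have h := congrArg Subtype.val (hxyz i)
    rw [show x i * (z i : modularFunctionFieldBar N) = y i from h]
    exact hy i n

variable {B : Divisor Qb (modularFunctionFieldBar N)}

/-- Inertia invariant lifts in `L(B)`. -/
theorem exists_fixed_lift (hd : d.IsLaurent) (hlift : ∀ c : k, ∃ z : A, π z = c ∧ ∀ σ ∈ A.inertiaSubgroupIn ℚ, σ (z : Qb) = z)
    (hB : 4 * (genusFF Qb (modularFunctionFieldBar N) : ℤ) + 2 ≤ Divisor.degree B)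
    (hBfix : ∀ σ ∈ A.inertiaSubgroupIn ℚ, galAut N σ • B = B)
    {fb : modularFunctionFieldFullC k N} (hfb : fb ∈ riemannRochSpace (d.redDiv B)) :
    ∃ f ∈ riemannRochSpace B, d.RedsTo f fb ∧
      ∀ σ ∈ A.inertiaSubgroupIn ℚ, galAut N σ • f = f := by
  classical
  obtain ⟨β, βb, hβL, hβ, hind, hspan⟩ := d.exists_intBasis B
  obtain ⟨f₁, hf₁, hf₁r⟩ := d.exists_redsTo_of_mem_L (by omega) hfb
  obtain ⟨t, ht⟩ := Submodule.mem_span_range_iff_exists_fun Qb |>.mp (hspan.ge hf₁)
  have htA := coords_mem hβ hind hf₁r.mem ht.symm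
  have hfb' : fb = ∑ j, π ⟨t j, htA j⟩ • βb j :=
    hf₁r.unique (by rw [← ht]; exact redsTo_sum_smul hβ fun j => ⟨t j, htA j⟩)
  obtain ⟨Z, Zb, hZfix, hZ, hZb, hZc⟩ := hd.exists_fixed_denominator β fun j => (hβ j).mem
  have hw : ∀ j, d.RedsTo (Z * β j) (Zb * βb j) := fun j => hZ.mul (hβ j)
  have hind' : LinearIndependent k fun j => fun n : ℤ =>
      ((Zb * βb j : modularFunctionFieldFullC k N) : LaurentSeries k).coeff n := by
    rw [Fintype.linearIndependent_iff] at hind ⊢
    intro c hc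
    refine hind c (mul_left_cancel₀ hZb ?_)
    rw [mul_zero, Finset.mul_sum]
    apply Subtype.ext
    ext n
    have := congrFun hc n
    simp only [Finset.sum_apply, Pi.smul_apply, smul_eq_mul, Pi.zero_apply] at this
    simp only [mul_smul_comm]
    rw [coe_coeff_sum, ZeroMemClass.coe_zero, HahnSeries.coeff_zero, ← this]
  obtain ⟨n, hn⟩ := exists_index_det_ne_zero hind'
  let M : Matrix (Fin (ell B)) (Fin (ell B)) A := fun i j => ⟨_, hZc j (n i)⟩
  have hMπ : M.map π = Matrix.of fun i j =>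
      ((Zb * βb j : modularFunctionFieldFullC k N) : LaurentSeries k).coeff (n i) := by
    ext i j
    rw [Matrix.map_apply, Matrix.of_apply]
    obtain ⟨hm, hred⟩ := hw j
    rw [← hred, hd.coeff_red ⟨_, hm⟩ (hZc j) (n i)]
  have hdet : IsUnit M.det := by
    rw [d.isUnit_iff_pi_ne_zero, RingHom.map_det]
    show (M.map π).det ≠ 0
    rw [hMπ]
    exact hn
  choose c hc hcfix using fun i => hlift
    ((M.map π).mulVec (fun j => π ⟨t j, htA j⟩) i)
  let a : Fin (ell B) → A := M⁻¹.mulVec c
  have hMa : M.mulVec a = c := by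
    rw [Matrix.mulVec_mulVec, Matrix.mul_nonsing_inv M hdet, Matrix.one_mulVec]
  have hπa : (fun j => π (a j)) = fun j => π ⟨t j, htA j⟩ := by
    have h1 : (M.map π).mulVec (fun j => π (a j)) =
        (M.map π).mulVec (fun j => π ⟨t j, htA j⟩) := funext fun i => by
      rw [← hc i, ← congrFun hMa i, RingHom.map_mulVec]
      rfl
    have hu : IsUnit (M.map π).det := by
      have := hdet.map π
      rwa [RingHom.map_det] at this
    exact Matrix.mulVec_injective_iff_isUnit.mpr ((Matrix.isUnit_iff_isUnit_det _).mpr hu) h1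
  refine ⟨∑ j, (a j : Qb) • β j, Submodule.sum_mem _ fun j _ => Submodule.smul_mem _ _ (hβL j),
    ?_, fun σ hσ => ?_⟩
  · rw [hfb']
    have := redsTo_sum_smul hβ a
    simp only [congrFun hπa] at this
    exact this
  · set f := ∑ j, (a j : Qb) • β j with hf
    have hσf : galAut N σ • f ∈ riemannRochSpace B := by
      rw [← hBfix σ hσ]
      exact semilinear_smul_mem_L _ (Submodule.sum_mem _ fun j _ => Submodule.smul_mem _ _ (hβL j))
    obtain ⟨a', ha'⟩ := Submodule.mem_span_range_iff_exists_fun Qb |>.mp (hspan.ge hσf)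
    let MK : Matrix (Fin (ell B)) (Fin (ell B)) Qb := M.map A.subtype
    have hcoeff : ∀ (v : Fin (ell B) → Qb) (i : Fin (ell B)),
        ((Z * ∑ j, v j • β j : modularFunctionFieldBar N) : LaurentSeries Qb).coeff (n i) =
          MK.mulVec v i := fun v i => by
      rw [Finset.mul_sum]
      simp only [mul_smul_comm]
      rw [coe_coeff_sum]
      exact Finset.sum_congr rfl fun j _ => mul_comm _ _
    have hMKa : MK.mulVec (fun j => (a j : Qb)) = fun i => (c i : Qb) := funext fun i => by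
      rw [← congrFun hMa i]
      exact (RingHom.map_mulVec A.subtype M a i).symm
    have h1 : MK.mulVec a' = fun i => (c i : Qb) := funext fun i => by
      rw [← hcoeff, ha', ← hZfix σ hσ, ← smul_mul', coeff_galAut, hf, hcoeff, hMKa]
      exact hcfix i σ hσ
    have hu : IsUnit MK.det := by
      have := hdet.map A.subtype
      rwa [RingHom.map_det] at this
    have : a' = fun j => (a j : Qb) :=
      Matrix.mulVec_injective_iff_isUnit.mpr ((Matrix.isUnit_iff_isUnit_det _).mpr hu)
        (h1.trans hMKa.symm)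
    rw [← ha', this]

/-- Inertia invariant lifts of places. -/
theorem exists_fixed_place (hd : d.IsLaurent) (hlift : ∀ c : k, ∃ z : A, π z = c ∧ ∀ σ ∈ A.inertiaSubgroupIn ℚ, σ (z : Qb) = z)
    (hB : 4 * (genusFF Qb (modularFunctionFieldBar N) : ℤ) + 2 ≤ Divisor.degree B)
    (hBfix : ∀ σ ∈ A.inertiaSubgroupIn ℚ, galAut N σ • B = B)
    (Q : Place k (modularFunctionFieldFullC k N)) :
    ∃ P, d.place P = Q ∧ ∀ σ ∈ A.inertiaSubgroupIn ℚ, galAut N σ • P = P := by
  classical
  obtain ⟨tb, htb, htb0, hord⟩ := exists_mem_ord_eq_succ (D := d.redDiv B)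
    (by rw [degree_redDiv, d.genus_eq]; omega) Q
  obtain ⟨t, ht, ht', htfix⟩ := hd.exists_fixed_lift hlift hB hBfix htb
  have ht0 := ht'.ne_zero htb0
  set D := divOf (K := Qb) t + B with hD
  have hD0 : 0 ≤ D := (mem_L_iff_divOf ht0).mp ht
  have h1 : d.redDiv D Q = 1 := by
    rw [hD, map_add, ht'.redDiv_divOf htb0, Finsupp.add_apply, divOf_apply htb0, hord]
    ring
  obtain ⟨P, hP, hPD⟩ : ∃ P, d.place P = Q ∧ 1 ≤ D P := by
    by_contra! hc
    have h2 : d.redDiv D Q = 0 := by
      simp only [Finsupp.mapDomain.addMonoidHom_apply, Finsupp.mapDomain, Finsupp.sum_apply]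
      refine Finset.sum_eq_zero fun P _ => ?_
      show (Finsupp.single (d.place P) (D P)) Q = 0
      rw [Finsupp.single_apply]
      split
      · next h =>
        have h3 : D P < 1 := hc P h
        have h4 : 0 ≤ D P := by simpa using Finsupp.le_def.mp hD0 P
        omega
      · rfl
    omega
  refine ⟨P, hP, fun σ hσ => ?_⟩
  by_contra hne
  have hDfix : galAut N σ • D = D := by
    rw [hD, smul_add, semilinear_smul_divOf _ ht0, htfix σ hσ, hBfix σ hσ]
  have hPD' : 1 ≤ D (galAut N σ • P) := by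
    have h := SemilinearAut.divisor_smul_apply_smul (galAut N σ) D P
    rw [hDfix] at h
    omega
  have hle : Finsupp.single P 1 + Finsupp.single (galAut N σ • P) 1 ≤ D := by
    rw [Finsupp.le_def]
    intro v
    have h4 : 0 ≤ D v := by simpa using Finsupp.le_def.mp hD0 v
    rw [Finsupp.add_apply, Finsupp.single_apply, Finsupp.single_apply]
    split <;> split
    · exact absurd (by simp_all) hne
    all_goals simp_all
  have h5 := Finsupp.le_def.mp (redDiv_mono (d := d) hle) Q
  rw [map_add, Finsupp.add_apply, h1, Finsupp.mapDomain.addMonoidHom_apply,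
    Finsupp.mapDomain_single, Finsupp.mapDomain.addMonoidHom_apply, Finsupp.mapDomain_single,
    (hd.compatible_inertia hσ).place_smul, one_smul, hP, Finsupp.single_eq_same] at h5
  omega

/-- Inertia invariant lifts of divisors. -/
theorem exists_fixed_divisor (hd : d.IsLaurent) (hlift : ∀ c : k, ∃ z : A, π z = c ∧ ∀ σ ∈ A.inertiaSubgroupIn ℚ, σ (z : Qb) = z)
    (hB : 4 * (genusFF Qb (modularFunctionFieldBar N) : ℤ) + 2 ≤ Divisor.degree B)
    (hBfix : ∀ σ ∈ A.inertiaSubgroupIn ℚ, galAut N σ • B = B)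
    (Db : Divisor k (modularFunctionFieldFullC k N)) :
    ∃ D, d.redDiv D = Db ∧ ∀ σ ∈ A.inertiaSubgroupIn ℚ, galAut N σ • D = D := by
  choose P hP hPfix using hd.exists_fixed_place hlift hB hBfix
  refine ⟨Finsupp.mapDomain P Db, ?_, fun σ hσ => ?_⟩
  · rw [Finsupp.mapDomain.addMonoidHom_apply, ← Finsupp.mapDomain_comp,
      show d.place ∘ P = id from funext hP, Finsupp.mapDomain_id]
  · rw [SemilinearAut.divisor_smul_def, ← Finsupp.mapDomain_comp]
    exact Finsupp.mapDomain_congr fun Q _ => hPfix Q σ hσ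

end GoodReductionDatum.IsLaurent

/-- A Galois invariant divisor of large degree. -/
theorem exists_invariant_bound [NeZero N] [RRSetting Qb (modularFunctionFieldBar N)] :
    ∃ B : Divisor Qb (modularFunctionFieldBar N),
      4 * (genusFF Qb (modularFunctionFieldBar N) : ℤ) + 2 ≤ Divisor.degree B ∧
        ∀ σ : GQ, galAut N σ • B = B := by
  classical
  set x : modularFunctionFieldBar N := ModFun.jBar Qb N with hx
  have hx0 : x ≠ 0 := fun h => ModFun.transcendental_jBar Qb N (by rw [← hx, h]; exact isAlgebraic_zero)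
  have hfix : ∀ σ : GQ, galAut N σ • x = x := fun σ => Subtype.ext (map_jqModC (σ : Qb →+* Qb))
  let D₀ : Divisor Qb (modularFunctionFieldBar N) :=
    Finsupp.mapRange (fun n : ℤ => max 0 (-n)) (by simp) (divOf (K := Qb) x)
  have hD₀ : 0 ≤ D₀ := by
    rw [Finsupp.le_def]
    intro v
    simp [D₀]
  have hD₀fix : ∀ σ : GQ, galAut N σ • D₀ = D₀ := fun σ => by
    have h := semilinear_smul_divOf (galAut N σ) hx0
    rw [hfix σ] at h
    ext v
    rw [SemilinearAut.divisor_smul_apply, Finsupp.mapRange_apply, Finsupp.mapRange_apply]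
    conv_rhs => rw [← h, SemilinearAut.divisor_smul_apply]
  have hpos : 0 < Divisor.degree D₀ := by
    obtain ⟨v, hv⟩ : ∃ v, D₀ v ≠ 0 := by
      by_contra! hc
      have hL : x ∈ riemannRochSpace (0 : Divisor Qb (modularFunctionFieldBar N)) := by
        rw [mem_L_iff hx0]
        intro v
        have h := hc v
        simp only [D₀, Finsupp.mapRange_apply, divOf_apply hx0] at h
        simp only [Finsupp.coe_zero, Pi.zero_apply, neg_zero]
        omega
      have hell : ell (0 : Divisor Qb (modularFunctionFieldBar N)) = 1 := ell_zero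
      have hspan : riemannRochSpace (0 : Divisor Qb (modularFunctionFieldBar N)) =
          Submodule.span Qb {(1 : modularFunctionFieldBar N)} := by
        refine (Submodule.eq_of_le_of_finrank_le
          (Submodule.span_le.mpr (Set.singleton_subset_iff.mpr (one_mem_L le_rfl))) ?_).symm
        rw [finrank_span_singleton (one_ne_zero (α := modularFunctionFieldBar N))]
        exact hell.le
      rw [hspan, Submodule.mem_span_singleton] at hL
      obtain ⟨c, hc'⟩ := hL
      refine ModFun.transcendental_jBar Qb N ?_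
      rw [← hx, ← hc', ← Algebra.algebraMap_eq_smul_one]
      exact isAlgebraic_algebraMap c
    rw [degree_eq_sum_coeff]
    refine Finset.sum_pos' (fun w _ => by simpa using Finsupp.le_def.mp hD₀ w)
      ⟨v, Finsupp.mem_support_iff.mpr hv, ?_⟩
    have : 0 ≤ D₀ v := by simpa using Finsupp.le_def.mp hD₀ v
    show 0 < D₀ v
    omega
  refine ⟨(4 * genusFF Qb (modularFunctionFieldBar N) + 2) • D₀, ?_, fun σ => ?_⟩
  · rw [map_nsmul, nsmul_eq_mul]
    push_cast
    exact le_mul_of_one_le_right (by positivity) hpos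
  · exact (map_nsmul (DistribSMul.toAddMonoidHom _ (galAut N σ)) _ D₀).trans
      (congrArg _ (hD₀fix σ))

end FermatAgent.JacCharts
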