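import Fermat.Agent.JacCharts.Model
import Fermat.Agent.Igusa.GoodRed.Concrete
import Fermat.Agent.ModCurve.Torsion.Interface

/-!
# Finite flat models of the torsion of `J₀(N)` at primes of good reduction
-/

set_option autoImplicit false

noncomputable section

open AlgebraicCurve ModularCurve

namespace FermatAgent.JacCharts

local notation "Qb" => AlgebraicClosure ℚ
local notation "GQ" => AlgebraicClosure ℚ ≃ₐ[ℚ] AlgebraicClosure ℚ

namespace GoodReductionDatum

variable {N : ℕ} {A : ValuationSubring (AlgebraicClosure ℚ)} {k : Type*} [Field k] {π : A →+* k}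
variable {d : GoodReductionDatum A π (modularFunctionFieldBar N) (modularFunctionFieldFullC k N)}
variable [FermatAgent.Curve.RR.RRSetting (AlgebraicClosure ℚ) (modularFunctionFieldBar N)]
  [FermatAgent.Curve.RR.RRSetting k (modularFunctionFieldFullC k N)]
variable {B : Divisor (AlgebraicClosure ℚ) (modularFunctionFieldBar N)}
variable {T : Type} [AddCommGroup T] {ι : T →+ JZero N}

/-- Model functions are congruent on each residual class. -/
theorem val_sub_lt_one_of_sameRed (Ch : T → d.Chart B)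
    (hB : 4 * (genusFF Qb (modularFunctionFieldBar N) : ℤ) + 2 ≤ Divisor.degree B)
    (hfit : ∀ x, (Ch x).Fits (ι x)) {f : T → Qb} (hf : f ∈ modelAlg ι Ch) {x y : T}
    (hxy : d.SameRed ι x y) : A.valuation (f y - f x) < 1 := by
  have key : ∀ g (hg : g ∈ modelAlg ι Ch),
      π ⟨g y, val_mem_modelAlg Ch hg y⟩ = π ⟨g x, val_mem_modelAlg Ch hg x⟩ := by
    intro g hg
    induction hg using Algebra.adjoin_induction with
    | mem g hgen =>
      have hiff : ∀ x₀ : T, d.SameRed ι x₀ y ↔ d.SameRed ι x₀ x := fun x₀ => by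
        unfold SameRed at hxy ⊢
        rw [hxy]
      rcases hgen with ⟨x₀, rfl⟩ | ⟨x₀, h, ⟨p, rfl⟩, rfl⟩
      · by_cases hx : d.SameRed ι x₀ x
        · congr 1; apply Subtype.ext
          simp [extendFun_of_pos _ hx, extendFun_of_pos _ ((hiff x₀).mpr hx)]
        · congr 1; apply Subtype.ext
          simp [extendFun_of_neg _ hx, extendFun_of_neg _ (mt (hiff x₀).mp hx)]
      · by_cases hx : d.SameRed ι x₀ x
        · simp [extendFun_of_pos _ hx, extendFun_of_pos _ ((hiff x₀).mpr hx),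
            (Ch x₀).pi_coords hB (fits_of_sameRed Ch hfit hx),
            (Ch x₀).pi_coords hB (fits_of_sameRed Ch hfit ((hiff x₀).mpr hx))]
        · congr 1; apply Subtype.ext
          simp [extendFun_of_neg _ hx, extendFun_of_neg _ (mt (hiff x₀).mp hx)]
    | algebraMap r => rfl
    | add a b ha hb iha ihb =>
      show π (⟨a y, val_mem_modelAlg Ch ha y⟩ + ⟨b y, val_mem_modelAlg Ch hb y⟩) =
        π (⟨a x, val_mem_modelAlg Ch ha x⟩ + ⟨b x, val_mem_modelAlg Ch hb x⟩)
      rw [map_add, map_add, iha, ihb]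
    | mul a b ha hb iha ihb =>
      show π (⟨a y, val_mem_modelAlg Ch ha y⟩ * ⟨b y, val_mem_modelAlg Ch hb y⟩) =
        π (⟨a x, val_mem_modelAlg Ch ha x⟩ * ⟨b x, val_mem_modelAlg Ch hb x⟩)
      rw [map_mul, map_mul, iha, ihb]
  have h := key f hf
  rw [← sub_eq_zero, ← map_sub, d.pi_eq_zero_iff] at h
  exact (A.valuation_lt_one_iff _).1 h

variable [Infinite k] [Finite T] [DistribMulAction (AlgebraicClosure ℚ ≃ₐ[ℚ] AlgebraicClosure ℚ) T]

/-- A local model whose functions are congruent on each residual class. -/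
theorem exists_localModel_congr (hd : d.IsLaurent)
    (hlift : ∀ c : k, ∃ z : A, π z = c ∧ ∀ σ ∈ A.inertiaSubgroupIn ℚ, σ (z : Qb) = z)
    (hτ : ∀ g : A.decompositionSubgroup ℚ, ∃ τ : k ≃+* k, ∀ a : A, τ (π a) = π (g • a))
    (hB : 4 * (genusFF Qb (modularFunctionFieldBar N) : ℤ) + 2 ≤ Divisor.degree B)
    (hBfix : ∀ σ : GQ, galAut N σ • B = B)
    (hinj : Function.Injective ι) (hι : ∀ (σ : GQ) (x : T), ι (σ • x) = galAut N σ • ι x) :
    ∃ L : LocalModel T A, ∀ f ∈ L.HA, ∀ x y : T, d.redPic0 (ι x) = d.redPic0 (ι y) →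
      A.valuation (f x - f y) < 1 := by
  choose Ch hfit hfixed using fun x : T => exists_fixed_chart (d := d) hd hlift hB hBfix (ι x)
  refine ⟨⟨modelAlg ι Ch, fun f hf x => val_mem_modelAlg Ch hf x,
    modelAlg_separates Ch hB hfit hinj,
    fun σ hσ f hf => twist_mem_modelAlg Ch hB hfit hι hd hBfix hτ hσ hf, ?_,
    fun f hf => addMap_mem_pairAlg Ch hB hfit hf⟩,
    fun f hf x y h => val_sub_lt_one_of_sameRed Ch hB hfit hf h⟩
  refine Algebra.adjoin_mono fun g hg => ?_
  exact ⟨Algebra.subset_adjoin hg,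
    fun σ hσ => twist_inertia Ch hB hfit hι hd hBfix hfixed hσ hg⟩

end GoodReductionDatum

/-- The local model at a place over `ℓ ∤ N`, congruent on the fibres of reduction. -/
theorem exists_localModel {N : ℕ} [NeZero N] {ℓ : ℕ} (hℓ : ℓ.Prime) (hℓN : ¬ ℓ ∣ N)
    {A : ValuationSubring Qb} (hA : A.LiesOverPrime ℓ)
    {T : Type} [AddCommGroup T] [Finite T] [DistribMulAction GQ T] (ι : T →+ JZero N)
    (hinj : Function.Injective ι) (hι : ∀ (σ : GQ) (x : T), ι (σ • x) = σ • ι x) :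
    ∃ L : LocalModel T A, ∀ f ∈ L.HA, ∀ x : T, reductionModL A N (ι x) = 0 →
      A.valuation (f x - f 0) < 1 := by
  have := Igusa.Down.isFunctionField1_bar N
  have := Igusa.Down.isFunctionField1_fibre' N hℓ hℓN hA
  have := Igusa.Down.isAlgClosed_residueField A
  have : Infinite (IsLocalRing.ResidueField A) := IsAlgClosed.instInfinite
  obtain ⟨B, hB, hBfix⟩ := exists_invariant_bound (N := N)
  have hd := Igusa.Down.isLaurent_datum N hℓ hℓN hA
  obtain ⟨L, hL⟩ := GoodReductionDatum.exists_localModel_congr hd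
    (fun c => exists_fixed_residue hℓ hA c)
    (fun g => ⟨ES.residueAut g, fun a => ES.residueAut_residue g a⟩) hB hBfix hinj
    (fun σ x => hι σ x)
  refine ⟨L, fun f hf x hx => hL f hf x 0 ?_⟩
  rw [← hd.reductionAlong_eq_redPic0 hd.reductionInputsAlong, map_zero ι, map_zero]
  exact hx

/-- A finite Galois stable subgroup of `J₀(N)` with open stabilisers has a model over `ℤ_(ℓ)`
for `ℓ ∤ N`. -/
theorem nonempty_functionModel {N : ℕ} [NeZero N] {ℓ : ℕ} (hℓ : ℓ.Prime) (hℓN : ¬ ℓ ∣ N)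
    {T : Type} [AddCommGroup T] [Finite T] [DistribMulAction GQ T] (ι : T →+ JZero N)
    (hinj : Function.Injective ι) (hι : ∀ (σ : GQ) (x : T), ι (σ • x) = σ • ι x) :
    Nonempty (GalRep.Flat.FunctionModel ℓ T (fun σ x => σ • x)) := by
  obtain ⟨A, hA⟩ := RT.exists_liesOverPrime hℓ
  have := Igusa.Down.isFunctionField1_bar N
  have := Igusa.Down.isFunctionField1_fibre' N hℓ hℓN hA
  have := Igusa.Down.isAlgClosed_residueField A
  have : Infinite (IsLocalRing.ResidueField A) := IsAlgClosed.instInfinite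
  obtain ⟨B, hB, hBfix⟩ := exists_invariant_bound (N := N)
  obtain ⟨L⟩ := GoodReductionDatum.nonempty_localModel (Igusa.Down.isLaurent_datum N hℓ hℓN hA)
    (fun c => exists_fixed_residue hℓ hA c)
    (fun g => ⟨ES.residueAut g, fun a => ES.residueAut_residue g a⟩) hB hBfix ι hinj
    (fun σ x => hι σ x)
  refine ⟨L.functionModel hℓ hA fun x => ?_⟩
  obtain ⟨E, hE, hfix⟩ := ModCurveTorsion.exists_finiteDimensional_fixing N (ι x)
  exact ⟨E, hE, fun σ hσ => hinj (by rw [hι, hfix σ hσ])⟩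

/-- The `ℓ^k`-torsion of `J₀(N)` has a finite flat model over `ℤ_(ℓ)` for `ℓ ∤ N`. -/
theorem exists_finiteFlat_model (N : ℕ) [NeZero N] (ℓ : ℕ) (hℓ : ℓ.Prime) (hℓN : ¬ ℓ ∣ N)
    (k : ℕ) :
    ∃ (H : Type) (_ : CommRing H) (_ : HopfAlgebra (GaloisRep.ratLocalizedAt ℓ) H),
      Module.Finite (GaloisRep.ratLocalizedAt ℓ) H ∧ Module.Flat (GaloisRep.ratLocalizedAt ℓ) H ∧
      Coalgebra.IsCocomm (GaloisRep.ratLocalizedAt ℓ) H ∧
      ∃ e : WithConv (H →ₐ[GaloisRep.ratLocalizedAt ℓ] AlgebraicClosure ℚ) ≃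
          ↥(Submodule.torsionBy ℤ (JZero N) ((ℓ : ℤ) ^ k)),
        (∀ f g, e (f * g) = e f + e g) ∧
        ∀ (σ : AlgebraicClosure ℚ ≃ₐ[ℚ] AlgebraicClosure ℚ)
          (f g : WithConv (H →ₐ[GaloisRep.ratLocalizedAt ℓ] AlgebraicClosure ℚ)),
          (∀ h : H, g h = σ (f h)) → ((e g : JZero N)) = σ • (e f : JZero N) := by
  have hsmul : ∀ (σ : GQ) (x : JZero N), x ∈ Submodule.torsionBy ℤ (JZero N) ((ℓ : ℤ) ^ k) →
      σ • x ∈ Submodule.torsionBy ℤ (JZero N) ((ℓ : ℤ) ^ k) := fun σ x hx => by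
    rw [Submodule.mem_torsionBy_iff] at hx ⊢
    have h := map_zsmul (DistribSMul.toAddMonoidHom (JZero N) σ) ((ℓ : ℤ) ^ k) x
    simp only [DistribSMul.toAddMonoidHom_apply, hx, smul_zero] at h
    exact h.symm
  let _ : DistribMulAction GQ ↥(Submodule.torsionBy ℤ (JZero N) ((ℓ : ℤ) ^ k)) :=
    { smul := fun σ x => ⟨σ • (x : JZero N), hsmul σ x x.2⟩
      one_smul := fun x => Subtype.ext (one_smul GQ (x : JZero N))
      mul_smul := fun σ τ x => Subtype.ext (mul_smul σ τ (x : JZero N))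
      smul_zero := fun σ => Subtype.ext (smul_zero σ)
      smul_add := fun σ x y => Subtype.ext (smul_add σ (x : JZero N) y) }
  have : Finite ↥(Submodule.torsionBy ℤ (JZero N) ((ℓ : ℤ) ^ k)) := by
    have hfin := (ModCurveTorsion.torsionModel N).torsion_finite (pow_pos hℓ.pos k)
    refine (hfin.subset fun x hx => ?_).to_subtype
    show ((ℓ ^ k : ℕ) : ℤ) • x = 0
    rw [Nat.cast_pow]
    exact (Submodule.mem_torsionBy_iff _ _).mp hx
  obtain ⟨G⟩ := nonempty_functionModel hℓ hℓN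
    (Submodule.torsionBy ℤ (JZero N) ((ℓ : ℤ) ^ k)).subtype.toAddMonoidHom
    Subtype.val_injective (fun σ x => rfl)
  obtain ⟨H, i₁, i₂, h₁, h₂, h₃, e, he, hσ⟩ := G.exists_hopf
  exact ⟨H, i₁, i₂, h₁, h₂, h₃, e, he, fun σ f g h => congrArg Subtype.val (hσ σ f g h)⟩

end FermatAgent.JacCharts
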