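import Fermat.Agent.JacCharts.Datum
import Fermat.Agent.Curve.RR.Main
import Mathlib.Data.Finsupp.Order

/-!
# First consequences of a good reduction datum

`RedsTo d f fb`: `f` is integral with reduction `fb`. Coordinates of an integral element in a
family with independent reductions are integral; reduction of effective divisors, of principal
divisors and of Riemann-Roch spaces; the reduction map on `Pic⁰`.
-/

set_option autoImplicit false

noncomputable section

open AlgebraicCurve FermatAgent.Curve.RR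

namespace FermatAgent.JacCharts

section Curve

variable {K F : Type*} [Field K] [Field F] [Algebra K F]

theorem ord_algebraMap (v : Place K F) {c : K} (hc : c ≠ 0) : v.ord (algebraMap K F c) = 0 := by
  have hu : IsUnit (algebraMap K v.toValuationSubring c) := (isUnit_iff_ne_zero.mpr hc).map _
  have h := v.ord_coe_unit hu.unit
  rwa [IsUnit.unit_spec, Place.coe_algebraMap] at h

theorem ord_const_smul (v : Place K F) {c : K} (hc : c ≠ 0) {f : F} (hf : f ≠ 0) :
    v.ord (c • f) = v.ord f := by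
  rw [Algebra.smul_def, v.ord_mul ((map_ne_zero _).mpr hc) hf, ord_algebraMap v hc, zero_add]

theorem mem_L_iff {G : Divisor K F} {f : F} (hf : f ≠ 0) :
    f ∈ riemannRochSpace G ↔ ∀ v : Place K F, -G v ≤ v.ord f := by
  rw [mem_riemannRochSpace_iff]
  simp [hf]

theorem L_mono {G G' : Divisor K F} (h : G ≤ G') :
    riemannRochSpace G ≤ riemannRochSpace G' := by
  intro f hf
  rw [mem_riemannRochSpace_iff] at hf ⊢
  intro v
  refine (hf v).imp_right fun h' => ?_
  have := Finsupp.le_def.mp h v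
  omega

theorem mul_mem_L {G G' : Divisor K F} {f f' : F} (hf : f ∈ riemannRochSpace G)
    (hf' : f' ∈ riemannRochSpace G') : f * f' ∈ riemannRochSpace (G + G') := by
  rcases eq_or_ne f 0 with rfl | h0
  · simp
  rcases eq_or_ne f' 0 with rfl | h0'
  · simp
  rw [mem_L_iff h0] at hf
  rw [mem_L_iff h0'] at hf'
  rw [mem_L_iff (mul_ne_zero h0 h0')]
  intro v
  have h1 := hf v
  have h2 := hf' v
  rw [v.ord_mul h0 h0', Finsupp.add_apply]
  omega

theorem algebraMap_mem_L {G : Divisor K F} (hG : 0 ≤ G) (c : K) :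
    algebraMap K F c ∈ riemannRochSpace G := by
  rcases eq_or_ne c 0 with rfl | hc
  · simp
  rw [mem_L_iff ((map_ne_zero _).mpr hc)]
  intro v
  have := Finsupp.le_def.mp hG v
  simp only [Finsupp.coe_zero, Pi.zero_apply] at this
  rw [ord_algebraMap v hc]
  omega

theorem one_mem_L {G : Divisor K F} (hG : 0 ≤ G) : (1 : F) ∈ riemannRochSpace G := by
  simpa using algebraMap_mem_L hG 1

variable [RRSetting K F]

/-- The divisor of a nonzero function. -/
def divOf (f : F) : Divisor K F :=
  open Classical in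
  if hf : f ≠ 0 then (HasPrincipalDivisors.exists_divisor (K := K) f hf).choose else 0

theorem divOf_apply {f : F} (hf : f ≠ 0) (v : Place K F) : divOf (K := K) f v = v.ord f := by
  rw [divOf, dif_pos hf]
  exact (HasPrincipalDivisors.exists_divisor (K := K) f hf).choose_spec.1 v

theorem degree_divOf {f : F} (hf : f ≠ 0) : Divisor.degree (divOf (K := K) f) = 0 := by
  rw [divOf, dif_pos hf]
  exact (HasPrincipalDivisors.exists_divisor (K := K) f hf).choose_spec.2

theorem divOf_mem_principal {f : F} (hf : f ≠ 0) :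
    divOf (K := K) f ∈ Divisor.principal (K := K) (F := F) :=
  ⟨f, hf, divOf_apply hf⟩

theorem mem_L_iff_divOf {G : Divisor K F} {f : F} (hf : f ≠ 0) :
    f ∈ riemannRochSpace G ↔ 0 ≤ divOf (K := K) f + G := by
  rw [mem_L_iff hf, Finsupp.le_def]
  refine forall_congr' fun v => ?_
  simp only [Finsupp.coe_zero, Pi.zero_apply, Finsupp.add_apply, divOf_apply hf]
  omega

theorem degree_eq_sum_coeff (D : Divisor K F) : Divisor.degree D = D.sum fun _ n => n := by
  induction D using Finsupp.induction with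
  | zero => simp
  | single_add v n D hv hn ih =>
    rw [map_add, Divisor.degree_single, RRSetting.deg_eq_one, ih,
      Finsupp.sum_add_index' (fun _ => rfl) (fun _ _ _ => rfl), Finsupp.sum_single_index rfl]
    simp

theorem degree_nonneg {D : Divisor K F} (h : 0 ≤ D) : 0 ≤ Divisor.degree D := by
  rw [degree_eq_sum_coeff]
  exact Finset.sum_nonneg fun v _ => by simpa using Finsupp.le_def.mp h v

theorem degree_of_principal {D : Divisor K F}
    (hD : D ∈ Divisor.principal (K := K) (F := F)) : Divisor.degree D = 0 := by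
  obtain ⟨f, hf, h⟩ := hD
  rw [show D = divOf (K := K) f from Finsupp.ext fun v => by rw [h v, divOf_apply hf]]
  exact degree_divOf hf

theorem degree_eq_of_linearEquiv {D E : Divisor K F}
    (h : D - E ∈ Divisor.principal (K := K) (F := F)) :
    Divisor.degree D = Divisor.degree E := by
  have := degree_of_principal h
  rwa [map_sub, sub_eq_zero] at this

end Curve

namespace GoodReductionDatum

variable {K : Type*} [Field K] {A : ValuationSubring K} {k : Type*} [Field k] {π : A →+* k}
variable {F : Type*} [Field F] [Algebra K F] {Fb : Type*} [Field Fb] [Algebra k Fb]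
variable (d : GoodReductionDatum A π F Fb)

include d in
theorem pi_eq_zero_iff (a : A) : π a = 0 ↔ a ∈ IsLocalRing.maximalIdeal A := by
  have h := RingHom.ker_isMaximal_of_surjective π d.residue_surjective
  rw [← RingHom.mem_ker, IsLocalRing.eq_maximalIdeal h]

include d in
theorem isUnit_iff_pi_ne_zero (a : A) : IsUnit a ↔ π a ≠ 0 := by
  rw [ne_eq, d.pi_eq_zero_iff, IsLocalRing.mem_maximalIdeal, mem_nonunits_iff, not_not]

include d in
theorem inv_mem_of_notMem {c : K} (hc : c ∉ A) : ∃ a : A, (a : K) = c⁻¹ ∧ π a = 0 := by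
  have h : c⁻¹ ∈ A := (A.mem_or_inv_mem c).resolve_left hc
  refine ⟨⟨_, h⟩, rfl, ?_⟩
  by_contra h0
  obtain ⟨u, hu⟩ := (d.isUnit_iff_pi_ne_zero ⟨_, h⟩).mpr h0
  have h1 : ((u⁻¹ : Aˣ) : A) * ⟨_, h⟩ = 1 := by rw [← hu]; simp
  have h2 : ((u⁻¹ : Aˣ) : K) * c⁻¹ = 1 := congrArg Subtype.val h1
  have hc0 : c ≠ 0 := fun hz => hc (hz ▸ A.zero_mem)
  have h3 : ((u⁻¹ : Aˣ) : K) = c := by
    field_simp at h2
    exact h2
  exact hc (h3 ▸ ((u⁻¹ : Aˣ) : A).2)

/-- `f` is integral and reduces to `fb`. -/
def RedsTo (f : F) (fb : Fb) : Prop := ∃ h : f ∈ d.integers, d.red ⟨f, h⟩ = fb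

variable {d}

theorem RedsTo.mem {f : F} {fb : Fb} (h : d.RedsTo f fb) : f ∈ d.integers := h.1

theorem redsTo_red (x : d.integers) : d.RedsTo (x : F) (d.red x) := ⟨x.2, rfl⟩

theorem RedsTo.unique {f : F} {fb fb' : Fb} (h : d.RedsTo f fb) (h' : d.RedsTo f fb') :
    fb = fb' :=
  h.2.symm.trans h'.2

theorem redsTo_zero : d.RedsTo (0 : F) (0 : Fb) := ⟨zero_mem _, map_zero d.red⟩

theorem redsTo_one : d.RedsTo (1 : F) (1 : Fb) := ⟨one_mem _, map_one d.red⟩

theorem RedsTo.add {f g : F} {fb gb : Fb} (h : d.RedsTo f fb) (h' : d.RedsTo g gb) :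
    d.RedsTo (f + g) (fb + gb) :=
  ⟨add_mem h.1 h'.1, by rw [← h.2, ← h'.2, ← map_add]; rfl⟩

theorem RedsTo.neg {f : F} {fb : Fb} (h : d.RedsTo f fb) : d.RedsTo (-f) (-fb) :=
  ⟨neg_mem h.1, by rw [← h.2, ← map_neg]; rfl⟩

theorem RedsTo.sub {f g : F} {fb gb : Fb} (h : d.RedsTo f fb) (h' : d.RedsTo g gb) :
    d.RedsTo (f - g) (fb - gb) := by
  simpa [sub_eq_add_neg] using h.add h'.neg

theorem RedsTo.mul {f g : F} {fb gb : Fb} (h : d.RedsTo f fb) (h' : d.RedsTo g gb) :
    d.RedsTo (f * g) (fb * gb) :=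
  ⟨mul_mem h.1 h'.1, by rw [← h.2, ← h'.2, ← map_mul]; rfl⟩

theorem RedsTo.sum {ι : Type*} (s : Finset ι) {f : ι → F} {fb : ι → Fb}
    (h : ∀ i ∈ s, d.RedsTo (f i) (fb i)) : d.RedsTo (∑ i ∈ s, f i) (∑ i ∈ s, fb i) := by
  classical
  induction s using Finset.induction with
  | empty => simpa using redsTo_zero
  | @insert a s ha ih =>
    rw [Finset.sum_insert ha, Finset.sum_insert ha]
    exact (h a (Finset.mem_insert_self a s)).add
      (ih fun i hi => h i (Finset.mem_insert_of_mem hi))

theorem redsTo_algebraMap (a : A) :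
    d.RedsTo (algebraMap K F (a : K)) (algebraMap k Fb (π a)) :=
  ⟨d.algebraMap_mem a, d.red_algebraMap a⟩

theorem RedsTo.smul {f : F} {fb : Fb} (h : d.RedsTo f fb) (a : A) :
    d.RedsTo ((a : K) • f) (π a • fb) := by
  rw [Algebra.smul_def, Algebra.smul_def]
  exact (redsTo_algebraMap a).mul h

theorem RedsTo.ne_zero {f : F} {fb : Fb} (h : d.RedsTo f fb) (h0 : fb ≠ 0) : f ≠ 0 := by
  rintro rfl
  exact h0 (h.unique redsTo_zero)

variable (d) in
theorem exists_scale {f : F} (hf : f ≠ 0) :
    ∃ c : K, c ≠ 0 ∧ ∃ fb : Fb, fb ≠ 0 ∧ d.RedsTo (c • f) fb := by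
  obtain ⟨c, h, hne⟩ := d.exists_normalize f hf
  refine ⟨c, ?_, _, hne, h, rfl⟩
  rintro rfl
  apply hne
  rw [show (⟨(0 : K) • f, h⟩ : d.integers) = 0 from Subtype.ext (zero_smul K f), map_zero]

/-- Coordinates with respect to a family with independent reductions are integral, and reduce
to the coordinates of the reduction. -/
theorem coords_mem {ι : Type*} [Fintype ι] {b : ι → F} {bb : ι → Fb}
    (hb : ∀ i, d.RedsTo (b i) (bb i)) (hind : LinearIndependent k bb) {x : F}
    (hx : x ∈ d.integers) {c : ι → K} (hsum : x = ∑ i, c i • b i) : ∀ i, c i ∈ A := by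
  classical
  by_contra hne
  push Not at hne
  obtain ⟨i₁, hi₁⟩ := hne
  obtain ⟨j, -, hj⟩ := (Finset.univ : Finset ι).exists_max_image (fun i => A.valuation (c i))
    ⟨i₁, Finset.mem_univ i₁⟩
  have hjA : c j ∉ A := fun h => hi₁ <| by
    rw [← A.valuation_le_one_iff] at h ⊢
    exact (hj i₁ (Finset.mem_univ _)).trans h
  have hj0 : c j ≠ 0 := fun h => hjA (h ▸ A.zero_mem)
  obtain ⟨a, ha, ha0⟩ := d.inv_mem_of_notMem hjA
  have hr : ∀ i, c i / c j ∈ A := fun i => by
    rw [← A.valuation_le_one_iff, map_div₀]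
    exact div_le_one_of_le₀ (hj i (Finset.mem_univ _)) zero_le
  have h1 : d.RedsTo ((a : K) • x) 0 := by
    have h := (show d.RedsTo x (d.red ⟨x, hx⟩) from ⟨hx, rfl⟩).smul a
    rwa [ha0, zero_smul] at h
  have h2 : d.RedsTo ((a : K) • x) (∑ i, π ⟨_, hr i⟩ • bb i) := by
    have := RedsTo.sum Finset.univ fun i _ => (hb i).smul ⟨_, hr i⟩
    convert this using 1
    rw [hsum, Finset.smul_sum]
    refine Finset.sum_congr rfl fun i _ => ?_
    rw [smul_smul, ha]
    show _ = (c i / c j) • b i
    rw [div_eq_inv_mul]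
  have h3 := Fintype.linearIndependent_iff.mp hind _ (h2.unique h1) j
  rw [show (⟨c j / c j, hr j⟩ : A) = 1 from Subtype.ext (div_self hj0), map_one] at h3
  exact one_ne_zero h3

theorem redsTo_sum_smul {ι : Type*} [Fintype ι] {b : ι → F} {bb : ι → Fb}
    (hb : ∀ i, d.RedsTo (b i) (bb i)) (a : ι → A) :
    d.RedsTo (∑ i, (a i : K) • b i) (∑ i, π (a i) • bb i) :=
  RedsTo.sum Finset.univ fun i _ => (hb i).smul (a i)

theorem linearIndependent_of_redsTo {ι : Type*} [Fintype ι] {b : ι → F} {bb : ι → Fb}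
    (hb : ∀ i, d.RedsTo (b i) (bb i)) (hind : LinearIndependent k bb) :
    LinearIndependent K b := by
  classical
  rw [Fintype.linearIndependent_iff]
  intro c hc
  by_contra hne
  push Not at hne
  obtain ⟨i₁, hi₁⟩ := hne
  obtain ⟨j, -, hj⟩ := (Finset.univ : Finset ι).exists_max_image (fun i => A.valuation (c i))
    ⟨i₁, Finset.mem_univ i₁⟩
  have hj0 : c j ≠ 0 := fun h => hi₁ <| by
    have h' := hj i₁ (Finset.mem_univ _)
    simp only [h, map_zero, le_zero_iff] at h'
    exact (map_eq_zero _).mp h'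
  have hr : ∀ i, c i / c j ∈ A := fun i => by
    rw [← A.valuation_le_one_iff, map_div₀]
    exact div_le_one_of_le₀ (hj i (Finset.mem_univ _)) zero_le
  have h2 := (redsTo_sum_smul hb fun i => ⟨_, hr i⟩).unique (fb' := 0) (by
    have : ∑ i, (c i / c j) • b i = 0 := by
      rw [← smul_zero (c j)⁻¹, ← hc, Finset.smul_sum]
      exact Finset.sum_congr rfl fun i _ => by rw [smul_smul, div_eq_inv_mul]
    show d.RedsTo (∑ i, (c i / c j) • b i) 0
    rw [this]
    exact redsTo_zero)
  have h3 := Fintype.linearIndependent_iff.mp hind _ h2 j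
  rw [show (⟨c j / c j, hr j⟩ : A) = 1 from Subtype.ext (div_self hj0), map_one] at h3
  exact one_ne_zero h3

/-! ### Divisors -/

variable [RRSetting K F] [RRSetting k Fb]

variable (d) in
/-- Reduction of divisors. -/
abbrev redDiv : Divisor K F →+ Divisor k Fb := Finsupp.mapDomain.addMonoidHom d.place

omit [RRSetting K F] [RRSetting k Fb] in
theorem redDiv_nonneg {D : Divisor K F} (h : 0 ≤ D) : 0 ≤ d.redDiv D := by
  classical
  rw [Finsupp.le_def]
  intro Q
  simp only [Finsupp.coe_zero, Pi.zero_apply, Finsupp.mapDomain.addMonoidHom_apply,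
    Finsupp.mapDomain, Finsupp.sum_apply]
  refine Finset.sum_nonneg fun P _ => ?_
  show 0 ≤ (Finsupp.single (d.place P) (D P)) Q
  rw [Finsupp.single_apply]
  split
  · simpa using Finsupp.le_def.mp h P
  · exact le_rfl

omit [RRSetting K F] [RRSetting k Fb] in
theorem redDiv_mono {D D' : Divisor K F} (h : D ≤ D') : d.redDiv D ≤ d.redDiv D' := by
  have := redDiv_nonneg (d := d) (sub_nonneg.mpr h)
  rwa [map_sub, sub_nonneg] at this

theorem degree_redDiv (D : Divisor K F) :
    Divisor.degree (d.redDiv D) = Divisor.degree D := by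
  induction D using Finsupp.induction with
  | zero => simp
  | single_add v n D hv hn ih =>
    rw [map_add, map_add, map_add, ih, Finsupp.mapDomain.addMonoidHom_apply,
      Finsupp.mapDomain_single, Divisor.degree_single, Divisor.degree_single,
      RRSetting.deg_eq_one, RRSetting.deg_eq_one]

theorem RedsTo.redDiv_divOf {f : F} {fb : Fb} (h : d.RedsTo f fb) (h0 : fb ≠ 0) :
    d.redDiv (divOf (K := K) f) = divOf (K := k) fb := by
  obtain ⟨hm, rfl⟩ := h
  have hf : f ≠ 0 := RedsTo.ne_zero ⟨hm, rfl⟩ h0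
  ext Q
  rw [Finsupp.mapDomain.addMonoidHom_apply,
    d.mapDomain_place ⟨f, hm⟩ h0 _ (fun P => divOf_apply hf P) Q, divOf_apply h0]

/-- `red L(G) ⊆ L(red G)`. -/
theorem RedsTo.mem_L {f : F} {fb : Fb} (h : d.RedsTo f fb) {G : Divisor K F}
    (hG : f ∈ riemannRochSpace G) : fb ∈ riemannRochSpace (d.redDiv G) := by
  rcases eq_or_ne fb 0 with rfl | h0
  · exact zero_mem _
  have hf := h.ne_zero h0
  rw [mem_L_iff_divOf hf] at hG
  rw [mem_L_iff_divOf h0, ← h.redDiv_divOf h0, ← map_add]
  exact redDiv_nonneg hG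

theorem redDiv_mem_principal {D : Divisor K F}
    (hD : D ∈ Divisor.principal (K := K) (F := F)) :
    d.redDiv D ∈ Divisor.principal (K := k) (F := Fb) := by
  obtain ⟨f, hf, hDf⟩ := hD
  obtain ⟨c, hc, fb, hfb, h⟩ := d.exists_scale hf
  have hcf : c • f ≠ 0 := h.ne_zero hfb
  rw [show D = divOf (K := K) (c • f) from
    Finsupp.ext fun v => by rw [hDf, divOf_apply hcf, ord_const_smul v hc hf],
    h.redDiv_divOf hfb]
  exact divOf_mem_principal hfb

variable (d) in
/-- Reduction on `Pic⁰`. -/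
def redPic0 : Pic0 K F →+ Pic0 k Fb :=
  QuotientAddGroup.map _ _
    ((d.redDiv.domRestrict (Divisor.degZero (K := K) (F := F))).codRestrict
      (Divisor.degZero (K := k) (F := Fb)) fun D => by
        rw [Divisor.mem_degZero]
        exact (degree_redDiv (d := d) (D : Divisor K F)).trans D.2)
    (by
      rintro ⟨D, hD0⟩ hD
      simp only [AddSubgroup.mem_addSubgroupOf] at hD ⊢
      exact redDiv_mem_principal hD)

theorem redPic0_mk_eq_zero_iff (D : Divisor.degZero (K := K) (F := F)) :
    d.redPic0 (Pic0.mk D) = 0 ↔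
      d.redDiv (D : Divisor K F) ∈ Divisor.principal (K := k) (F := Fb) := by
  rw [redPic0, Pic0.mk, QuotientAddGroup.map_mk, QuotientAddGroup.eq_zero_iff,
    AddSubgroup.mem_addSubgroupOf]
  rfl

variable (d) in
omit [RRSetting k Fb] in
/-- An integral basis of `L(G)` with independent reductions. -/
theorem exists_intBasis (G : Divisor K F) :
    ∃ (b : Fin (ell G) → F) (bb : Fin (ell G) → Fb),
      (∀ i, b i ∈ riemannRochSpace G) ∧ (∀ i, d.RedsTo (b i) (bb i)) ∧
        LinearIndependent k bb ∧ Submodule.span K (Set.range b) = riemannRochSpace G := by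
  obtain ⟨b, hb, hind⟩ := d.exists_orthBasis (riemannRochSpace G) inferInstance
  refine ⟨fun i => ((b i : d.integers) : F), fun i => d.red (b i), hb, fun i => redsTo_red _,
    hind, ?_⟩
  have hK := linearIndependent_of_redsTo (fun i => redsTo_red (b i)) hind
  refine Submodule.eq_of_le_of_finrank_le
    (Submodule.span_le.mpr (Set.range_subset_iff.mpr hb)) ?_
  exact ((finrank_span_eq_card hK).trans (Fintype.card_fin _)).ge

theorem ell_le_ell_redDiv (G : Divisor K F) : ell G ≤ ell (d.redDiv G) := by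
  obtain ⟨b, bb, hb, hbb, hind, -⟩ := d.exists_intBasis G
  have h := finrank_span_eq_card hind
  rw [Fintype.card_fin] at h
  rw [← h]
  exact Submodule.finrank_mono
    (Submodule.span_le.mpr (Set.range_subset_iff.mpr fun i => (hbb i).mem_L (hb i)))

include d in
theorem ell_redDiv_of_degree_ge {G : Divisor K F}
    (h : 2 * (genusFF K F : ℤ) - 1 ≤ Divisor.degree G) : ell (d.redDiv G) = ell G := by
  have h1 := ell_eq_of_degree_ge h
  have h2 := ell_eq_of_degree_ge (K := k) (F := Fb) (D := d.redDiv G)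
    (by rw [degree_redDiv, d.genus_eq]; exact h)
  rw [degree_redDiv, d.genus_eq, ← h1] at h2
  exact_mod_cast h2

variable (d) in
/-- `red L(G) = L(red G)` for `deg G ≥ 2g - 1`. -/
theorem exists_redsTo_of_mem_L {G : Divisor K F}
    (h : 2 * (genusFF K F : ℤ) - 1 ≤ Divisor.degree G) {fb : Fb}
    (hfb : fb ∈ riemannRochSpace (d.redDiv G)) :
    ∃ f ∈ riemannRochSpace G, d.RedsTo f fb := by
  obtain ⟨b, bb, hb, hbb, hind, -⟩ := d.exists_intBasis G
  have hle : Submodule.span k (Set.range bb) ≤ riemannRochSpace (d.redDiv G) :=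
    Submodule.span_le.mpr (Set.range_subset_iff.mpr fun i => (hbb i).mem_L (hb i))
  have heq : Submodule.span k (Set.range bb) = riemannRochSpace (d.redDiv G) := by
    refine Submodule.eq_of_le_of_finrank_le hle ?_
    rw [finrank_span_eq_card hind, Fintype.card_fin, ← ell_redDiv_of_degree_ge (d := d) h]
    rfl
  rw [← heq, Submodule.mem_span_range_iff_exists_fun] at hfb
  obtain ⟨c, rfl⟩ := hfb
  choose a ha using fun i => d.residue_surjective (c i)
  refine ⟨∑ i, (a i : K) • b i, Submodule.sum_mem _ fun i _ => Submodule.smul_mem _ _ (hb i), ?_⟩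
  simpa [ha] using redsTo_sum_smul hbb a

end GoodReductionDatum

end FermatAgent.JacCharts
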