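import Fermat.Prelude.Def_AlgebraicCurve_Repartitions
import Fermat.Prelude.Def_ModularCurve_LaurentCoeff
import Mathlib.LinearAlgebra.Dimension.Finrank

/-!
# Good reduction data for function fields

`GoodReductionDatum A π F Fb`: the function field `F/K` has good reduction `Fb/k` along the
valuation subring `A` of `K` with residue map `π : A →+* k`.

* `integers`, `red`: the ring of integers of a Gauss valuation on `F` with its residue map
  (the kernel of `red` is then automatically `m_A • integers`);
* `exists_normalize`: every nonzero function can be scaled to one with nonzero reduction;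
* `exists_orthBasis`: every finite-dimensional space of functions has an integral basis with
  linearly independent reductions;
* `place`, `mapDomain_place`: reduction of places, compatible with divisors of normalised
  functions;
* `genus_eq`: equal genus.

The predicate `GoodReductionDatum.IsLaurent` says that, for subfields of Laurent series fields,
series with coefficients in `A` are integral, `red` reduces their coefficients, and every integer
is a quotient of two of them.
-/

set_option autoImplicit false

noncomputable section

open AlgebraicCurve

namespace FermatAgent.JacCharts

/-- Good reduction of the function field `F/K` to `Fb/k` along the valuation subring `A`. -/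
structure GoodReductionDatum {K : Type*} [Field K] (A : ValuationSubring K) {k : Type*} [Field k]
    (π : A →+* k) (F : Type*) [Field F] [Algebra K F] (Fb : Type*) [Field Fb] [Algebra k Fb] where
  residue_surjective : Function.Surjective π
  integers : Subring F
  red : integers →+* Fb
  algebraMap_mem : ∀ a : A, algebraMap K F (a : K) ∈ integers
  red_algebraMap : ∀ a : A, red ⟨algebraMap K F (a : K), algebraMap_mem a⟩ = algebraMap k Fb (π a)
  exists_normalize : ∀ f : F, f ≠ 0 → ∃ (c : K) (h : c • f ∈ integers), red ⟨c • f, h⟩ ≠ 0
  exists_orthBasis : ∀ V : Submodule K F, Module.Finite K V →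
    ∃ b : Fin (Module.finrank K V) → integers,
      (∀ i, ((b i : integers) : F) ∈ V) ∧ LinearIndependent k (fun i => red (b i))
  place : Place K F → Place k Fb
  mapDomain_place : ∀ x : integers, red x ≠ 0 → ∀ D : Divisor K F,
    (∀ P : Place K F, D P = P.ord (x : F)) →
      ∀ Q : Place k Fb, Finsupp.mapDomain place D Q = Q.ord (red x)
  genus_eq : genusFF k Fb = genusFF K F

namespace GoodReductionDatum

variable {K : Type*} [Field K] {A : ValuationSubring K} {k : Type*} [Field k] {π : A →+* k}
variable {F : IntermediateField K (LaurentSeries K)} {Fb : IntermediateField k (LaurentSeries k)}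

/-- Series with coefficients in `A` are integral and reduce coefficientwise; every integer is a
quotient of two such series with nonzero reduction of the denominator. -/
structure IsLaurent (d : GoodReductionDatum A π F Fb) : Prop where
  mem_integers : ∀ x : F, (∀ n : ℤ, (x : LaurentSeries K).coeff n ∈ A) → x ∈ d.integers
  coeff_red : ∀ (x : d.integers) (hx : ∀ n : ℤ, ((x : F) : LaurentSeries K).coeff n ∈ A) (n : ℤ),
    ((d.red x : Fb) : LaurentSeries k).coeff n = π ⟨_, hx n⟩
  exists_fraction : ∀ x : d.integers, ∃ y z : d.integers,
    (∀ n : ℤ, ((y : F) : LaurentSeries K).coeff n ∈ A) ∧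
    (∀ n : ℤ, ((z : F) : LaurentSeries K).coeff n ∈ A) ∧ d.red z ≠ 0 ∧ x * z = y

end GoodReductionDatum

end FermatAgent.JacCharts
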