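import Fermat.Agent.JacCharts.Transfer

/-!
# Charts of the Jacobian and the addition theorem

A chart at `B` fixes a base divisor `D` of degree `g`, a non-special effective reduced divisor
`Eb` of degree `g` and an integral basis of `L(B)` adapted to `L(red B - Eb)`. A class `x` fits
the chart if `x = [E - D]` with `E` effective reducing to `Eb`; then `E` is unique and `L(B - E)`
is the graph of a matrix `coords` with entries in the maximal ideal of `A`. If the coordinates
of two families of classes lie in a congruent algebra `R`, so do the coordinates of their sum in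
any chart (`coords_add_mem`).
-/

set_option autoImplicit false

noncomputable section

open AlgebraicCurve FermatAgent.Curve.RR

namespace FermatAgent.JacCharts

section Rep

variable {K F : Type*} [Field K] [Field F] [Algebra K F]

/-- `D` is a degree zero divisor of class `x`. -/
def IsRep (x : Pic0 K F) (D : Divisor K F) : Prop :=
  ∃ h : D ∈ Divisor.degZero (K := K) (F := F), x = Pic0.mk ⟨D, h⟩

theorem exists_isRep (x : Pic0 K F) : ∃ D, IsRep x D := by
  obtain ⟨D, rfl⟩ := Pic0.mk_surjective x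
  exact ⟨D, D.2, rfl⟩

theorem isRep_zero : IsRep (0 : Pic0 K F) 0 := ⟨zero_mem _, rfl⟩

theorem IsRep.degree_eq {x : Pic0 K F} {D : Divisor K F} (h : IsRep x D) :
    Divisor.degree D = 0 := Divisor.mem_degZero.mp h.1

theorem IsRep.add {x y : Pic0 K F} {D E : Divisor K F} (h : IsRep x D) (h' : IsRep y E) :
    IsRep (x + y) (D + E) := by
  obtain ⟨hD, rfl⟩ := h
  obtain ⟨hE, rfl⟩ := h'
  exact ⟨add_mem hD hE, rfl⟩

theorem IsRep.sub_mem {x : Pic0 K F} {D E : Divisor K F} (h : IsRep x D) (h' : IsRep x E) :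
    D - E ∈ Divisor.principal (K := K) (F := F) := by
  obtain ⟨hD, hx⟩ := h
  obtain ⟨hE, hy⟩ := h'
  have h1 := hx.symm.trans hy
  rw [Pic0.mk, Pic0.mk, QuotientAddGroup.eq, AddSubgroup.mem_addSubgroupOf] at h1
  have h2 := neg_mem h1
  rw [AddSubgroup.coe_add, AddSubgroup.coe_neg] at h2
  rwa [show D - E = -(-D + E) by abel]

theorem IsRep.of_sub_mem {x : Pic0 K F} {D E : Divisor K F} (h : IsRep x D)
    (hdeg : Divisor.degree E = 0) (hp : D - E ∈ Divisor.principal (K := K) (F := F)) :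
    IsRep x E := by
  obtain ⟨hD, rfl⟩ := h
  refine ⟨hdeg, ?_⟩
  rw [Pic0.mk, Pic0.mk, QuotientAddGroup.eq, AddSubgroup.mem_addSubgroupOf,
    AddSubgroup.coe_add, AddSubgroup.coe_neg]
  have h2 := neg_mem hp
  rwa [neg_sub, sub_eq_neg_add] at h2

theorem IsRep.unique {x y : Pic0 K F} {D : Divisor K F} (h : IsRep x D) (h' : IsRep y D) :
    x = y := by
  obtain ⟨hD, rfl⟩ := h
  obtain ⟨hE, rfl⟩ := h'
  rfl

variable [RRSetting K F]

/-- `L(D) ⊆ L(D')` forces `D ≤ D'` in degree `≥ 2g`. -/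
theorem le_of_L_le {D D' : Divisor K F} (h : 2 * (genusFF K F : ℤ) ≤ Divisor.degree D)
    (hle : riemannRochSpace D ≤ riemannRochSpace D') : D ≤ D' := by
  rw [Finsupp.le_def]
  intro v
  obtain ⟨χ, hχ, hχ0, hord⟩ := exists_mem_ord_eq h v
  have := (mem_L_iff hχ0).mp (hle hχ) v
  omega

end Rep

namespace GoodReductionDatum

variable {K : Type*} [Field K] {A : ValuationSubring K} {k : Type*} [Field k] {π : A →+* k}
variable {F : Type*} [Field F] [Algebra K F] {Fb : Type*} [Field Fb] [Algebra k Fb]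
variable {d : GoodReductionDatum A π F Fb}
variable [RRSetting K F] [RRSetting k Fb]

theorem redPic0_of_isRep {x : Pic0 K F} {D : Divisor K F} (h : IsRep x D) :
    IsRep (d.redPic0 x) (d.redDiv D) := by
  obtain ⟨hD, rfl⟩ := h
  exact ⟨by rw [Divisor.mem_degZero, degree_redDiv, hD], rfl⟩

variable (d) in
/-- A chart at `B`. -/
structure Chart (B : Divisor K F) where
  D : Divisor K F
  Eb : Divisor k Fb
  degree_D : Divisor.degree D = genusFF K F
  Eb_nonneg : 0 ≤ Eb
  degree_Eb : Divisor.degree Eb = genusFF K F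
  ell_Eb : ell Eb = 1
  w0 : Fin (ell (d.redDiv B - Eb)) → F
  w0b : Fin (ell (d.redDiv B - Eb)) → Fb
  s : ℕ
  u : Fin s → F
  ub : Fin s → Fb
  w0_mem : ∀ c, w0 c ∈ riemannRochSpace B
  u_mem : ∀ l, u l ∈ riemannRochSpace B
  w0_redsTo : ∀ c, d.RedsTo (w0 c) (w0b c)
  u_redsTo : ∀ l, d.RedsTo (u l) (ub l)
  w0b_mem : ∀ c, w0b c ∈ riemannRochSpace (d.redDiv B - Eb)
  indep : LinearIndependent k (Sum.elim w0b ub)
  span_eq : Submodule.span k (Set.range (Sum.elim w0b ub)) = riemannRochSpace (d.redDiv B)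

namespace Chart

variable {B : Divisor K F} (C : d.Chart B)

omit [RRSetting K F] in
theorem span_w0b : Submodule.span k (Set.range C.w0b) = riemannRochSpace (d.redDiv B - C.Eb) := by
  have hind : LinearIndependent k C.w0b := C.indep.comp Sum.inl Sum.inl_injective
  refine Submodule.eq_of_le_of_finrank_le
    (Submodule.span_le.mpr (Set.range_subset_iff.mpr C.w0b_mem)) ?_
  exact ((finrank_span_eq_card hind).trans (Fintype.card_fin _)).ge

omit [RRSetting K F] in
theorem eq_zero_of_sum_mem {t : Fin C.s → k} {x : Fb}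
    (hx : x ∈ riemannRochSpace (d.redDiv B - C.Eb))
    (h : x + ∑ l, t l • C.ub l ∈ riemannRochSpace (d.redDiv B - C.Eb)) : t = 0 := by
  have h1 := sub_mem h hx
  rw [add_sub_cancel_left, ← C.span_w0b, Submodule.mem_span_range_iff_exists_fun] at h1
  obtain ⟨e, he⟩ := h1
  have h2 := Fintype.linearIndependent_iff.mp C.indep (Sum.elim (fun c => -e c) t) (by
    simp [Fintype.sum_sum_type, he])
  exact funext fun l => h2 (Sum.inr l)

/-- A basis of `L(B)` adapted to the chart. -/
theorem le_span (hB : 2 * (genusFF K F : ℤ) - 1 ≤ Divisor.degree B) :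
    riemannRochSpace B ≤ Submodule.span K (Set.range (Sum.elim C.w0 C.u)) := by
  have hred : ∀ j, d.RedsTo (Sum.elim C.w0 C.u j) (Sum.elim C.w0b C.ub j) := by
    rintro (c | l)
    · exact C.w0_redsTo c
    · exact C.u_redsTo l
  have hK := linearIndependent_of_redsTo hred C.indep
  refine (Submodule.eq_of_le_of_finrank_le (Submodule.span_le.mpr (Set.range_subset_iff.mpr
    (Sum.forall.mpr ⟨C.w0_mem, C.u_mem⟩))) ?_).ge
  rw [finrank_span_eq_card hK, ← finrank_span_eq_card C.indep, C.span_eq]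
  exact (ell_redDiv_of_degree_ge (d := d) hB).ge

theorem coeffs_unique {E : Divisor K F} (hred : d.redDiv E = C.Eb)
    {a a' : Fin C.s → A} {c : Fin (ell (d.redDiv B - C.Eb))}
    (h : C.w0 c + ∑ l, (a l : K) • C.u l ∈ riemannRochSpace (B - E))
    (h' : C.w0 c + ∑ l, (a' l : K) • C.u l ∈ riemannRochSpace (B - E)) : a = a' := by
  by_contra hne
  have hdiff := sub_mem h h'
  rw [add_sub_add_left_eq_sub, ← Finset.sum_sub_distrib] at hdiff
  simp only [← sub_smul] at hdiff
  set x := ∑ l, ((a l : K) - (a' l : K)) • C.u l with hx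
  have hx0 : x ≠ 0 := fun h0 => hne <| funext fun l => Subtype.ext <| sub_eq_zero.mp <|
    Fintype.linearIndependent_iff.mp
      (linearIndependent_of_redsTo C.u_redsTo (C.indep.comp Sum.inr Sum.inr_injective)) _ h0 l
  obtain ⟨e, -, fb, hfb, hr⟩ := d.exists_scale hx0
  have hsum : e • x = ∑ l, (e * ((a l : K) - (a' l : K))) • C.u l := by
    simp [hx, Finset.smul_sum, smul_smul]
  have hA := coords_mem C.u_redsTo (C.indep.comp Sum.inr Sum.inr_injective) hr.mem hsum
  have hfb' := hr.unique (fb' := ∑ l, π ⟨_, hA l⟩ • C.ub l)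
    (by rw [hsum]; exact redsTo_sum_smul C.u_redsTo fun l => ⟨_, hA l⟩)
  have hmem := hr.mem_L (Submodule.smul_mem _ e hdiff)
  rw [map_sub, hred, hfb'] at hmem
  have hz := C.eq_zero_of_sum_mem (zero_mem _) (by rwa [zero_add])
  apply hfb
  rw [hfb']
  exact Finset.sum_eq_zero fun l _ => by rw [congrFun hz l]; simp

theorem pi_coeff_eq_zero {E : Divisor K F} (hred : d.redDiv E = C.Eb) {a : Fin C.s → A}
    {c : Fin (ell (d.redDiv B - C.Eb))}
    (h : C.w0 c + ∑ l, (a l : K) • C.u l ∈ riemannRochSpace (B - E)) (l : Fin C.s) :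
    π (a l) = 0 := by
  have h1 := ((C.w0_redsTo c).add (redsTo_sum_smul C.u_redsTo a)).mem_L h
  rw [map_sub, hred] at h1
  exact congrFun (C.eq_zero_of_sum_mem (C.w0b_mem c) h1) l

variable {I : Type*} [Fintype I] {R : Subalgebra A (I → A)}

theorem exists_coeffs (hB : 4 * (genusFF K F : ℤ) + 2 ≤ Divisor.degree B) (_hR : IsCongr π R)
    {E : I → Divisor K F} (hE : d.Rat R B E C.Eb) :
    ∃ a : Fin (ell (d.redDiv B - C.Eb)) → Fin C.s → (I → A), (∀ c l, a c l ∈ R) ∧
      ∀ i c, C.w0 c + ∑ l, (a c l i : K) • C.u l ∈ riemannRochSpace (B - E i) := by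
  classical
  set q := ell (d.redDiv B - C.Eb)
  choose h hh hh' using fun c => hE.exists_lift (C.w0b c) (C.w0b_mem c)
  let σ : Fin (q + C.s) → Fin q ⊕ Fin C.s := finSumFinEquiv.symm
  have hσ : Function.Surjective σ := finSumFinEquiv.symm.surjective
  have hred : ∀ j, d.RedsTo (Sum.elim C.w0 C.u (σ j)) (Sum.elim C.w0b C.ub (σ j)) := fun j => by
    rcases σ j with c | l
    · exact C.w0_redsTo c
    · exact C.u_redsTo l
  have hind : LinearIndependent k fun j => Sum.elim C.w0b C.ub (σ j) :=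
    C.indep.comp σ finSumFinEquiv.symm.injective
  have hspan : riemannRochSpace B ≤
      Submodule.span K (Set.range fun j => Sum.elim C.w0 C.u (σ j)) := by
    rw [show (fun j => Sum.elim C.w0 C.u (σ j)) = Sum.elim C.w0 C.u ∘ σ from rfl, hσ.range_comp]
    exact C.le_span (by omega)
  choose r hr hr' using fun c => RFam.exists_coords hred hind hspan (hh c)
  have hsplit : ∀ c i, h c i = (∑ c', ((r c (finSumFinEquiv (.inl c')) i : A) : K) • C.w0 c') +
      ∑ l, ((r c (finSumFinEquiv (.inr l)) i : A) : K) • C.u l := fun c i => by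
    rw [hr' c i, ← finSumFinEquiv.sum_comp, Fintype.sum_sum_type]
    simp [σ]
  have hπ : ∀ c c' i, π (r c (finSumFinEquiv (.inl c')) i) = if c = c' then 1 else 0 := by
    intro c c' i
    have h1 := (hh' c i).2.unique (by rw [hr' c i]; exact redsTo_sum_smul hred fun j => r c j i)
    have h2 := Fintype.linearIndependent_iff.mp C.indep
      (Sum.elim (fun x => π (r c (finSumFinEquiv (.inl x)) i) - if c = x then 1 else 0)
        (fun l => π (r c (finSumFinEquiv (.inr l)) i))) (by
      rw [← finSumFinEquiv.sum_comp, Fintype.sum_sum_type] at h1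
      simp only [σ, Equiv.symm_apply_apply, Sum.elim_inl, Sum.elim_inr] at h1
      rw [Fintype.sum_sum_type]
      simp only [Sum.elim_inl, Sum.elim_inr, sub_smul, Finset.sum_sub_distrib, ite_smul,
        one_smul, zero_smul, Finset.sum_ite_eq, Finset.mem_univ, if_true]
      rw [sub_add_eq_add_sub, ← h1, sub_self]) (Sum.inl c')
    simpa [sub_eq_zero] using h2
  let α : Matrix (Fin q) (Fin q) R := fun c c' => ⟨r c (finSumFinEquiv (.inl c')), hr _ _⟩
  let γ : Matrix (Fin q) (Fin C.s) R := fun c l => ⟨r c (finSumFinEquiv (.inr l)), hr _ _⟩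
  have hdet : IsUnit α.det := by
    have hval : ∀ i, IsUnit ((α.det : I → A) i) := fun i => by
      rw [d.isUnit_iff_pi_ne_zero]
      let ev : R →+* k := (π.comp (Pi.evalRingHom (fun _ : I => A) i)).comp R.val.toRingHom
      have hone : ev.mapMatrix α = 1 := by
        ext c c'
        rw [Matrix.one_apply]
        exact hπ c c' i
      show ev α.det ≠ 0
      rw [RingHom.map_det, hone, Matrix.det_one]
      exact one_ne_zero
    obtain ⟨g, hg, hg'⟩ := exists_mul_eq_one R α.det.2 hval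
    exact ⟨⟨α.det, ⟨g, hg⟩, Subtype.ext hg', Subtype.ext ((mul_comm g _).trans hg')⟩, rfl⟩
  refine ⟨fun c l => (α⁻¹ * γ) c l, fun c l => ((α⁻¹ * γ) c l).2, fun i c => ?_⟩
  let evK : R →+* K := ((A.subtype.comp (Pi.evalRingHom (fun _ : I => A) i))).comp R.val.toRingHom
  have key : C.w0 c + ∑ l, evK ((α⁻¹ * γ) c l) • C.u l =
      ∑ c', evK (α⁻¹ c c') • h c' i := by
    have h1 : ∀ c'' , ∑ c', evK (α⁻¹ c c') * evK (α c' c'') = if c = c'' then 1 else 0 := by
      intro c''
      simp only [← map_mul, ← map_sum]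
      rw [← Matrix.mul_apply, Matrix.nonsing_inv_mul α hdet, Matrix.one_apply]
      split <;> simp
    simp only [hsplit, smul_add, Finset.sum_add_distrib, Finset.smul_sum, smul_smul]
    congr 1
    · rw [Finset.sum_comm]
      simp only [← Finset.sum_smul]
      rw [Finset.sum_congr rfl fun c'' _ => by
        rw [show ∑ c', evK (α⁻¹ c c') * ((r c' (finSumFinEquiv (.inl c'')) i : A) : K)
          = if c = c'' then 1 else 0 from h1 c'']]
      simp
    · rw [Finset.sum_comm]
      refine Finset.sum_congr rfl fun l _ => ?_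
      rw [Matrix.mul_apply, map_sum, Finset.sum_smul]
      exact Finset.sum_congr rfl fun c' _ => by rw [map_mul]; rfl
  show C.w0 c + ∑ l, evK ((α⁻¹ * γ) c l) • C.u l ∈ _
  rw [key]
  exact Submodule.sum_mem _ fun c' _ => Submodule.smul_mem _ _ (hh' c' i).1

theorem exists_coeffs_single (hB : 4 * (genusFF K F : ℤ) + 2 ≤ Divisor.degree B)
    {E : Divisor K F} (hE : 0 ≤ E) (hred : d.redDiv E = C.Eb) :
    ∃ a : Fin (ell (d.redDiv B - C.Eb)) → Fin C.s → A,
      ∀ c, C.w0 c + ∑ l, (a c l : K) • C.u l ∈ riemannRochSpace (B - E) := by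
  have hconst : d.Rat (congrSubalgebra π Unit) B (fun _ => E) C.Eb := by
    rw [← hred]
    exact rat_const B hE (by rw [← degree_redDiv (d := d) E, hred, C.degree_Eb]; omega)
  obtain ⟨a, -, ha⟩ := C.exists_coeffs hB isCongr_congrSubalgebra hconst
  exact ⟨fun c l => a c l (), ha ()⟩

/-- `x = [E - D]` with `E` effective reducing to `Eb`. -/
def Fits (x : Pic0 K F) : Prop :=
  ∃ E : Divisor K F, 0 ≤ E ∧ d.redDiv E = C.Eb ∧ IsRep x (E - C.D)

open Classical in
/-- The effective divisor of a class fitting the chart. -/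
def divisor (x : Pic0 K F) : Divisor K F := if h : C.Fits x then h.choose else 0

omit [RRSetting K F] [RRSetting k Fb] in
theorem divisor_spec {x : Pic0 K F} (hx : C.Fits x) :
    0 ≤ C.divisor x ∧ d.redDiv (C.divisor x) = C.Eb ∧ IsRep x (C.divisor x - C.D) := by
  rw [divisor, dif_pos hx]
  exact hx.choose_spec

theorem degree_of_red {E : Divisor K F} (hred : d.redDiv E = C.Eb) :
    Divisor.degree E = genusFF K F := by
  rw [← degree_redDiv (d := d), hred, C.degree_Eb]

theorem divisor_eq {x : Pic0 K F} {E : Divisor K F} (hE : 0 ≤ E) (hred : d.redDiv E = C.Eb)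
    (hrep : IsRep x (E - C.D)) : C.divisor x = E := by
  obtain ⟨h1, h2, h3⟩ := C.divisor_spec ⟨E, hE, hred, hrep⟩
  have hp := h3.sub_mem hrep
  rw [sub_sub_sub_cancel_right] at hp
  refine eq_of_ell_eq_one hE h1 (le_antisymm ?_ ?_) hp
  · have := ell_le_ell_redDiv (d := d) E
    rwa [hred, C.ell_Eb] at this
  · have := riemann_inequality E
    rw [C.degree_of_red hred] at this
    omega

theorem fits_iff {x : Pic0 K F} :
    C.Fits x ↔ ∀ Db : Divisor k Fb, IsRep (d.redPic0 x) Db →
      Db + d.redDiv C.D - C.Eb ∈ Divisor.principal (K := k) (F := Fb) := by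
  constructor
  · rintro ⟨E, -, hred, hrep⟩ Db hDb
    have := hDb.sub_mem (redPic0_of_isRep (d := d) hrep)
    rw [map_sub, hred] at this
    rwa [show Db + d.redDiv C.D - C.Eb = Db - (C.Eb - d.redDiv C.D) by abel]
  · intro h
    obtain ⟨Dx, hDx⟩ := exists_isRep x
    have hdeg : Divisor.degree (Dx + C.D) = genusFF K F := by
      rw [map_add, hDx.degree_eq, C.degree_D, zero_add]
    obtain ⟨E, hE, hEp⟩ := exists_effective_linearEquiv hdeg.ge
    have hdegE : Divisor.degree E = genusFF K F := (degree_eq_of_linearEquiv hEp).trans hdeg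
    refine ⟨E, hE, ?_, hDx.of_sub_mem ?_ ?_⟩
    · refine eq_of_ell_eq_one C.Eb_nonneg (redDiv_nonneg hE) C.ell_Eb ?_
      have h1 := redDiv_mem_principal (d := d) hEp
      rw [map_sub, map_add] at h1
      have h2 := add_mem h1 (h _ (redPic0_of_isRep hDx))
      rwa [show d.redDiv E - C.Eb =
        d.redDiv E - (d.redDiv Dx + d.redDiv C.D) + (d.redDiv Dx + d.redDiv C.D - C.Eb) by abel]
    · rw [map_sub, hdegE, C.degree_D, sub_self]
    · have := neg_mem hEp
      rwa [neg_sub, show Dx + C.D - E = Dx - (E - C.D) by abel] at this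

theorem fits_congr {x y : Pic0 K F} (h : d.redPic0 x = d.redPic0 y) : C.Fits x ↔ C.Fits y := by
  rw [fits_iff, fits_iff, h]

open Classical in
/-- The coordinates of a class fitting the chart. -/
def coords (x : Pic0 K F) : Fin (ell (d.redDiv B - C.Eb)) → Fin C.s → A :=
  if h : ∃ a : Fin (ell (d.redDiv B - C.Eb)) → Fin C.s → A,
      ∀ c, C.w0 c + ∑ l, (a c l : K) • C.u l ∈ riemannRochSpace (B - C.divisor x)
  then h.choose else 0

variable (hB : 4 * (genusFF K F : ℤ) + 2 ≤ Divisor.degree B)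
include hB

theorem coords_spec {x : Pic0 K F} (hx : C.Fits x) (c : Fin (ell (d.redDiv B - C.Eb))) :
    C.w0 c + ∑ l, (C.coords x c l : K) • C.u l ∈ riemannRochSpace (B - C.divisor x) := by
  obtain ⟨h1, h2, -⟩ := C.divisor_spec hx
  rw [coords, dif_pos (C.exists_coeffs_single hB h1 h2)]
  exact (C.exists_coeffs_single hB h1 h2).choose_spec c

theorem pi_coords {x : Pic0 K F} (hx : C.Fits x) (c : Fin (ell (d.redDiv B - C.Eb)))
    (l : Fin C.s) : π (C.coords x c l) = 0 :=
  C.pi_coeff_eq_zero (C.divisor_spec hx).2.1 (C.coords_spec hB hx c) l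

theorem coords_eq {x : Pic0 K F} (hx : C.Fits x) {c : Fin (ell (d.redDiv B - C.Eb))}
    {a : Fin C.s → A}
    (h : C.w0 c + ∑ l, (a l : K) • C.u l ∈ riemannRochSpace (B - C.divisor x)) :
    C.coords x c = a :=
  C.coeffs_unique (C.divisor_spec hx).2.1 (C.coords_spec hB hx c) h

omit [Fintype I] in
theorem rat_divisor {x : I → Pic0 K F} (hx : ∀ i, C.Fits (x i))
    (hmem : ∀ c l, (fun i => C.coords (x i) c l) ∈ R) :
    d.Rat R B (fun i => C.divisor (x i)) C.Eb := by
  refine ⟨fun i => (C.divisor_spec (hx i)).1, fun i => (C.divisor_spec (hx i)).2.1,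
    fun fb hfb => ?_⟩
  rw [← C.span_w0b, Submodule.mem_span_range_iff_exists_fun] at hfb
  obtain ⟨e, rfl⟩ := hfb
  choose e' he' using fun c => d.residue_surjective (e c)
  refine ⟨fun i => ∑ c, (e' c : K) • (C.w0 c + ∑ l, (C.coords (x i) c l : K) • C.u l), ?_,
    fun i => ⟨Submodule.sum_mem _ fun c _ => Submodule.smul_mem _ _ (C.coords_spec hB (hx i) c),
      ?_⟩⟩
  · refine RFam.sum_smul_mem (r := fun c _ => e' c) (fun c => R.algebraMap_mem (e' c))
      (h := fun c i => C.w0 c + ∑ l, (C.coords (x i) c l : K) • C.u l) fun c => ?_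
    exact add_mem (const_mem_RFam (C.w0_mem c) (C.w0_redsTo c).mem)
      (RFam.sum_smul_mem (fun l => hmem c l)
        fun l => const_mem_RFam (C.u_mem l) (C.u_redsTo l).mem)
  · have h : ∀ c, d.RedsTo (C.w0 c + ∑ l, (C.coords (x i) c l : K) • C.u l) (C.w0b c) :=
      fun c => by
        have := (C.w0_redsTo c).add (redsTo_sum_smul C.u_redsTo (C.coords (x i) c))
        simpa [C.pi_coords hB (hx i)] using this
    have := redsTo_sum_smul h e'
    simp only [he'] at this
    exact this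

/-- Classes with the same coordinates are equal. -/
theorem eq_of_coords {x y : Pic0 K F} (hx : C.Fits x) (hy : C.Fits y)
    (h : C.coords x = C.coords y) : x = y := by
  obtain ⟨hx1, hx2, hx3⟩ := C.divisor_spec hx
  obtain ⟨hy1, hy2, hy3⟩ := C.divisor_spec hy
  have hspan : ∀ z, C.Fits z → riemannRochSpace (B - C.divisor z) = Submodule.span K
      (Set.range fun c => C.w0 c + ∑ l, (C.coords z c l : K) • C.u l) := by
    intro z hz
    have hred : ∀ c, d.RedsTo (C.w0 c + ∑ l, (C.coords z c l : K) • C.u l) (C.w0b c) :=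
      fun c => by
        have := (C.w0_redsTo c).add (redsTo_sum_smul C.u_redsTo (C.coords z c))
        simpa [C.pi_coords hB hz] using this
    have hK := linearIndependent_of_redsTo hred (C.indep.comp Sum.inl Sum.inl_injective)
    refine (Submodule.eq_of_le_of_finrank_le
      (Submodule.span_le.mpr (Set.range_subset_iff.mpr (C.coords_spec hB hz))) ?_).symm
    rw [finrank_span_eq_card hK, Fintype.card_fin]
    have h1 := ell_le_ell_redDiv (d := d) (B - C.divisor z)
    rwa [map_sub, (C.divisor_spec hz).2.1] at h1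
  have heq : C.divisor x = C.divisor y := by
    have hL : riemannRochSpace (B - C.divisor x) = riemannRochSpace (B - C.divisor y) := by
      rw [hspan x hx, hspan y hy, h]
    apply le_antisymm
    · have := le_of_L_le (by rw [map_sub, C.degree_of_red hy2]; omega) hL.ge
      exact (sub_le_sub_iff_left B).mp this
    · have := le_of_L_le (by rw [map_sub, C.degree_of_red hx2]; omega) hL.le
      exact (sub_le_sub_iff_left B).mp this
  exact hx3.unique (heq ▸ hy3)

end Chart

variable {I : Type*} [Fintype I] {R : Subalgebra A (I → A)} {B : Divisor K F}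

variable (d) in
theorem exists_place_eq (hB : 4 * (genusFF K F : ℤ) + 2 ≤ Divisor.degree B) (Q : Place k Fb) :
    ∃ P : Place K F, d.place P = Q := by
  obtain ⟨tb, htb, htb0, hord⟩ := exists_mem_ord_eq_succ (D := d.redDiv B)
    (by rw [degree_redDiv, d.genus_eq]; omega) Q
  obtain ⟨t, ht, ht'⟩ := d.exists_redsTo_of_mem_L (by omega) htb
  by_contra hne
  push Not at hne
  have h1 : d.redDiv (divOf (K := K) t + B) Q = 1 := by
    rw [map_add, ht'.redDiv_divOf htb0, Finsupp.add_apply, divOf_apply htb0, hord]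
    ring
  have h2 : d.redDiv (divOf (K := K) t + B) Q = 0 := by
    rw [Finsupp.mapDomain.addMonoidHom_apply]
    exact Finsupp.mapDomain_of_notMem_range _ _ fun ⟨P, hP⟩ => hne P hP
  omega

variable (d) in
/-- A nonspecial reduced divisor of degree `g` avoiding a finite set, with a lift. -/
theorem exists_aux [Infinite k] (hB : 4 * (genusFF K F : ℤ) + 2 ≤ Divisor.degree B)
    {S : Set (Place k Fb)} (hS : S.Finite) :
    ∃ (Z : Divisor K F) (Zb : Divisor k Fb), 0 ≤ Z ∧ d.redDiv Z = Zb ∧ 0 ≤ Zb ∧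
      Divisor.degree Zb = genusFF K F ∧ ell Zb = 1 ∧ (∀ Q ∈ S, Zb Q = 0) := by
  classical
  obtain ⟨s, hcard, hs, hell, -⟩ := exists_nonspecial (K := k) (F := Fb) hS
  choose P hP using fun Q => d.exists_place_eq hB Q
  refine ⟨∑ Q ∈ s, Finsupp.single (P Q) 1, ∑ Q ∈ s, Finsupp.single Q 1,
    Finset.sum_nonneg fun Q _ => Finsupp.single_nonneg.mpr zero_le_one, ?_,
    Finset.sum_nonneg fun Q _ => Finsupp.single_nonneg.mpr zero_le_one, ?_, hell, fun Q hQ => ?_⟩
  · rw [map_sum]
    exact Finset.sum_congr rfl fun Q _ => by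
      rw [Finsupp.mapDomain.addMonoidHom_apply, Finsupp.mapDomain_single, hP]
  · rw [map_sum, Finset.sum_congr rfl fun Q _ => show Divisor.degree (Finsupp.single Q 1) = 1 by
      rw [Divisor.degree_single, RRSetting.deg_eq_one]; simp]
    rw [Finset.sum_const, nsmul_one, hcard, d.genus_eq]
  · rw [Finsupp.finsetSum_apply]
    refine Finset.sum_eq_zero fun Q' hQ' => ?_
    rw [Finsupp.single_apply, if_neg]
    rintro rfl
    exact hs _ hQ' hQ

/-- The effective family `E ~ P - M`. -/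
theorem exists_rat_linearEquiv (hB : 4 * (genusFF K F : ℤ) + 2 ≤ Divisor.degree B)
    (hR : IsCongr π R) {P M : I → Divisor K F} {Pb Mb Eb : Divisor k Fb}
    (hP₁ : d.Rat R B P Pb) (hP₂ : d.Rat R (B + B) P Pb) (hM : d.Rat R B M Mb)
    (hPle : Divisor.degree Pb ≤ 2 * (genusFF K F : ℤ)) (hMb : 0 ≤ Mb)
    (hEb : 0 ≤ Eb) (hEbdeg : Divisor.degree Eb = genusFF K F) (hell : ell Eb = 1)
    (hsum : Pb = Eb + Mb) :
    ∃ E : I → Divisor K F, d.Rat R B E Eb ∧
      ∀ i, E i - (P i - M i) ∈ Divisor.principal (K := K) (F := F) := by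
  subst hsum
  choose E hE hEP using fun i => exists_effective_linearEquiv (D := P i - M i)
    (by rw [map_sub, hP₁.degree_eq, hM.degree_eq, map_add, hEbdeg]; omega)
  refine ⟨E, Rat.of_linearEquiv hR hB hP₁ hP₂ hM hPle hMb ?_ ?_ hEb ?_ hE hEP, hEP⟩
  · rw [map_add, hEbdeg]; omega
  · rw [add_sub_cancel_right, hell]
  · rw [add_sub_cancel_right, sub_self]
    exact zero_mem _

/-- Coordinates of a family of classes given by a rational family of effective divisors. -/
theorem coords_mem_of_rat [Infinite k] (hB : 4 * (genusFF K F : ℤ) + 2 ≤ Divisor.degree B)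
    (hR : IsCongr π R) (C : d.Chart B) {x : I → Pic0 K F} {M : I → Divisor K F}
    {Mb : Divisor k Fb} {D₀ : Divisor K F} (hM : d.Rat R B M Mb) (hMb : 0 ≤ Mb)
    (hdeg : Divisor.degree Mb = genusFF K F) (hrep : ∀ i, IsRep (x i) (M i - D₀))
    (hx : ∀ i, C.Fits (x i)) (c : Fin (ell (d.redDiv B - C.Eb))) (l : Fin C.s) :
    (fun i => C.coords (x i) c l) ∈ R := by
  rcases isEmpty_or_nonempty I with hI | ⟨⟨i₀⟩⟩
  · rw [show (fun i => C.coords (x i) c l) = 0 from funext fun i => isEmptyElim i]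
    exact zero_mem _
  obtain ⟨Z, Zb, hZ, hZred, hZb, hZdeg, hZell, -⟩ := d.exists_aux hB Set.finite_empty
  obtain ⟨hc0, hc1, hc2⟩ := C.divisor_spec (hx i₀)
  have hdeg₀ : Divisor.degree (d.redDiv (M i₀ + Z)) = 2 * (genusFF K F : ℤ) := by
    rw [map_add, map_add, hM.red_eq, hZred, hdeg, hZdeg]; ring
  have hc0' := add_nonneg (hM.nonneg i₀) hZ
  have hP : ∀ G : Divisor K F, 2 * (genusFF K F : ℤ) + 2 * (genusFF K F : ℤ) - 1 ≤ Divisor.degree G →
      d.Rat R G (fun _ => M i₀ + Z) (d.redDiv (M i₀ + Z)) := fun G hG =>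
    rat_const G hc0' (by rw [← degree_redDiv (d := d) (M i₀ + Z), hdeg₀]; omega)
  obtain ⟨E', hE', hE'P⟩ := exists_rat_linearEquiv hB hR (hP B (by omega))
    (hP (B + B) (by rw [map_add]; omega)) hM hdeg₀.le hMb hZb hZdeg hZell
    (by rw [map_add, hM.red_eq, hZred, add_comm])
  have hdeg₁ : Divisor.degree (d.redDiv (C.divisor (x i₀) + Z)) = 2 * (genusFF K F : ℤ) := by
    rw [map_add, map_add, hc1, hZred, C.degree_Eb, hZdeg]; ring
  have hQ : ∀ G : Divisor K F, 2 * (genusFF K F : ℤ) + 2 * (genusFF K F : ℤ) - 1 ≤ Divisor.degree G →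
      d.Rat R G (fun _ => C.divisor (x i₀) + Z) (d.redDiv (C.divisor (x i₀) + Z)) := fun G hG =>
    rat_const G (add_nonneg hc0 hZ)
      (by rw [← degree_redDiv (d := d) (C.divisor (x i₀) + Z), hdeg₁]; omega)
  have hfin : d.Rat R B (fun i => C.divisor (x i)) C.Eb := by
    refine Rat.of_linearEquiv hR hB (hQ B (by omega)) (hQ (B + B) (by rw [map_add]; omega)) hE'
      hdeg₁.le hZb ?_ ?_ C.Eb_nonneg ?_ (fun i => (C.divisor_spec (hx i)).1) fun i => ?_
    · rw [hdeg₁, hZdeg]; omega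
    · rw [map_add, hc1, hZred, add_sub_cancel_right, C.ell_Eb]
    · rw [map_add, hc1, hZred, add_sub_cancel_right, sub_self]
      exact zero_mem _
    · have h1 := (C.divisor_spec (hx i)).2.2.sub_mem (hrep i)
      have h2 := hc2.sub_mem (hrep i₀)
      have h3 := add_mem (sub_mem h1 h2) (hE'P i)
      rwa [show C.divisor (x i) - C.D - (M i - D₀) - (C.divisor (x i₀) - C.D - (M i₀ - D₀)) +
        (E' i - (M i₀ + Z - M i)) = C.divisor (x i) - (C.divisor (x i₀) + Z - E' i) by abel] at h3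
  obtain ⟨a, haR, ha⟩ := C.exists_coeffs hB hR hfin
  rw [show (fun i => C.coords (x i) c l) = a c l from funext fun i =>
    congrFun (C.coords_eq hB (hx i) (a := fun l => a c l i) (ha i c)) l]
  exact haR c l

/-- The addition theorem. -/
theorem coords_add_mem [Infinite k] (hB : 4 * (genusFF K F : ℤ) + 2 ≤ Divisor.degree B)
    (hR : IsCongr π R) (C₁ C₂ C₃ : d.Chart B) {x y : I → Pic0 K F}
    (hx : ∀ i, C₁.Fits (x i)) (hy : ∀ i, C₂.Fits (y i)) (hxy : ∀ i, C₃.Fits (x i + y i))
    (h₁ : ∀ c l, (fun i => C₁.coords (x i) c l) ∈ R)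
    (h₂ : ∀ c l, (fun i => C₂.coords (y i) c l) ∈ R)
    (c : Fin (ell (d.redDiv B - C₃.Eb))) (l : Fin C₃.s) :
    (fun i => C₃.coords (x i + y i) c l) ∈ R := by
  rcases isEmpty_or_nonempty I with hI | ⟨⟨i₀⟩⟩
  · rw [show (fun i => C₃.coords (x i + y i) c l) = 0 from funext fun i => isEmptyElim i]
    exact zero_mem _
  obtain ⟨Z, Zb, hZ, hZred, hZb, hZdeg, hZell, hZS⟩ :=
    d.exists_aux hB (S := (C₁.Eb.support : Set (Place k Fb))) C₁.Eb.support.finite_toSet
  have hdis : ∀ Q, C₁.Eb Q = 0 ∨ Zb Q = 0 := fun Q => by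
    by_cases hQ : Q ∈ C₁.Eb.support
    · exact Or.inr (hZS Q hQ)
    · exact Or.inl (Finsupp.notMem_support_iff.mp hQ)
  have hE1 := C₁.rat_divisor hB hx h₁
  have hE2 := C₂.rat_divisor hB hy h₂
  set E₁ := fun i => C₁.divisor (x i)
  set E₂ := fun i => C₂.divisor (y i)
  have hdeg₀ : Divisor.degree (d.redDiv (E₂ i₀ + Z)) = 2 * (genusFF K F : ℤ) := by
    rw [map_add, map_add, hE2.red_eq, hZred, C₂.degree_Eb, hZdeg]; ring
  have hP : ∀ G : Divisor K F, 2 * (genusFF K F : ℤ) + 2 * (genusFF K F : ℤ) - 1 ≤ Divisor.degree G →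
      d.Rat R G (fun _ => E₂ i₀ + Z) (d.redDiv (E₂ i₀ + Z)) := fun G hG =>
    rat_const G (add_nonneg (hE2.nonneg i₀) hZ)
      (by rw [← degree_redDiv (d := d) (E₂ i₀ + Z), hdeg₀]; omega)
  obtain ⟨E'', hE'', hE''P⟩ := exists_rat_linearEquiv hB hR (hP B (by omega))
    (hP (B + B) (by rw [map_add]; omega)) hE2 hdeg₀.le C₂.Eb_nonneg hZb hZdeg hZell
    (by rw [map_add, hE2.red_eq, hZred, add_comm])
  have hZrat : ∀ G : Divisor K F, 2 * (genusFF K F : ℤ) + 2 * (genusFF K F : ℤ) - 1 ≤ Divisor.degree G →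
      d.Rat R G (fun _ => Z) Zb := fun G hG => by
    rw [← hZred]
    exact rat_const G hZ (by rw [← degree_redDiv (d := d) Z, hZred, hZdeg]; omega)
  have hQ₁ : d.Rat R B (fun i => E₁ i + Z) (C₁.Eb + Zb) :=
    hE1.sum hR (hZrat B (by omega)) hdis C₁.Eb_nonneg hZb
      (by rw [C₁.degree_Eb, hZdeg]; omega)
  have hQ₂ : d.Rat R (B + B) (fun i => E₁ i + Z) (C₁.Eb + Zb) :=
    (hE1.double hB C₁.degree_Eb C₁.ell_Eb).sum hR (hZrat (B + B) (by rw [map_add]; omega)) hdis
      C₁.Eb_nonneg hZb (by rw [C₁.degree_Eb, hZdeg, map_add]; omega)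
  obtain ⟨G, hG, hGP⟩ := exists_rat_linearEquiv hB hR hQ₁ hQ₂ hE''
    (by rw [map_add, C₁.degree_Eb, hZdeg]; omega) hZb C₁.Eb_nonneg C₁.degree_Eb C₁.ell_Eb rfl
  refine coords_mem_of_rat hB hR C₃ hG C₁.Eb_nonneg C₁.degree_Eb
    (D₀ := C₁.D + C₂.D - E₂ i₀) (fun i => ?_) hxy c l
  refine ((C₁.divisor_spec (hx i)).2.2.add (C₂.divisor_spec (hy i)).2.2).of_sub_mem ?_ ?_
  · rw [map_sub, map_sub, map_add, C₁.degree_D, C₂.degree_D, hG.degree_eq, C₁.degree_Eb,
      hE2.degree_eq, C₂.degree_Eb]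
    ring
  · have := add_mem (neg_mem (hGP i)) (hE''P i)
    rwa [show -(G i - (E₁ i + Z - E'' i)) + (E'' i - (E₂ i₀ + Z - E₂ i)) =
      C₁.divisor (x i) - C₁.D + (C₂.divisor (y i) - C₂.D) -
        (G i - (C₁.D + C₂.D - E₂ i₀)) by simp only [E₁, E₂]; abel] at this

end GoodReductionDatum

end FermatAgent.JacCharts
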