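import Mathlib.LinearAlgebra.Matrix.NonsingularInverse
import Mathlib.LinearAlgebra.Matrix.ToLin
import Mathlib.LinearAlgebra.Dimension.Constructions
import Mathlib.LinearAlgebra.FiniteDimensional.Lemmas
import Mathlib.LinearAlgebra.Basis.VectorSpace
import Mathlib.RingTheory.Polynomial.Basic
import Mathlib.Algebra.Polynomial.Inductions
import Mathlib.RingTheory.Adjoin.Polynomial.Basic

/-!
# Algebras of congruent families

For a ring `A` with `π : A →+* k` detecting units and a finite index type `I`, a subalgebra of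
`I → A` contains the inverses of its pointwise units and its residual indicator functions, and,
if all its elements are residually constant, kernels of matrices of constant rank lift.
-/

set_option autoImplicit false

noncomputable section

namespace FermatAgent.JacCharts

variable {A : Type*} [CommRing A] {k : Type*} [Field k] {π : A →+* k} {I : Type*}

variable (π) in
/-- All members of `R` are residually constant. -/
def IsCongr (R : Subalgebra A (I → A)) : Prop := ∀ f ∈ R, ∀ i j, π (f i) = π (f j)

theorem IsCongr.mono {R R' : Subalgebra A (I → A)} (h : IsCongr π R') (hle : R ≤ R') :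
    IsCongr π R :=
  fun f hf => h f (hle hf)

variable (π I) in
/-- The residually constant functions. -/
def congrSubalgebra : Subalgebra A (I → A) where
  carrier := {f | ∀ i j, π (f i) = π (f j)}
  mul_mem' hf hg i j := by simp [hf i j, hg i j]
  add_mem' hf hg i j := by simp [hf i j, hg i j]
  algebraMap_mem' a i j := rfl

theorem isCongr_congrSubalgebra : IsCongr π (congrSubalgebra π I) := fun _ hf => hf

theorem isCongr_adjoin {s : Set (I → A)} (hs : ∀ f ∈ s, ∀ i j, π (f i) = π (f j)) :
    IsCongr π (Algebra.adjoin A s) :=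
  isCongr_congrSubalgebra.mono (Algebra.adjoin_le hs)

theorem aeval_pi_apply (f : I → A) (p : Polynomial A) (i : I) :
    Polynomial.aeval f p i = p.eval (f i) := by
  show Pi.evalAlgHom A (fun _ : I => A) i (Polynomial.aeval f p) = _
  rw [← Polynomial.aeval_algHom_apply]
  simp [Polynomial.coe_aeval_eq_eval]

theorem subalgebra_aeval_mem (R : Subalgebra A (I → A)) {f : I → A} (hf : f ∈ R)
    (p : Polynomial A) : Polynomial.aeval f p ∈ R := by
  refine Algebra.adjoin_le (Set.singleton_subset_iff.mpr hf) ?_
  exact Polynomial.aeval_mem_adjoin_singleton A f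

theorem exists_mul_eq_one [Fintype I] (R : Subalgebra A (I → A)) {f : I → A} (hf : f ∈ R)
    (hu : ∀ i, IsUnit (f i)) : ∃ g ∈ R, f * g = 1 := by
  classical
  set p : Polynomial A := ∏ i, (Polynomial.X - Polynomial.C (f i)) with hp
  have h0 : IsUnit (p.coeff 0) := by
    rw [Polynomial.coeff_zero_eq_eval_zero, hp, Polynomial.eval_prod]
    exact IsUnit.prod_iff.mpr fun i _ => by simpa using (hu i).neg
  obtain ⟨u, hu0⟩ := h0
  have hroot : ∀ i, p.eval (f i) = 0 := fun i => by
    rw [hp, Polynomial.eval_prod]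
    exact Finset.prod_eq_zero (Finset.mem_univ i) (by simp)
  refine ⟨algebraMap A (I → A) (-((u⁻¹ : Aˣ) : A)) * Polynomial.aeval f p.divX,
    mul_mem (R.algebraMap_mem _) (subalgebra_aeval_mem R hf _), funext fun i => ?_⟩
  have h := hroot i
  rw [← p.X_mul_divX_add, Polynomial.eval_add, Polynomial.eval_mul, Polynomial.eval_X,
    Polynomial.eval_C, ← hu0] at h
  simp only [Pi.mul_apply, Pi.algebraMap_apply, Pi.one_apply, Algebra.algebraMap_self,
    RingHom.id_apply, aeval_pi_apply]
  calc f i * (-((u⁻¹ : Aˣ) : A) * p.divX.eval (f i))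
      = -((u⁻¹ : Aˣ) : A) * (f i * p.divX.eval (f i)) := by ring
    _ = -((u⁻¹ : Aˣ) : A) * (-(u : A)) := by rw [eq_neg_of_add_eq_zero_left h]
    _ = 1 := by simp

variable (hπ : ∀ a : A, IsUnit a ↔ π a ≠ 0)

include hπ in
/-- The indicator of a residual class lies in the algebra. -/
theorem exists_indicator [Fintype I] (R : Subalgebra A (I → A)) (i₀ : I) :
    ∃ e ∈ R, ∀ i, ((∀ f ∈ R, π (f i) = π (f i₀)) → e i = 1) ∧
      ((¬ ∀ f ∈ R, π (f i) = π (f i₀)) → e i = 0) := by
  classical
  set T := (Finset.univ : Finset I).filter fun i => ¬ ∀ f ∈ R, π (f i) = π (f i₀) with hT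
  have hsep : ∀ i ∈ T, ∃ f ∈ R, π (f i) ≠ π (f i₀) := fun i hi => by
    simpa [hT, not_forall] using hi
  choose F hF hFne using hsep
  set P : I → A := ∏ i ∈ T.attach, (F i.1 i.2 - algebraMap A (I → A) (F i.1 i.2 i.1)) with hPdef
  have hP : P ∈ R := Subalgebra.prod_mem _ fun i _ => sub_mem (hF i.1 i.2) (R.algebraMap_mem _)
  have hPzero : ∀ i, (¬ ∀ f ∈ R, π (f i) = π (f i₀)) → P i = 0 := fun i hi => by
    have hiT : i ∈ T := by simpa [hT] using hi
    rw [hPdef, Finset.prod_apply]
    exact Finset.prod_eq_zero (Finset.mem_attach T ⟨i, hiT⟩) (by simp)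
  have hPunit : ∀ i, (∀ f ∈ R, π (f i) = π (f i₀)) → IsUnit (P i) := fun i hi => by
    rw [hπ, hi P hP, hPdef, Finset.prod_apply, map_prod, Finset.prod_ne_zero_iff]
    intro j _
    simpa [sub_eq_zero] using (hFne j.1 j.2).symm
  set q : Polynomial A := ∏ i ∈ Finset.univ \ T, (Polynomial.X - Polynomial.C (P i)) with hq
  have h0 : IsUnit (q.eval 0) := by
    rw [hq, Polynomial.eval_prod, IsUnit.prod_iff]
    intro i hi
    simpa using (hPunit i (by simpa [hT] using hi)).neg
  obtain ⟨u, hu⟩ := h0
  refine ⟨1 - algebraMap A (I → A) ((u⁻¹ : Aˣ) : A) * Polynomial.aeval P q,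
    sub_mem (one_mem _) (mul_mem (R.algebraMap_mem _) (subalgebra_aeval_mem R hP _)),
    fun i => ⟨fun hi => ?_, fun hi => ?_⟩⟩
  · have hz : q.eval (P i) = 0 := by
      rw [hq, Polynomial.eval_prod]
      exact Finset.prod_eq_zero (i := i) (by simpa [hT] using hi) (by simp)
    simp [hz]
  · simp [hPzero i hi, ← hu]

section Kernel

open Matrix

variable {K : Type*} [Field K] (ι : A →+* K) (hι : Function.Injective ι)
variable (hsurj : Function.Surjective π)

include hπ hι hsurj in
/-- Lifting kernel vectors of a matrix of constant rank. -/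
theorem exists_lift_kernel [Fintype I] {R : Subalgebra A (I → A)} (_hR : IsCongr π R)
    {ρ κ : Type*} [Fintype ρ] [Fintype κ] (M : Matrix ρ κ (I → A)) (hM : ∀ a b, M a b ∈ R)
    (Mb : Matrix ρ κ k) (hMb : ∀ i a b, π (M a b i) = Mb a b) (d : ℕ)
    (hd : ∀ i, d ≤ Module.finrank K
      (LinearMap.ker (Matrix.mulVecLin fun a b => ι (M a b i))))
    (hd' : Module.finrank k (LinearMap.ker Mb.mulVecLin) ≤ d) :
    (∀ i, Module.finrank K (LinearMap.ker (Matrix.mulVecLin fun a b => ι (M a b i))) ≤ d) ∧
      ∀ vb : κ → k, Mb *ᵥ vb = 0 → ∃ v : κ → (I → A), (∀ b, v b ∈ R) ∧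
        (∀ i b, π (v b i) = vb b) ∧ ∀ i a, ∑ b, M a b i * v b i = 0 := by
  classical
  set L := Mb.mulVecLin with hL
  set r := Module.finrank k (LinearMap.range L) with hr
  let e : Module.Basis (Fin r) k (LinearMap.range L) := Module.finBasis k _
  choose D hD using fun j => (e j).2
  obtain ⟨C, hC⟩ := LinearMap.exists_extend e.equivFun.toLinearMap
  choose lift hlift using hsurj
  -- the matrices over `R`
  let C' : Matrix (Fin r) ρ R := fun j a => algebraMap A R (lift (LinearMap.toMatrix' C j a))
  let D' : Matrix κ (Fin r) R := fun b j => algebraMap A R (lift (D j b))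
  let M' : Matrix ρ κ R := fun a b => ⟨M a b, hM a b⟩
  let ev : I → (R →+* A) := fun i => (Pi.evalRingHom (fun _ : I => A) i).comp R.val.toRingHom
  let res : I → (R →+* k) := fun i => π.comp (ev i)
  have hresC : ∀ i, C'.map (res i) = LinearMap.toMatrix' C := fun i => by
    ext j a
    exact hlift _
  have hresD : ∀ i, D'.map (res i) = Matrix.of fun b j => D j b := fun i => by
    ext b j
    exact hlift _
  have hresM : ∀ i, M'.map (res i) = Mb := fun i => by
    ext a b
    exact hMb i a b
  have hone : LinearMap.toMatrix' C * Mb * (Matrix.of fun b j => D j b) = 1 := by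
    apply Matrix.ext_of_mulVec_single
    intro j
    rw [Matrix.mulVec_single_one, Matrix.one_mulVec]
    have h1 : ((Matrix.of fun b j => D j b) : Matrix κ (Fin r) k) *ᵥ Pi.single j 1 = D j := by
      ext b
      simp
    have h2 : C ((e j : LinearMap.range L) : ρ → k) = Pi.single j 1 := by
      have h : C ((e j : LinearMap.range L) : ρ → k) = e.equivFun (e j) :=
        LinearMap.congr_fun hC (e j)
      ext x
      simp [h, Pi.single_apply, eq_comm]
    rw [← Matrix.mulVec_single_one, ← Matrix.mulVec_mulVec, h1, ← Matrix.mulVec_mulVec,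
      LinearMap.toMatrix'_mulVec]
    rw [show Mb *ᵥ D j = L (D j) from rfl, hD, h2]
  set U : Matrix (Fin r) (Fin r) R := C' * M' * D' with hU
  have hUres : ∀ i, U.map (res i) = 1 := fun i => by
    rw [hU, Matrix.map_mul, Matrix.map_mul, hresC, hresD, hresM, hone]
  have hUdet : IsUnit U.det := by
    have hval : ∀ i, IsUnit ((U.det : I → A) i) := fun i => by
      rw [hπ]
      have h := (res i).map_det U
      rw [show (res i).mapMatrix U = 1 from hUres i, Matrix.det_one] at h
      show res i U.det ≠ 0
      rw [h]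
      exact one_ne_zero
    obtain ⟨g, hg, hg'⟩ := exists_mul_eq_one R U.det.2 hval
    exact ⟨⟨U.det, ⟨g, hg⟩, Subtype.ext hg', Subtype.ext ((mul_comm g _).trans hg')⟩, rfl⟩
  let evK : I → (R →+* K) := fun i => ι.comp (ev i)
  have hMK : ∀ i, M'.map (evK i) = fun a b => ι (M a b i) := fun i => rfl
  have hker : ∀ i,
      LinearMap.ker (Matrix.mulVecLin fun a b => ι (M a b i)) =
          LinearMap.ker (Matrix.mulVecLin ((C' * M').map (evK i))) ∧
        Module.finrank K (LinearMap.ker (Matrix.mulVecLin fun a b => ι (M a b i))) ≤ d := by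
    intro i
    set T := Matrix.mulVecLin ((C' * M').map (evK i))
    have hsur : Function.Surjective T := fun y => by
      refine ⟨(D' * U⁻¹).map (evK i) *ᵥ y, ?_⟩
      show (C' * M').map (evK i) *ᵥ _ = y
      rw [Matrix.mulVec_mulVec, ← Matrix.map_mul, ← Matrix.mul_assoc, ← hU,
        Matrix.mul_nonsing_inv U hUdet, Matrix.map_one _ (map_zero _) (map_one _),
        Matrix.one_mulVec]
    have h1 := LinearMap.finrank_range_add_finrank_ker T
    rw [LinearMap.range_eq_top.mpr hsur, finrank_top, Module.finrank_fintype_fun_eq_card,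
      Module.finrank_fintype_fun_eq_card, Fintype.card_fin] at h1
    have h2 := LinearMap.finrank_range_add_finrank_ker L
    rw [Module.finrank_fintype_fun_eq_card, ← hr] at h2
    have hle : LinearMap.ker (Matrix.mulVecLin fun a b => ι (M a b i)) ≤ LinearMap.ker T := by
      intro x hx
      rw [LinearMap.mem_ker, Matrix.mulVecLin_apply] at hx ⊢
      rw [Matrix.map_mul, ← Matrix.mulVec_mulVec, hMK, hx, Matrix.mulVec_zero]
    have heq := Submodule.eq_of_le_of_finrank_le hle (by have := hd i; omega)
    exact ⟨heq, by rw [heq]; omega⟩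
  refine ⟨fun i => (hker i).2, fun vb hvb => ?_⟩
  let v0 : κ → R := fun b => algebraMap A R (lift (vb b))
  let v : κ → R := v0 - (D' * U⁻¹ * C' * M') *ᵥ v0
  have hCv : (C' * M') *ᵥ v = 0 := by
    simp only [v, Matrix.mulVec_sub, Matrix.mulVec_mulVec, ← Matrix.mul_assoc, ← hU,
      Matrix.mul_nonsing_inv U hUdet, Matrix.one_mul, sub_self]
  have hresv0 : ∀ i, res i ∘ v0 = vb := fun i => funext fun b => hlift _
  refine ⟨fun b => (v b : I → A), fun b => (v b).2, fun i b => ?_, fun i a => ?_⟩
  · show res i (v b) = vb b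
    simp only [v, Pi.sub_apply, map_sub]
    rw [show res i (v0 b) = vb b from hlift _, RingHom.map_mulVec, hresv0,
      Matrix.map_mul, hresM, ← Matrix.mulVec_mulVec, hvb, Matrix.mulVec_zero]
    simp
  · have hmem : evK i ∘ v ∈ LinearMap.ker (Matrix.mulVecLin ((C' * M').map (evK i))) := by
      rw [LinearMap.mem_ker, Matrix.mulVecLin_apply]
      ext j
      rw [← RingHom.map_mulVec, hCv]
      simp
    rw [← (hker i).1, LinearMap.mem_ker, Matrix.mulVecLin_apply] at hmem
    have := congrFun hmem a
    apply hι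
    rw [map_sum, map_zero]
    refine Eq.trans (Finset.sum_congr rfl fun b _ => ?_) this
    simp [evK, ev]

end Kernel

end FermatAgent.JacCharts
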