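import Fermat.Agent.JacCharts.Centre
import Fermat.Agent.JacCharts.Congr
import Fermat.Agent.GalRep.Flat.Model
import Mathlib.RingTheory.DedekindDomain.IntegralClosure

/-!
# From a model over a place to a model over `ℤ_(ℓ)`

A finite Galois module with an algebra of functions over a place `A` above `ℓ` which separates
points, is stable under the decomposition group, is generated by inertia invariant functions and
is compatible with addition has a model over `ℤ_(ℓ)`.
-/

set_option autoImplicit false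

noncomputable section

open scoped Pointwise
open FermatAgent.RT FermatAgent.GalRep.Flat

namespace FermatAgent.JacCharts

local notation "Qb" => AlgebraicClosure ℚ
local notation "GQ" => AlgebraicClosure ℚ ≃ₐ[ℚ] AlgebraicClosure ℚ
local notation "ZB" => integralClosure ℤ (AlgebraicClosure ℚ)
local notation "Rp" => GaloisRep.ratLocalizedAt

attribute [local instance] isGalois_algClosureRat

variable {T : Type} [AddCommGroup T] [DistribMulAction GQ T]

/-- The action on functions. -/
def twist (σ : GQ) (v : T → Qb) : T → Qb := fun x => σ (v (σ⁻¹ • x))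

theorem twist_apply (σ : GQ) (v : T → Qb) (x : T) : twist σ v x = σ (v (σ⁻¹ • x)) := rfl

theorem twist_twist (σ τ : GQ) (v : T → Qb) : twist σ (twist τ v) = twist (σ * τ) v := by
  funext x
  rw [twist_apply, twist_apply, twist_apply, mul_inv_rev, mul_smul, AlgEquiv.mul_apply]

theorem twist_one (v : T → Qb) : twist 1 v = v := by
  funext x
  rw [twist_apply, inv_one, one_smul, AlgEquiv.one_apply]

theorem isEquivariant_iff_twist (v : T → Qb) :
    IsEquivariant (fun σ x => σ • x : GQ → T → T) v ↔ ∀ σ, twist σ v = v := by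
  constructor
  · intro h σ
    funext x
    have := h σ (σ⁻¹ • x)
    simp only [smul_inv_smul] at this
    exact this.symm
  · intro h σ x
    have := congrFun (h σ) (σ • x)
    simp only [twist_apply, inv_smul_smul] at this
    exact this.symm

/-- The stabiliser of a function. -/
def funStab (v : T → Qb) : Subgroup GQ where
  carrier := {σ | twist σ v = v}
  mul_mem' {σ τ} hσ hτ := by
    show twist (σ * τ) v = v
    rw [← twist_twist, hτ, hσ]
  one_mem' := twist_one v
  inv_mem' {σ} hσ := by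
    show twist σ⁻¹ v = v
    conv_lhs => rw [← (show twist σ v = v from hσ), twist_twist, inv_mul_cancel, twist_one]

/-- Pullback of functions as an algebra map. -/
def pullFun {R : Type*} [CommSemiring R] [Algebra R Qb] {X Y : Type*} (g : Y → X) :
    (X → Qb) →ₐ[R] (Y → Qb) :=
  AlgHom.pi fun y => Pi.evalAlgHom R (fun _ : X => Qb) (g y)

@[simp] theorem pullFun_apply {R : Type*} [CommSemiring R] [Algebra R Qb] {X Y : Type*}
    (g : Y → X) (f : X → Qb) (y : Y) : pullFun (R := R) g f y = f (g y) := rfl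

variable (A : ValuationSubring Qb) (T)

/-- A model of a finite Galois module over a place of `ℚ̄`. -/
structure LocalModel where
  HA : Subalgebra A (T → Qb)
  val_mem : ∀ f ∈ HA, ∀ x, f x ∈ A
  separates : ∀ x y : T, (∀ f ∈ HA, f x = f y) → x = y
  stable : ∀ σ ∈ A.decompositionSubgroup ℚ, ∀ f ∈ HA, twist σ f ∈ HA
  gen : HA ≤ Algebra.adjoin A {g | g ∈ HA ∧ ∀ σ ∈ A.inertiaSubgroupIn ℚ, twist σ g = g}
  add_mem : ∀ f ∈ HA, (fun z : T × T => f (z.1 + z.2)) ∈ Algebra.adjoin A
    (pullFun (R := A) (Prod.fst : T × T → T) '' (HA : Set (T → Qb)) ∪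
      pullFun (R := A) (Prod.snd : T × T → T) '' (HA : Set (T → Qb)))

namespace LocalModel

variable {A T} {ℓ : ℕ} (L : LocalModel T A)
variable (hℓ : ℓ.Prime) (hA : A.LiesOverPrime ℓ)
variable (hfix : ∀ x : T, ∃ E : IntermediateField ℚ Qb, FiniteDimensional ℚ E ∧
  ∀ σ ∈ E.fixingSubgroup, σ • x = x)

omit [AddCommGroup T] [DistribMulAction GQ T] in
theorem smul_apply' (a : A) (f : T → Qb) (x : T) : (a • f) x = (a : Qb) * f x := rfl

/-- The equivariant functions of the local model, over `ℤ_(ℓ)`. -/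
def equivAlg : Subalgebra (Rp ℓ) (T → Qb) where
  carrier := {h | (∀ σ, twist σ h = h) ∧ h ∈ L.HA}
  mul_mem' {a b} ha hb := by
    refine ⟨fun σ => ?_, mul_mem ha.2 hb.2⟩
    conv_rhs => rw [← ha.1 σ, ← hb.1 σ]
    funext x
    simp [twist_apply]
  add_mem' {a b} ha hb := by
    refine ⟨fun σ => ?_, AddMemClass.add_mem ha.2 hb.2⟩
    conv_rhs => rw [← ha.1 σ, ← hb.1 σ]
    funext x
    simp [twist_apply]
  algebraMap_mem' r := by
    refine ⟨fun σ => funext fun x => ?_, ?_⟩
    · show σ (algebraMap (Rp ℓ) Qb r) = algebraMap (Rp ℓ) Qb r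
      rw [IsScalarTower.algebraMap_apply (Rp ℓ) ℚ Qb, AlgEquiv.commutes]
    · exact L.HA.algebraMap_mem ⟨algebraMap (Rp ℓ) Qb r, algebraMap_ratLocalized_mem hℓ hA r⟩

variable [Finite T]

include hℓ hA in
/-- A fixed power of `ℓ` times any integral function lies in the model. -/
theorem exists_pow_mul_mem_HA :
    ∃ N : ℕ, ∀ w : T → Qb, (∀ x, w x ∈ A) → (fun x => (ℓ : Qb) ^ N * w x) ∈ L.HA := by
  classical
  have : Fintype T := Fintype.ofFinite T
  have hsep : ∀ x y : T, x ≠ y → ∃ f ∈ L.HA, f x ≠ f y := fun x y h => by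
    by_contra! hc
    exact h (L.separates x y hc)
  choose! f hf hne using hsep
  let P : T → (T → Qb) := fun x => ∏ y ∈ Finset.univ.erase x,
    (f x y - algebraMap A (T → Qb) (if h : f x y y ∈ A then ⟨f x y y, h⟩ else 0))
  have hPmem : ∀ x, P x ∈ L.HA := fun x => Subalgebra.prod_mem _ fun y hy =>
    sub_mem (hf x y (Finset.ne_of_mem_erase hy).symm) (L.HA.algebraMap_mem _)
  have hPapply : ∀ x z, P x z = ∏ y ∈ Finset.univ.erase x, (f x y z - f x y y) := fun x z => by
    simp only [P, Finset.prod_apply, Pi.sub_apply]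
    refine Finset.prod_congr rfl fun y hy => ?_
    congr 1
    rw [Pi.algebraMap_apply, dif_pos (L.val_mem _ (hf x y (Finset.ne_of_mem_erase hy).symm) y)]
    rfl
  have hPne : ∀ x, P x x ≠ 0 := fun x => by
    rw [hPapply, Finset.prod_ne_zero_iff]
    exact fun y hy => sub_ne_zero.mpr (hne x y (Finset.ne_of_mem_erase hy).symm)
  have hPzero : ∀ x z, z ≠ x → P x z = 0 := fun x z hz => by
    rw [hPapply]
    exact Finset.prod_eq_zero (Finset.mem_erase.mpr ⟨hz, Finset.mem_univ z⟩) (sub_self _)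
  choose M hM using fun x => exists_pow_mul_mem hℓ hA (P x x)⁻¹
  refine ⟨Finset.univ.sup M, fun w hw => ?_⟩
  have hc : ∀ x, w x * (ℓ : Qb) ^ Finset.univ.sup M * (P x x)⁻¹ ∈ A := fun x => by
    rw [← Nat.sub_add_cancel (Finset.le_sup (f := M) (Finset.mem_univ x)), pow_add,
      ← mul_assoc, mul_assoc _ ((ℓ : Qb) ^ M x)]
    exact mul_mem (mul_mem (hw x) (pow_mem (natCast_mem A ℓ) _)) (hM x)
  have : (fun x => (ℓ : Qb) ^ Finset.univ.sup M * w x) =
      ∑ x, (⟨_, hc x⟩ : A) • P x := by
    funext z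
    rw [Finset.sum_apply, Finset.sum_eq_single z (fun x _ hx => by
      rw [smul_apply', hPzero x z hx.symm, mul_zero]) (by simp), smul_apply']
    show _ = w z * _ * (P z z)⁻¹ * P z z
    rw [inv_mul_cancel_right₀ (hPne z), mul_comm]
  rw [this]
  exact sum_mem fun x _ => L.HA.smul_mem (hPmem x) _

omit [Finite T] in
include hfix in
theorem isOpen_funStab [Finite T] (v : T → Qb) : IsOpen (funStab v : Set GQ) := by
  choose E hE hEfix using hfix
  let E' : T → IntermediateField ℚ Qb := fun x => E x ⊔ IntermediateField.adjoin ℚ {v x}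
  have hE' : ∀ x, FiniteDimensional ℚ (E' x) := fun x => by
    have := hE x
    have : FiniteDimensional ℚ (IntermediateField.adjoin ℚ {v x}) :=
      IntermediateField.adjoin.finiteDimensional (isGalois_algClosureRat.to_normal.isIntegral _)
    exact IntermediateField.finiteDimensional_sup _ _
  have : FiniteDimensional ℚ (⨆ x, E' x : IntermediateField ℚ Qb) :=
    IntermediateField.finiteDimensional_iSup_of_finite
  refine Subgroup.isOpen_mono ?_ (IntermediateField.fixingSubgroup_isOpen (⨆ x, E' x))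
  intro σ hσ
  rw [IntermediateField.mem_fixingSubgroup_iff] at hσ
  show twist σ v = v
  funext x
  have hx : σ • x = x := hEfix x σ (by
    rw [IntermediateField.mem_fixingSubgroup_iff]
    exact fun z hz => hσ z (le_iSup E' x ((le_sup_left : E x ≤ E' x) hz)))
  rw [twist_apply, inv_smul_eq_iff.mpr hx.symm]
  exact hσ _ (le_iSup E' x ((le_sup_right : _ ≤ E' x)
    (IntermediateField.mem_adjoin_simple_self ℚ (v x))))

include hℓ hA hfix in
/-- An inertia invariant function is a combination of equivariant ones. -/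
theorem mem_adjoin_equivAlg {v : T → Qb} (hv : v ∈ L.HA)
    (hI : ∀ σ ∈ A.inertiaSubgroupIn ℚ, twist σ v = v) :
    v ∈ Algebra.adjoin A (L.equivAlg hℓ hA : Set (T → Qb)) := by
  classical
  set Γ := funStab v with hΓdef
  have hΓ : IsOpen (Γ : Set GQ) := isOpen_funStab hfix v
  have : Finite (GQ ⧸ Γ) := Subgroup.quotient_finite_of_isOpen Γ hΓ
  have : Fintype (GQ ⧸ Γ) := Fintype.ofFinite _
  let wq : GQ ⧸ Γ → T → Qb := fun y => Quotient.liftOn' y (fun σ => twist σ v) fun a b hab => by
    rw [QuotientGroup.leftRel_apply] at hab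
    have h1 : twist (a⁻¹ * b) v = v := hab
    show twist a v = twist b v
    conv_lhs => rw [← h1, twist_twist, mul_inv_cancel_left]
  have hwq : ∀ σ : GQ, wq (QuotientGroup.mk σ) = twist σ v := fun _ => rfl
  let cq : fixedInts Γ → GQ ⧸ Γ → A := fun c y =>
    Quotient.liftOn' y (fun σ => intClosureToPlace A (σ • (c : ZB))) fun a b hab => by
      rw [QuotientGroup.leftRel_apply] at hab
      show intClosureToPlace A (a • (c : ZB)) = intClosureToPlace A (b • (c : ZB))
      conv_lhs => rw [← c.2 _ hab, ← mul_smul, mul_inv_cancel_left]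
  have hcq : ∀ (c : fixedInts Γ) (σ : GQ),
      ((cq c (QuotientGroup.mk σ) : A) : Qb) = σ ((c : ZB) : Qb) := fun _ _ => rfl
  let ev : fixedInts Γ →* (GQ ⧸ Γ → A) :=
    { toFun := cq
      map_one' := funext fun y => by
        induction y using QuotientGroup.induction_on with
        | H σ => exact Subtype.ext (by rw [hcq]; simp)
      map_mul' := fun c c' => funext fun y => by
        induction y using QuotientGroup.induction_on with
        | H σ => exact Subtype.ext (by rw [Pi.mul_apply, MulMemClass.coe_mul, hcq, hcq, hcq]; simp) }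
  -- the cosets away from the decomposition group
  set S : Finset (GQ ⧸ Γ) := Finset.univ.filter fun y =>
    ¬ ∃ σ ∈ A.decompositionSubgroup ℚ, QuotientGroup.mk σ = y with hS
  have hpi : ∀ y ∈ S, ∃ c ∈ fixedInts Γ, y.out • c ∈ centre A ∧ c ∉ centre A := fun y hy => by
    by_contra! hc
    obtain ⟨τ, hτ, hd⟩ := exists_mul_mem_decomposition hℓ hA hΓ y.out fun c hc' =>
      ⟨hc c hc', mem_centre_of_forall_imp hℓ hA y.out hc hc'⟩
    exact (Finset.mem_filter.mp hy).2
      ⟨_, hd, (QuotientGroup.mk_mul_of_mem y.out hτ).trans y.out_eq⟩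
  choose! π hπΓ hπ hπne using hpi
  obtain ⟨N, hN⟩ := L.exists_pow_mul_mem_HA hℓ hA
  choose M hM using fun (p : (GQ ⧸ Γ) × T) => exists_pow_mul_mem hℓ hA (wq p.1 p.2)
  have : Fintype T := Fintype.ofFinite T
  set MM := Finset.univ.sup M
  have hpow : ∀ y ∈ S, ∃ a : ℕ, ∃ u ∈ A, ((y.out • π y : ZB) : Qb) ^ a = (ℓ : Qb) ^ (N + MM) * u :=
    fun y hy => by
      obtain ⟨a, ha⟩ := exists_pow_eq_mul hℓ (hπ y hy) (N + MM)
      exact ⟨a, ha a le_rfl⟩
  choose! a u hu hau using hpow
  let γ : fixedInts Γ := ⟨∏ y ∈ S, π y ^ a y,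
    Subalgebra.prod_mem _ fun y hy => pow_mem (hπΓ y hy) _⟩
  have hγ : (γ : ZB) ∉ centre A := by
    intro h
    obtain ⟨y, hy, hy'⟩ := (centre_isPrime A).prod_mem_iff.mp h
    exact hπne y hy ((centre_isPrime A).mem_of_pow_mem _ hy')
  let g : GQ ⧸ Γ → T → Qb := fun y x => (cq γ y : Qb) * wq y x
  let Φ : (GQ ⧸ Γ → A) →ₗ[A] (T → Qb) := ∑ y, (LinearMap.proj y).smulRight (g y)
  have hΦ : ∀ e x, Φ e x = ∑ y, (e y : Qb) * g y x := fun e x => by
    simp only [Φ, LinearMap.sum_apply, LinearMap.smulRight_apply, LinearMap.proj_apply,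
      Finset.sum_apply]
    exact Finset.sum_congr rfl fun y _ => smul_apply' _ _ _
  have hev : ∀ c, Φ (ev c) ∈ L.equivAlg hℓ hA := fun c => by
    refine ⟨fun τ => funext fun x => ?_, ?_⟩
    · rw [twist_apply, hΦ, hΦ, map_sum, ← Equiv.sum_comp (MulAction.toPerm τ)
        (fun y => ((ev c y : A) : Qb) * g y x)]
      refine Finset.sum_congr rfl fun y _ => ?_
      induction y using QuotientGroup.induction_on with
      | H σ =>
        show τ (σ ((c : ZB) : Qb) * (σ ((γ : ZB) : Qb) * twist σ v (τ⁻¹ • x))) =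
          (τ * σ) ((c : ZB) : Qb) * ((τ * σ) ((γ : ZB) : Qb) * twist (τ * σ) v x)
        rw [← twist_twist, map_mul, map_mul]
        rfl
    · have : Φ (ev c) = ∑ y, (ev c y) • g y := by
        simp [Φ, LinearMap.sum_apply]
      rw [this]
      refine sum_mem fun y _ => L.HA.smul_mem ?_ _
      by_cases hy : y ∈ S
      · have hγy : (cq γ y : Qb) = (ℓ : Qb) ^ (N + MM) *
            (u y * ∏ z ∈ S.erase y, ((y.out • π z : ZB) : Qb) ^ a z) := by
          conv_lhs => rw [← y.out_eq]
          rw [← mul_assoc, ← hau y hy, Finset.mul_prod_erase S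
            (fun z => ((y.out • π z : ZB) : Qb) ^ a z) hy]
          refine (hcq γ y.out).trans ?_
          simp only [γ, SubmonoidClass.coe_finsetProd, map_prod, SubmonoidClass.coe_pow, map_pow]
          rfl
        have hgy : g y = fun x => (ℓ : Qb) ^ N *
            ((u y * ∏ z ∈ S.erase y, ((y.out • π z : ZB) : Qb) ^ a z) *
              ((ℓ : Qb) ^ MM * wq y x)) := funext fun x => by
          show (cq γ y : Qb) * wq y x = _
          rw [hγy, pow_add]
          ring
        rw [hgy]
        refine hN _ fun x => mul_mem (mul_mem (hu y hy) (prod_mem fun z _ =>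
          pow_mem (mem_of_isIntegral_int A (y.out • π z).2) _)) ?_
        rw [← Nat.sub_add_cancel
          (show M (y, x) ≤ MM from Finset.le_sup (Finset.mem_univ (y, x))), pow_add, mul_assoc]
        exact mul_mem (pow_mem (natCast_mem A ℓ) _) (hM (y, x))
      · obtain ⟨σ, hσ, rfl⟩ : ∃ σ ∈ A.decompositionSubgroup ℚ, QuotientGroup.mk σ = y := by
          simpa [hS] using hy
        exact L.HA.smul_mem (L.stable σ hσ v hv) (cq γ (QuotientGroup.mk σ))
  -- the indicator of the trivial coset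
  obtain ⟨e, he, hind⟩ := exists_indicator (π := IsLocalRing.residue A)
    (fun b => (IsLocalRing.residue_ne_zero_iff_isUnit b).symm)
    (Algebra.adjoin A (Set.range ev)) (QuotientGroup.mk (1 : GQ))
  have he0 : ∀ y, y ≠ QuotientGroup.mk (1 : GQ) → e y = 0 := fun y hy => by
    refine (hind y).2 fun hall => hy ?_
    induction y using QuotientGroup.induction_on with
    | H σ =>
      refine QuotientGroup.eq.mpr ?_
      rw [mul_one, inv_mem_iff]
      refine mem_of_congr hℓ hA hΓ (fun i hi => hI i hi) σ fun c hc => ?_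
      have h := hall _ (Algebra.subset_adjoin ⟨⟨c, hc⟩, rfl⟩)
      rw [← sub_eq_zero, ← map_sub, IsLocalRing.residue_eq_zero_iff] at h
      have e1 : (1 : GQ) • c = c := one_smul _ c
      show intClosureToPlace A (σ • c - c) ∈ IsLocalRing.maximalIdeal A
      rw [map_sub]
      nth_rw 2 [← e1]
      exact h
  have he1 : e (QuotientGroup.mk (1 : GQ)) = 1 := (hind _).1 fun f _ => rfl
  have hspan : Φ e ∈ Algebra.adjoin A (L.equivAlg hℓ hA : Set (T → Qb)) := by
    have h1 : e ∈ Submodule.span A (Set.range ev) := by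
      refine Submodule.span_mono ?_ ((Algebra.adjoin_eq_span A (Set.range ev)).le he)
      exact (Submonoid.closure_le (S := MonoidHom.mrange ev)).mpr fun z hz => hz
    have h2 := Submodule.mem_map_of_mem (f := Φ) h1
    rw [Submodule.map_span] at h2
    refine (Algebra.span_le_adjoin A _) (Submodule.span_mono ?_ h2)
    rintro _ ⟨_, ⟨c, rfl⟩, rfl⟩
    exact hev c
  have hΦe : Φ e = fun x => ((γ : ZB) : Qb) * v x := funext fun x => by
    rw [hΦ, Finset.sum_eq_single (QuotientGroup.mk (1 : GQ)) (fun y _ hy => by simp [he0 y hy])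
      (by simp), he1]
    show (((1 : A) : A) : Qb) * (((cq γ (QuotientGroup.mk 1) : A) : Qb) * twist 1 v x) = _
    rw [hcq, twist_one, AlgEquiv.one_apply]
    simp
  have hv' : v = (⟨_, inv_mem_of_notMem_centre hγ⟩ : A) • Φ e := funext fun x => by
    rw [smul_apply', hΦe]
    have : ((γ : ZB) : Qb) ≠ 0 := fun h0 => hγ (by
      rw [show (γ : ZB) = 0 from Subtype.ext h0]; exact zero_mem _)
    simp [this]
  rw [hv']
  exact Subalgebra.smul_mem _ hspan _

include hℓ hA hfix in
theorem le_adjoin_equivAlg : L.HA ≤ Algebra.adjoin A (L.equivAlg hℓ hA : Set (T → Qb)) :=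
  L.gen.trans (Algebra.adjoin_le fun _ hg => L.mem_adjoin_equivAlg hℓ hA hfix hg.1 hg.2)

omit [Finite T] in
/-- Multiplication by a natural number preserves the model. -/
theorem nsmul_mem_HA (j : ℕ) : ∀ f ∈ L.HA, (fun x => f (j • x)) ∈ L.HA := by
  induction j with
  | zero =>
    intro f hf
    have : (fun x : T => f ((0 : ℕ) • x)) =
        algebraMap A (T → Qb) ⟨f 0, L.val_mem f hf 0⟩ := funext fun x => by
      rw [zero_smul]
      rfl
    rw [this]
    exact L.HA.algebraMap_mem _
  | succ j ih =>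
    intro f hf
    let g : T → T × T := fun x => (j • x, x)
    have h : pullFun (R := A) g (fun z : T × T => f (z.1 + z.2)) ∈
        (Algebra.adjoin A (pullFun (R := A) (Prod.fst : T × T → T) '' (L.HA : Set (T → Qb)) ∪
          pullFun (R := A) (Prod.snd : T × T → T) '' (L.HA : Set (T → Qb)))).map
            (pullFun (R := A) g) :=
      Subalgebra.mem_map.mpr ⟨_, L.add_mem f hf, rfl⟩
    have hle : (Algebra.adjoin A (pullFun (R := A) (Prod.fst : T × T → T) '' (L.HA : Set (T → Qb)) ∪
          pullFun (R := A) (Prod.snd : T × T → T) '' (L.HA : Set (T → Qb)))).map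
            (pullFun (R := A) g) ≤ L.HA := by
      rw [AlgHom.map_adjoin, Algebra.adjoin_le_iff]
      rintro _ ⟨_, ⟨a, ha, rfl⟩ | ⟨a, ha, rfl⟩, rfl⟩
      · exact ih a ha
      · exact ha
    have h2 := hle h
    convert h2 using 1
    funext x
    rw [succ_nsmul]
    rfl

include hℓ hA hfix in
theorem equivAlg_fg : (L.equivAlg hℓ hA).toSubmodule.FG := by
  choose E hE hEfix using hfix
  have : ∀ x, FiniteDimensional ℚ (E x) := hE
  have : ∀ x, Module.Finite (Rp ℓ) (integralClosure (Rp ℓ) (E x)) := fun x =>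
    IsIntegralClosure.finite (Rp ℓ) ℚ (E x) _
  have hval : ∀ h ∈ L.equivAlg hℓ hA, ∀ x, h x ∈ E x := fun h hh x => by
    rw [← InfiniteGalois.fixedField_fixingSubgroup (E x)]
    rw [IntermediateField.mem_fixedField_iff]
    intro σ hσ
    rw [← (isEquivariant_iff_twist h).mpr hh.1 σ x]
    exact congrArg h (hEfix x σ hσ)
  have hint : ∀ h (hh : h ∈ L.equivAlg hℓ hA) (x : T),
      (⟨h x, hval h hh x⟩ : E x) ∈ integralClosure (Rp ℓ) (E x) := fun h hh x => by
    refine (isIntegral_algHom_iff ((E x).val.restrictScalars (Rp ℓ)) Subtype.val_injective).mp ?_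
    refine isIntegral_ratLocalized_of_forall_mem hℓ hA fun σ => ?_
    show σ (h x) ∈ A
    rw [← (isEquivariant_iff_twist h).mpr hh.1 σ x]
    exact L.val_mem h hh.2 _
  let S : T → Submodule (Rp ℓ) Qb := fun x =>
    (integralClosure (Rp ℓ) (E x)).toSubmodule.map ((E x).val.restrictScalars (Rp ℓ)).toLinearMap
  have hS : ∀ x, (S x).FG := fun x =>
    (Module.Finite.iff_fg.mp (inferInstanceAs (Module.Finite (Rp ℓ)
      (integralClosure (Rp ℓ) (E x))))).map _
  have hpi : (Submodule.pi Set.univ S).FG := Submodule.fg_pi hS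
  have hle : (L.equivAlg hℓ hA).toSubmodule ≤ Submodule.pi Set.univ S := fun h hh x _ =>
    ⟨⟨h x, hval h hh x⟩, hint h hh x, rfl⟩
  have := isNoetherian_of_fg_of_noetherian _ hpi
  exact Submodule.FG.of_le hpi hle

include hℓ hA hfix in
theorem equivAlg_separates (x y : T) (h : ∀ f ∈ L.equivAlg hℓ hA, f x = f y) : x = y := by
  refine L.separates x y fun f hf => ?_
  have h1 := L.le_adjoin_equivAlg hℓ hA hfix hf
  clear hf
  induction h1 using Algebra.adjoin_induction with
  | mem g hg => exact h g hg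
  | algebraMap r => rfl
  | add a b _ _ ha hb => simp [ha, hb]
  | mul a b _ _ ha hb => simp [ha, hb]

omit [AddCommGroup T] [DistribMulAction GQ T] [Finite T] in
/-- The algebra over `A` generated by the two pullbacks of a `ℤ_(ℓ)`-algebra of functions with
finite basis is spanned by the products of basis elements. -/
theorem adjoin_pullFun_le_span (hℓ : ℓ.Prime) (hA : A.LiesOverPrime ℓ)
    (H : Subalgebra (Rp ℓ) (T → Qb)) {ι : Type} [Fintype ι] (v : ι → T → Qb)
    (hv : ∀ a ∈ H, ∃ r : ι → Rp ℓ, a = ∑ i, r i • v i) :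
    (Algebra.adjoin A (pullFun (R := A) (Prod.fst : T × T → T) '' (H : Set (T → Qb)) ∪
      pullFun (R := A) (Prod.snd : T × T → T) '' (H : Set (T → Qb))) :
        Subalgebra A (T × T → Qb)).toSubmodule ≤
      Submodule.span A (Set.range fun (i : ι × ι) (z : T × T) => v i.1 z.1 * v i.2 z.2) := by
  let S : Submonoid (T × T → Qb) :=
    { carrier := {g | ∃ a ∈ H, ∃ b ∈ H, g = fun z => a z.1 * b z.2}
      one_mem' := ⟨1, one_mem H, 1, one_mem H, by funext z; simp⟩
      mul_mem' := by
        rintro _ _ ⟨a, ha, b, hb, rfl⟩ ⟨a', ha', b', hb', rfl⟩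
        exact ⟨a * a', mul_mem ha ha', b * b', mul_mem hb hb', by
          funext z; simp only [Pi.mul_apply]; ring⟩ }
  rw [Algebra.adjoin_eq_span, Submodule.span_le]
  intro g hg
  have hle : Submonoid.closure (pullFun (R := A) (Prod.fst : T × T → T) '' (H : Set (T → Qb)) ∪
      pullFun (R := A) (Prod.snd : T × T → T) '' (H : Set (T → Qb))) ≤ S := by
    rw [Submonoid.closure_le, Set.union_subset_iff]
    constructor <;> rintro _ ⟨a, ha, rfl⟩
    · exact ⟨a, ha, 1, one_mem H, by funext z; simp⟩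
    · exact ⟨1, one_mem H, a, ha, by funext z; simp⟩
  obtain ⟨a, ha, b, hb, rfl⟩ := hle hg
  obtain ⟨r, rfl⟩ := hv a ha
  obtain ⟨s, rfl⟩ := hv b hb
  have : (fun z : T × T => (∑ i, r i • v i) z.1 * (∑ j, s j • v j) z.2) =
      ∑ i, ∑ j, (⟨algebraMap (Rp ℓ) Qb (r i * s j),
        algebraMap_ratLocalized_mem hℓ hA _⟩ : A) • fun z : T × T => v i z.1 * v j z.2 := by
    funext z
    rw [Finset.sum_apply, Finset.sum_apply, Finset.sum_apply, Finset.sum_mul_sum]
    refine Finset.sum_congr rfl fun i _ => ?_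
    rw [Finset.sum_apply]
    refine Finset.sum_congr rfl fun j _ => ?_
    show r i • v i z.1 * s j • v j z.2 = algebraMap (Rp ℓ) Qb (r i * s j) * (v i z.1 * v j z.2)
    rw [Algebra.smul_def, Algebra.smul_def, map_mul]
    ring
  show _ ∈ Submodule.span A _
  rw [this]
  exact sum_mem fun i _ => sum_mem fun j _ =>
    Submodule.smul_mem _ _ (Submodule.subset_span ⟨(i, j), rfl⟩)

omit [Finite T] in
/-- Coefficients of an equivariant combination of independent equivariant functions are
`ℓ`-integral rationals. -/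
theorem exists_ratLocalized_coeff (hℓ : ℓ.Prime) (hA : A.LiesOverPrime ℓ) {ι : Type} [Fintype ι]
    {B : ι → T × T → Qb} (hB : LinearIndependent Qb B)
    (hBeq : ∀ i (σ : GQ) z, σ (B i (σ⁻¹ • z.1, σ⁻¹ • z.2)) = B i z) {g : T × T → Qb}
    (hgeq : ∀ (σ : GQ) z, σ (g (σ⁻¹ • z.1, σ⁻¹ • z.2)) = g z)
    (hg : g ∈ Submodule.span A (Set.range B)) :
    ∃ r : ι → Rp ℓ, ∀ z, g z = ∑ i, algebraMap (Rp ℓ) Qb (r i) * B i z := by
  rw [Submodule.mem_span_range_iff_exists_fun] at hg
  obtain ⟨c, hc⟩ := hg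
  have hc' : ∀ z : T × T, ∑ i, (c i : Qb) * B i z = g z := fun z => by
    have := congrFun hc z
    rw [Finset.sum_apply] at this
    exact this
  have hrat : ∀ i, ∃ q : ℚ, (q : Qb) = c i := fun i => mem_range_rat_of_fixed fun σ => by
    refine sub_eq_zero.mp (Fintype.linearIndependent_iff.mp hB (fun j => σ (c j : Qb) - c j) ?_ i)
    funext z
    simp only [Finset.sum_apply, Pi.smul_apply, smul_eq_mul, sub_mul, Finset.sum_sub_distrib,
      hc', Pi.zero_apply, sub_eq_zero]
    rw [← hgeq σ z, ← hc', map_sum]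
    refine Finset.sum_congr rfl fun j _ => ?_
    rw [map_mul, hBeq j σ z]
  choose q hq using hrat
  refine ⟨fun i => ⟨q i, (ratCast_mem_place_iff hℓ hA).mp (by rw [hq i]; exact (c i).2)⟩,
    fun z => ?_⟩
  rw [← hc' z]
  refine Finset.sum_congr rfl fun i _ => ?_
  rw [IsScalarTower.algebraMap_apply (Rp ℓ) ℚ Qb, eq_ratCast, ← hq i]
  rfl

include hℓ hA hfix in
theorem adjoin_pull_le :
    Algebra.adjoin A (pullFun (R := A) (Prod.fst : T × T → T) '' (L.HA : Set (T → Qb)) ∪
        pullFun (R := A) (Prod.snd : T × T → T) '' (L.HA : Set (T → Qb))) ≤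
      Algebra.adjoin A
        (pullFun (R := A) (Prod.fst : T × T → T) '' (L.equivAlg hℓ hA : Set (T → Qb)) ∪
          pullFun (R := A) (Prod.snd : T × T → T) '' (L.equivAlg hℓ hA : Set (T → Qb))) := by
  have key : ∀ g : T × T → T, pullFun (R := A) g '' (L.HA : Set (T → Qb)) ⊆
      (Algebra.adjoin A (pullFun (R := A) g '' (L.equivAlg hℓ hA : Set (T → Qb))) :
        Set (T × T → Qb)) := by
    rintro g _ ⟨a, ha, rfl⟩
    rw [← AlgHom.map_adjoin]
    exact Subalgebra.mem_map.mpr ⟨a, L.le_adjoin_equivAlg hℓ hA hfix ha, rfl⟩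
  rw [Algebra.adjoin_le_iff, Set.union_subset_iff]
  exact ⟨(key _).trans (Algebra.adjoin_mono Set.subset_union_left),
    (key _).trans (Algebra.adjoin_mono Set.subset_union_right)⟩

include hℓ hA hfix in
theorem equivAlg_add_mem {f : T → Qb} (hf : f ∈ L.equivAlg hℓ hA) :
    precomp (p := ℓ) addMap f ∈
      (prodTensor (L.equivAlg hℓ hA).val (L.equivAlg hℓ hA).val).range := by
  classical
  have hfg := L.equivAlg_fg hℓ hA hfix
  have hadd := L.adjoin_pull_le hℓ hA hfix (L.add_mem f hf.2)
  have hmem : ∀ a ∈ L.equivAlg hℓ hA, ∀ σ, twist σ a = a := fun a ha => ha.1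
  have hfσ := hf.1
  clear hf
  generalize L.equivAlg hℓ hA = H at hfg hadd hmem ⊢
  have : Module.Finite (Rp ℓ) H := Module.Finite.iff_fg.mpr hfg
  have : Module.IsTorsionFree (Rp ℓ) H := .of_smul_eq_zero fun r f h => by
    refine or_iff_not_imp_left.mpr fun hr => Subtype.ext (funext fun x => ?_)
    have h1 : r • (f : T → Qb) x = 0 := congrFun (congrArg Subtype.val h) x
    rw [smul_qbar_eq, mul_eq_zero, Rat.cast_eq_zero] at h1
    exact h1.resolve_left fun h2 => hr (Subtype.ext h2)
  have : Module.Free (Rp ℓ) H := Module.free_of_finite_type_torsion_free'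
  let b := Module.Free.chooseBasis (Rp ℓ) H
  have : Fintype (Module.Free.ChooseBasisIndex (Rp ℓ) H) := Fintype.ofFinite _
  have hb : LinearIndependent Qb fun i => ((b i : H) : T → Qb) := by
    refine linearIndependent_qbar (p := ℓ) (act := fun σ x => σ • x)
      (fun σ y => ⟨σ⁻¹ • y, smul_inv_smul σ y⟩)
      (fun i => (isEquivariant_iff_twist _).mpr (hmem _ (b i).2)) ?_
    exact b.linearIndependent.map' H.val.toLinearMap
      (LinearMap.ker_eq_bot.mpr Subtype.val_injective)
  have hspan := adjoin_pullFun_le_span hℓ hA H (fun i => ((b i : H) : T → Qb)) (fun a ha =>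
    ⟨fun i => b.repr ⟨a, ha⟩ i, by
      conv_lhs => rw [show a = ((⟨a, ha⟩ : H) : T → Qb) from rfl, ← b.sum_repr ⟨a, ha⟩]
      rw [AddSubmonoidClass.coe_finsetSum]
      rfl⟩) hadd
  obtain ⟨r, hr⟩ := exists_ratLocalized_coeff hℓ hA (linearIndependent_prod hb hb)
    (fun i σ z => by
      rw [map_mul]
      congr 1
      · exact congrFun (hmem _ (b i.1).2 σ) z.1
      · exact congrFun (hmem _ (b i.2).2 σ) z.2)
    (fun σ z => by
      show σ (f (σ⁻¹ • z.1 + σ⁻¹ • z.2)) = f (z.1 + z.2)
      rw [← smul_add]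
      exact congrFun (hfσ σ) _) hspan
  refine ⟨∑ i, r i • (b i.1 ⊗ₜ[Rp ℓ] b i.2), ?_⟩
  rw [map_sum]
  funext z
  show (∑ i, prodTensor H.val H.val (r i • (b i.1 ⊗ₜ[Rp ℓ] b i.2))) z = f (z.1 + z.2)
  rw [Finset.sum_apply, hr z]
  refine Finset.sum_congr rfl fun i _ => ?_
  rw [map_smul, Pi.smul_apply, prodTensor_tmul, Algebra.smul_def]
  rfl

omit [Finite T] in
theorem twist_neg (σ : GQ) (f : T → Qb) :
    twist σ (fun x => f (-x)) = fun x => twist σ f (-x) := by
  funext x
  simp [twist_apply, smul_neg]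

include hℓ hA in
theorem equivAlg_neg_mem {f : T → Qb} (hf : f ∈ L.equivAlg hℓ hA) :
    precomp (p := ℓ) (fun x : T => -x) f ∈ L.equivAlg hℓ hA := by
  refine ⟨fun σ => ?_, ?_⟩
  · show twist σ (fun x => f (-x)) = fun x => f (-x)
    rw [twist_neg, hf.1 σ]
  · have hpos : 0 < Nat.card T := Nat.card_pos
    have : (fun x : T => f (-x)) = fun x => f ((Nat.card T - 1) • x) := funext fun x => by
      refine congrArg f (neg_eq_of_add_eq_zero_left ?_)
      rw [← succ_nsmul, Nat.sub_add_cancel hpos]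
      exact card_nsmul_eq_zero'
    show (fun x : T => f (-x)) ∈ L.HA
    rw [this]
    exact L.nsmul_mem_HA _ f hf.2

include hℓ hA hfix in
/-- The model over `ℤ_(ℓ)`. -/
def functionModel : FunctionModel ℓ T (fun σ x => σ • x) where
  A := L.equivAlg hℓ hA
  fg := L.equivAlg_fg hℓ hA hfix
  equivariant f hf := (isEquivariant_iff_twist f).mpr hf.1
  separates x y := L.equivAlg_separates hℓ hA hfix x y
  add_mem _ hf := L.equivAlg_add_mem hℓ hA hfix hf
  neg_mem _ hf := L.equivAlg_neg_mem hℓ hA hf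

end LocalModel

end FermatAgent.JacCharts
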