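import Fermat.Agent.JacCharts.Descent

/-!
# Extension by zero and gluing of functions in an algebra
-/

set_option autoImplicit false

noncomputable section

namespace FermatAgent.JacCharts

local notation "Qb" => AlgebraicClosure ℚ

variable {X : Type*} {A : ValuationSubring (AlgebraicClosure ℚ)}

open Classical in
/-- Extension by zero of an `A`-valued function. -/
def extendFun (P : X → Prop) (f : {x // P x} → A) : X → Qb :=
  fun x => if h : P x then ((f ⟨x, h⟩ : A) : Qb) else 0

theorem extendFun_of_pos {P : X → Prop} (f : {x // P x} → A) {x : X} (h : P x) :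
    extendFun P f x = ((f ⟨x, h⟩ : A) : Qb) := by
  rw [extendFun, dif_pos h]

theorem extendFun_of_neg {P : X → Prop} (f : {x // P x} → A) {x : X} (h : ¬ P x) :
    extendFun P f x = 0 := by
  rw [extendFun, dif_neg h]

theorem extendFun_eq {P : X → Prop} {f : {x // P x} → A} {g : X → Qb}
    (hpos : ∀ x (h : P x), g x = ((f ⟨x, h⟩ : A) : Qb)) (hneg : ∀ x, ¬ P x → g x = 0) :
    g = extendFun P f := by
  funext x
  by_cases h : P x
  · rw [hpos x h, extendFun_of_pos f h]
  · rw [hneg x h, extendFun_of_neg f h]

/-- The extension by zero of the members of a generated algebra. -/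
theorem extendFun_mem {S : Subalgebra A (X → Qb)} {P : X → Prop}
    (he : extendFun P (1 : {x // P x} → A) ∈ S) {s : Set ({x // P x} → A)}
    (hs : ∀ h ∈ s, extendFun P h ∈ S) {f : {x // P x} → A} (hf : f ∈ Algebra.adjoin A s) :
    extendFun P f ∈ S := by
  induction hf using Algebra.adjoin_induction with
  | mem h hh => exact hs h hh
  | algebraMap r =>
    rw [show extendFun P (algebraMap A ({x // P x} → A) r) =
      r • extendFun P (1 : {x // P x} → A) from (extendFun_eq
        (fun x h => by
          show (r : Qb) * extendFun P 1 x = _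
          rw [extendFun_of_pos _ h]; simp)
        (fun x h => by
          show (r : Qb) * extendFun P 1 x = _
          rw [extendFun_of_neg _ h, mul_zero])).symm]
    exact S.smul_mem he r
  | add a b _ _ ha hb =>
    rw [show extendFun P (a + b) = extendFun P a + extendFun P b from (extendFun_eq
      (fun x h => by rw [Pi.add_apply, extendFun_of_pos _ h, extendFun_of_pos _ h]; rfl)
      (fun x h => by rw [Pi.add_apply, extendFun_of_neg _ h, extendFun_of_neg _ h,
        add_zero])).symm]
    exact add_mem ha hb
  | mul a b _ _ ha hb =>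
    rw [show extendFun P (a * b) = extendFun P a * extendFun P b from (extendFun_eq
      (fun x h => by rw [Pi.mul_apply, extendFun_of_pos _ h, extendFun_of_pos _ h]; rfl)
      (fun x h => by rw [Pi.mul_apply, extendFun_of_neg _ h, zero_mul])).symm]
    exact mul_mem ha hb

/-- Gluing along a covering by elements of the algebra. -/
theorem mem_of_cover {S : Subalgebra A (X → Qb)} {ι : Type*} (s : Finset ι) (e : ι → X → Qb)
    (he : ∀ j ∈ s, e j ∈ S) {f : X → Qb} (hf : ∀ j ∈ s, f * e j ∈ S)
    (hcov : ∀ x, ∃ j ∈ s, e j x = 1) : f ∈ S := by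
  classical
  have key : ∀ t ⊆ s, f * (1 - ∏ j ∈ t, (1 - e j)) ∈ S := by
    intro t
    induction t using Finset.induction with
    | empty => intro _; simp
    | @insert a t ha ih =>
      intro hsub
      rw [Finset.prod_insert ha, show f * (1 - (1 - e a) * ∏ j ∈ t, (1 - e j)) =
        f * e a + (1 - e a) * (f * (1 - ∏ j ∈ t, (1 - e j))) by ring]
      exact add_mem (hf a (hsub (Finset.mem_insert_self a t)))
        (mul_mem (sub_mem (one_mem S) (he a (hsub (Finset.mem_insert_self a t))))
          (ih ((Finset.subset_insert a t).trans hsub)))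
  have h0 : ∏ j ∈ s, (1 - e j) = 0 := funext fun x => by
    obtain ⟨j, hj, hjx⟩ := hcov x
    rw [Finset.prod_apply, Pi.zero_apply]
    exact Finset.prod_eq_zero hj (by simp [hjx])
  simpa [h0] using key s subset_rfl

end FermatAgent.JacCharts
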