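import Fermat.Agent.JacCharts.Basic
import Fermat.Agent.JacCharts.Congr

/-!
# Families of functions with coefficients in an algebra of congruent families

For a finite index type `I` and `R ⊆ (I → A)`, `RFam d R G` consists of the families
`i ↦ ∑ r_j(i) • x_j` with `r_j ∈ R` and integral `x_j ∈ L(G)`. A family of effective divisors
`X` is rational over `R` at `G` (`Rat`) if every element of the common reduction
`L(red G - Xb)` lifts to a family in `RFam d R G` with values in `L(G - X i)`. The main tool is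
`exists_lift_family`: linear conditions with coefficients in `R` and of constant rank have
solutions with coefficients in `R`.
-/

set_option autoImplicit false

noncomputable section

open AlgebraicCurve FermatAgent.Curve.RR

namespace FermatAgent.JacCharts

/-- A linear system `gₐ·h - ∑ y_x W_{a,x} = 0` written in bases. -/
theorem system_eval {L E : Type*} [Field L] [CommRing E] [Algebra L E] {N : ℕ} {α X : Type*}
    [Fintype X] {m : α → ℕ} (β : Fin N → E) (τ : ∀ a, Fin (m a) → E) (g : α → E) (W : α → X → E)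
    (M : (Σ a, Fin (m a)) → (Fin N ⊕ X) → L)
    (h1 : ∀ a l, g a * β l = ∑ t, M ⟨a, t⟩ (.inl l) • τ a t)
    (h2 : ∀ a x, W a x = -∑ t, M ⟨a, t⟩ (.inr x) • τ a t)
    (v : Fin N ⊕ X → L) (a : α) :
    g a * (∑ l, v (.inl l) • β l) - ∑ x, v (.inr x) • W a x =
      ∑ t, Matrix.mulVec (Matrix.of M) v ⟨a, t⟩ • τ a t := by
  simp only [Matrix.mulVec, dotProduct, Matrix.of_apply, Fintype.sum_sum_type, add_smul,
    Finset.sum_add_distrib, Finset.sum_smul, mul_smul, Finset.mul_sum, mul_smul_comm, h1, h2,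
    Finset.smul_sum, smul_neg, Finset.sum_neg_distrib, sub_neg_eq_add]
  congr 1 <;> rw [Finset.sum_comm] <;>
    exact Finset.sum_congr rfl fun _ _ => Finset.sum_congr rfl fun _ _ => smul_comm _ _ _

namespace GoodReductionDatum

variable {K : Type*} [Field K] {A : ValuationSubring K} {k : Type*} [Field k] {π : A →+* k}
variable {F : Type*} [Field F] [Algebra K F] {Fb : Type*} [Field Fb] [Algebra k Fb]
variable (d : GoodReductionDatum A π F Fb)
variable {I : Type*}

/-- Families of elements of `L(G)` with coefficients in `R`. -/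
def RFam (R : Subalgebra A (I → A)) (G : Divisor K F) : AddSubgroup (I → F) :=
  AddSubgroup.closure
    {h | ∃ r ∈ R, ∃ x ∈ riemannRochSpace G, x ∈ d.integers ∧ h = fun i => ((r i : A) : K) • x}

variable {d} {R : Subalgebra A (I → A)} {G G' : Divisor K F}

theorem smul_mem_RFam {r : I → A} (hr : r ∈ R) {h : I → F} (hh : h ∈ d.RFam R G) :
    (fun i => ((r i : A) : K) • h i) ∈ d.RFam R G := by
  induction hh using AddSubgroup.closure_induction with
  | mem x hx =>
    obtain ⟨s, hs, y, hy, hyi, rfl⟩ := hx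
    refine AddSubgroup.subset_closure ⟨r * s, mul_mem hr hs, y, hy, hyi, funext fun i => ?_⟩
    simp [mul_smul]
  | zero => simp [← Pi.zero_def]
  | add x y _ _ hx hy => simpa [smul_add, ← Pi.add_def] using add_mem hx hy
  | neg x _ hx => simpa [smul_neg, ← Pi.neg_def] using neg_mem hx

theorem gen_mem_RFam {r : I → A} (hr : r ∈ R) {x : F} (hx : x ∈ riemannRochSpace G)
    (hxi : x ∈ d.integers) : (fun i => ((r i : A) : K) • x) ∈ d.RFam R G :=
  AddSubgroup.subset_closure ⟨r, hr, x, hx, hxi, rfl⟩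

theorem const_mem_RFam {x : F} (hx : x ∈ riemannRochSpace G) (hxi : x ∈ d.integers) :
    (fun _ : I => x) ∈ d.RFam R G := by
  simpa using gen_mem_RFam (d := d) (one_mem R) hx hxi

theorem mul_mem_RFam {g h : I → F} (hg : g ∈ d.RFam R G) (hh : h ∈ d.RFam R G') :
    g * h ∈ d.RFam R (G + G') := by
  induction hg using AddSubgroup.closure_induction with
  | mem x hx =>
    obtain ⟨r, hr, y, hy, hyi, rfl⟩ := hx
    induction hh using AddSubgroup.closure_induction with
    | mem x' hx' =>
      obtain ⟨r', hr', y', hy', hyi', rfl⟩ := hx'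
      refine AddSubgroup.subset_closure ⟨r * r', mul_mem hr hr', y * y', mul_mem_L hy hy',
        mul_mem hyi hyi', funext fun i => ?_⟩
      simp only [Pi.mul_apply, smul_mul_smul_comm]
      rfl
    | zero => simp
    | add x y _ _ hx hy => simpa [mul_add] using add_mem hx hy
    | neg x _ hx => simpa using neg_mem hx
  | zero => simp
  | add x y _ _ hx hy => simpa [add_mul] using add_mem hx hy
  | neg x _ hx => simpa using neg_mem hx

theorem RFam.exists_coords {N : ℕ} {β : Fin N → F} {βb : Fin N → Fb}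
    (hβ : ∀ l, d.RedsTo (β l) (βb l)) (hind : LinearIndependent k βb)
    (hspan : riemannRochSpace G ≤ Submodule.span K (Set.range β))
    {h : I → F} (hh : h ∈ d.RFam R G) :
    ∃ r : Fin N → (I → A), (∀ l, r l ∈ R) ∧ ∀ i, h i = ∑ l, ((r l i : A) : K) • β l := by
  induction hh using AddSubgroup.closure_induction with
  | mem x hx =>
    obtain ⟨r, hr, y, hy, hyi, rfl⟩ := hx
    obtain ⟨c, hc⟩ := Submodule.mem_span_range_iff_exists_fun K |>.mp (hspan hy)
    have hcA := coords_mem hβ hind hyi hc.symm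
    refine ⟨fun l => r * algebraMap A (I → A) ⟨c l, hcA l⟩,
      fun l => mul_mem hr (R.algebraMap_mem _), fun i => ?_⟩
    simp only [← hc, Finset.smul_sum, smul_smul]
    rfl
  | zero => exact ⟨0, fun _ => zero_mem _, fun _ => by simp⟩
  | add x y _ _ hx hy =>
    obtain ⟨r, hr, hr'⟩ := hx
    obtain ⟨s, hs, hs'⟩ := hy
    refine ⟨fun l => r l + s l, fun l => add_mem (hr l) (hs l), fun i => ?_⟩
    simp [hr', hs', add_smul, Finset.sum_add_distrib]
  | neg x _ hx =>
    obtain ⟨r, hr, hr'⟩ := hx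
    refine ⟨fun l => -r l, fun l => neg_mem (hr l), fun i => ?_⟩
    simp [hr', neg_smul]

theorem RFam.sum_smul_mem {ι : Type*} [Fintype ι] {r : ι → (I → A)} (hr : ∀ l, r l ∈ R)
    {h : ι → (I → F)} (hh : ∀ l, h l ∈ d.RFam R G) :
    (fun i => ∑ l, ((r l i : A) : K) • h l i) ∈ d.RFam R G := by
  rw [show (fun i => ∑ l, ((r l i : A) : K) • h l i)
      = ∑ l, fun i => ((r l i : A) : K) • h l i from funext fun i => by simp]
  exact AddSubgroup.sum_mem _ fun l _ => smul_mem_RFam (hr l) (hh l)

variable [RRSetting K F] [RRSetting k Fb] [Fintype I]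

variable (d) in
/-- The family `X` of effective divisors, with common reduction `Xb`, is `R`-rational at `G`. -/
structure Rat (R : Subalgebra A (I → A)) (G : Divisor K F) (X : I → Divisor K F)
    (Xb : Divisor k Fb) : Prop where
  nonneg : ∀ i, 0 ≤ X i
  red_eq : ∀ i, d.redDiv (X i) = Xb
  exists_lift : ∀ fb ∈ riemannRochSpace (d.redDiv G - Xb),
    ∃ h ∈ d.RFam R G, ∀ i, h i ∈ riemannRochSpace (G - X i) ∧ d.RedsTo (h i) fb

omit [Fintype I] in
theorem Rat.exists_basis {X : I → Divisor K F} {Xb : Divisor k Fb} (hX : d.Rat R G X Xb) :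
    ∃ (w : Fin (ell (d.redDiv G - Xb)) → (I → F)) (wb : Fin (ell (d.redDiv G - Xb)) → Fb),
      (∀ c, w c ∈ d.RFam R G) ∧ (∀ c i, d.RedsTo (w c i) (wb c)) ∧ LinearIndependent k wb ∧
        Submodule.span k (Set.range wb) = riemannRochSpace (d.redDiv G - Xb) ∧
        ∀ i, Submodule.span K (Set.range fun c => w c i) = riemannRochSpace (G - X i) := by
  let e : Module.Basis (Fin (ell (d.redDiv G - Xb))) k (riemannRochSpace (d.redDiv G - Xb)) :=
    Module.finBasis k _
  choose w hw hw' using fun c => hX.exists_lift (e c) (e c).2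
  have hind : LinearIndependent k fun c => ((e c : riemannRochSpace (d.redDiv G - Xb)) : Fb) :=
    e.linearIndependent.map' (Submodule.subtype _) (Submodule.ker_subtype _)
  have hspan : Submodule.span k (Set.range fun c =>
      ((e c : riemannRochSpace (d.redDiv G - Xb)) : Fb)) = riemannRochSpace (d.redDiv G - Xb) := by
    rw [show (fun c => ((e c : riemannRochSpace (d.redDiv G - Xb)) : Fb))
        = (riemannRochSpace (d.redDiv G - Xb)).subtype ∘ e from rfl, Set.range_comp,
      Submodule.span_image, e.span_eq, Submodule.map_top, Submodule.range_subtype]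
  refine ⟨w, _, hw, fun c i => (hw' c i).2, hind, hspan, fun i => ?_⟩
  have hK := linearIndependent_of_redsTo (fun c => (hw' c i).2) hind
  refine Submodule.eq_of_le_of_finrank_le
    (Submodule.span_le.mpr (Set.range_subset_iff.mpr fun c => (hw' c i).1)) ?_
  refine le_trans ?_ ((finrank_span_eq_card hK).trans (Fintype.card_fin _)).ge
  have h := ell_le_ell_redDiv (d := d) (G - X i)
  rw [map_sub, hX.red_eq i] at h
  exact h

include d in
/-- The lifting lemma. -/
theorem exists_lift_family (hR : IsCongr π R)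
    (hG : 2 * (genusFF K F : ℤ) - 1 ≤ Divisor.degree G)
    {α : Type} [Fintype α] (S T : α → Divisor K F) (hT : ∀ a, S a + G = T a)
    (g : α → (I → F)) (gb : α → Fb) (hg : ∀ a, g a ∈ d.RFam R (S a))
    (hgb : ∀ a i, d.RedsTo (g a i) (gb a))
    {γ : α → Type} [∀ a, Fintype (γ a)] (w : ∀ a, γ a → (I → F)) (wb : ∀ a, γ a → Fb)
    (hw : ∀ a c, w a c ∈ d.RFam R (T a)) (hwb : ∀ a c i, d.RedsTo (w a c i) (wb a c))
    (hind : ∀ a, LinearIndependent k (wb a))
    (sub : I → Submodule K F) (hsub : ∀ i, sub i ≤ riemannRochSpace G)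
    (n : ℕ) (hn : ∀ i, n ≤ Module.finrank K (sub i))
    (hmem : ∀ i, ∀ h ∈ sub i, ∀ a, g a i * h ∈ Submodule.span K (Set.range fun c => w a c i))
    (Sb : Submodule k Fb) [Module.Finite k Sb] (hSb : Module.finrank k Sb ≤ n)
    (hcond : ∀ hb ∈ riemannRochSpace (d.redDiv G),
      (∀ a, gb a * hb ∈ Submodule.span k (Set.range (wb a))) → hb ∈ Sb)
    {hb : Fb} (hhb : hb ∈ riemannRochSpace (d.redDiv G))
    (hhb' : ∀ a, gb a * hb ∈ Submodule.span k (Set.range (wb a))) :
    ∃ h ∈ d.RFam R G, ∀ i, h i ∈ sub i ∧ d.RedsTo (h i) hb := by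
  classical
  obtain ⟨β, βb, hβL, hβ, hβind, hβspan⟩ := d.exists_intBasis G
  choose τ τb hτL hτ hτind hτspan using fun a => d.exists_intBasis (T a)
  -- coordinates
  have hμ : ∀ a l, ∃ r : Fin (ell (T a)) → (I → A), (∀ t, r t ∈ R) ∧
      ∀ i, g a i * β l = ∑ t, ((r t i : A) : K) • τ a t := fun a l => by
    have hm := mul_mem_RFam (hg a) (const_mem_RFam (d := d) (R := R) (hβL l) (hβ l).mem)
    rw [hT a] at hm
    exact RFam.exists_coords (hτ a) (hτind a) (hτspan a).ge hm
  choose μ hμR hμ using hμ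
  let W : α → (Σ a, γ a) → (I → F) := fun a x => if x.1 = a then w x.1 x.2 else 0
  have hν : ∀ a x, ∃ r : Fin (ell (T a)) → (I → A), (∀ t, r t ∈ R) ∧
      ∀ i, W a x i = ∑ t, ((r t i : A) : K) • τ a t := fun a x => by
    refine RFam.exists_coords (d := d) (G := T a) (hτ a) (hτind a) (hτspan a).ge ?_
    simp only [W]
    split
    · next h => subst h; exact hw _ _
    · exact zero_mem _
  choose ν hνR hν using hν
  let Wb : α → (Σ a, γ a) → Fb := fun a x => if x.1 = a then wb x.1 x.2 else 0
  have hWb : ∀ a x i, d.RedsTo (W a x i) (Wb a x) := fun a x i => by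
    simp only [W, Wb]
    split
    · exact hwb _ _ _
    · exact redsTo_zero
  let M : Matrix (Σ a, Fin (ell (T a))) (Fin (ell G) ⊕ Σ a, γ a) (I → A) := fun p q =>
    Sum.elim (fun l => μ p.1 l p.2) (fun x => -ν p.1 x p.2) q
  have hM : ∀ p q, M p q ∈ R := by
    rintro p (l | x)
    · exact hμR _ _ _
    · exact neg_mem (hνR _ _ _)
  rcases isEmpty_or_nonempty I with hI | ⟨⟨i₀⟩⟩
  · exact ⟨0, zero_mem _, fun i => isEmptyElim i⟩
  let Mb : Matrix (Σ a, Fin (ell (T a))) (Fin (ell G) ⊕ Σ a, γ a) k := fun p q => π (M p q i₀)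
  have hsys : ∀ i (v : (Fin (ell G) ⊕ Σ a, γ a) → K) (a : α),
      g a i * (∑ l, v (.inl l) • β l) - ∑ x, v (.inr x) • W a x i =
        ∑ t, Matrix.mulVec (Matrix.of fun p q => ((M p q i : A) : K)) v ⟨a, t⟩ • τ a t :=
    fun i v a => system_eval β τ (fun a => g a i) (fun a x => W a x i) _
      (fun a l => hμ a l i)
      (fun a x => by simp [M, hν a x i, neg_smul]) v a
  have hsysb : ∀ (v : (Fin (ell G) ⊕ Σ a, γ a) → k) (a : α),
      gb a * (∑ l, v (.inl l) • βb l) - ∑ x, v (.inr x) • Wb a x =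
        ∑ t, Matrix.mulVec (Matrix.of Mb) v ⟨a, t⟩ • τb a t :=
    fun v a => system_eval βb τb gb Wb Mb
      (fun a l => ((hgb a i₀).mul (hβ l)).unique
        (by rw [hμ a l i₀]; exact redsTo_sum_smul (hτ a) fun t => μ a l t i₀))
      (fun a x => (hWb a x i₀).unique (by
        rw [hν a x i₀]
        simpa [Mb, M, neg_smul] using redsTo_sum_smul (hτ a) fun t => ν a x t i₀)) v a
  have hWsum : ∀ (v : (Fin (ell G) ⊕ Σ a, γ a) → k) (a : α),
      ∑ x, v (.inr x) • Wb a x = ∑ c, v (.inr ⟨a, c⟩) • wb a c := fun v a => by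
    rw [Fintype.sum_sigma, Finset.sum_eq_single a (fun b _ hb => by simp [Wb, hb])
      (fun h => absurd (Finset.mem_univ a) h)]
    simp [Wb]
  let π₁ : ((Fin (ell G) ⊕ Σ a, γ a) → K) →ₗ[K] F :=
    (Fintype.linearCombination K β).comp (LinearMap.funLeft K K Sum.inl)
  let π₁b : ((Fin (ell G) ⊕ Σ a, γ a) → k) →ₗ[k] Fb :=
    (Fintype.linearCombination k βb).comp (LinearMap.funLeft k k Sum.inl)
  have hπ₁b : ∀ v, π₁b v = ∑ l, v (.inl l) • βb l := fun v => by
    simp [π₁b, Fintype.linearCombination_apply, LinearMap.funLeft]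
  let Mi : I → Matrix (Σ a, Fin (ell (T a))) (Fin (ell G) ⊕ Σ a, γ a) K :=
    fun i p q => ((M p q i : A) : K)
  have himage : ∀ i, sub i ≤ (LinearMap.ker (Matrix.mulVecLin (Mi i))).map π₁ := by
    intro i h hh
    obtain ⟨c, hc⟩ := Submodule.mem_span_range_iff_exists_fun K |>.mp
      (hβspan.ge (hsub i hh))
    choose y hy using fun a => Submodule.mem_span_range_iff_exists_fun K |>.mp (hmem i h hh a)
    refine ⟨Sum.elim c fun x => y x.1 x.2, ?_, ?_⟩
    · rw [SetLike.mem_coe, LinearMap.mem_ker, Matrix.mulVecLin_apply]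
      ext ⟨a, t⟩
      have he := hsys i (Sum.elim c fun x => y x.1 x.2) a
      simp only [Sum.elim_inl, Sum.elim_inr, hc] at he
      rw [Fintype.sum_sigma, Finset.sum_eq_single a (fun b _ hb => by simp [W, hb])
        (fun h => absurd (Finset.mem_univ a) h)] at he
      simp only [W, if_true, hy a, sub_self] at he
      exact Fintype.linearIndependent_iff.mp
        (linearIndependent_of_redsTo (hτ a) (hτind a)) _ he.symm t
    · simp [π₁, Fintype.linearCombination_apply, LinearMap.funLeft, hc]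
  have hd : ∀ i, n ≤ Module.finrank K (LinearMap.ker (Matrix.mulVecLin (Mi i))) := fun i =>
    (hn i).trans ((Submodule.finrank_mono (himage i)).trans (Submodule.finrank_map_le _ _))
  have hker_b : ∀ v, Matrix.mulVec Mb v = 0 →
      ∀ a, gb a * π₁b v = ∑ c, v (.inr ⟨a, c⟩) • wb a c := fun v hv a => by
    have he := hsysb v a
    rw [← hWsum v a, hπ₁b, ← sub_eq_zero, he]
    simp [show Matrix.mulVec (Matrix.of Mb) v = 0 from hv]
  have hd' : Module.finrank k (LinearMap.ker Mb.mulVecLin) ≤ n := by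
    refine le_trans ?_ hSb
    have hmap : ∀ v ∈ LinearMap.ker Mb.mulVecLin, π₁b v ∈ Sb := fun v hv => by
      rw [LinearMap.mem_ker, Matrix.mulVecLin_apply] at hv
      refine hcond _ ?_ fun a => ?_
      · rw [hπ₁b]
        exact Submodule.sum_mem _ fun l _ => Submodule.smul_mem _ _ ((hβ l).mem_L (hβL l))
      · rw [hker_b v hv a]
        exact Submodule.sum_mem _ fun c _ =>
          Submodule.smul_mem _ _ (Submodule.subset_span ⟨c, rfl⟩)
    refine LinearMap.finrank_le_finrank_of_injective (f := π₁b.restrict hmap) ?_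
    rw [← LinearMap.ker_eq_bot, LinearMap.ker_eq_bot']
    rintro ⟨v, hv⟩ hv0
    have h0 : π₁b v = 0 := congrArg Subtype.val hv0
    rw [LinearMap.mem_ker, Matrix.mulVecLin_apply] at hv
    apply Subtype.ext
    funext q
    rcases q with l | ⟨a, c⟩
    · exact Fintype.linearIndependent_iff.mp hβind (fun l => v (.inl l)) (by rw [← hπ₁b, h0]) l
    · have he := hker_b v hv a
      rw [h0, mul_zero] at he
      exact Fintype.linearIndependent_iff.mp (hind a) (fun c => v (.inr ⟨a, c⟩)) he.symm c
  obtain ⟨hle, hlift⟩ := exists_lift_kernel d.isUnit_iff_pi_ne_zero A.subtype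
    Subtype.val_injective d.residue_surjective hR M hM Mb
    (fun i p q => hR _ (hM p q) i i₀) n hd hd'
  -- the vector to lift
  obtain ⟨c, hc⟩ : ∃ c : Fin (ell G) → k, ∑ l, c l • βb l = hb := by
    rw [← Submodule.mem_span_range_iff_exists_fun]
    have hle' : Submodule.span k (Set.range βb) ≤ riemannRochSpace (d.redDiv G) :=
      Submodule.span_le.mpr (Set.range_subset_iff.mpr fun l => (hβ l).mem_L (hβL l))
    rw [Submodule.eq_of_le_of_finrank_le hle' ?_]
    · exact hhb
    · rw [finrank_span_eq_card hβind, Fintype.card_fin, ← ell_redDiv_of_degree_ge (d := d) hG]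
      rfl
  choose y hy using fun a => Submodule.mem_span_range_iff_exists_fun k |>.mp (hhb' a)
  let vb : (Fin (ell G) ⊕ Σ a, γ a) → k := Sum.elim c fun x => y x.1 x.2
  have hvb : Matrix.mulVec Mb vb = 0 := by
    ext ⟨a, t⟩
    have he := hsysb vb a
    rw [hWsum] at he
    simp only [vb, Sum.elim_inl, Sum.elim_inr, hc, hy a, sub_self] at he
    exact Fintype.linearIndependent_iff.mp (hτind a) _ he.symm t
  obtain ⟨v, hvR, hvred, hv0⟩ := hlift vb hvb
  refine ⟨fun i => ∑ l, ((v (.inl l) i : A) : K) • β l,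
    RFam.sum_smul_mem (fun l => hvR _) (fun l => const_mem_RFam (hβL l) (hβ l).mem),
    fun i => ⟨?_, ?_⟩⟩
  · have heq := Submodule.eq_of_le_of_finrank_le (himage i)
      ((Submodule.finrank_map_le _ _).trans ((hle i).trans (hn i)))
    rw [heq]
    refine ⟨fun q => ((v q i : A) : K), ?_, ?_⟩
    · rw [SetLike.mem_coe, LinearMap.mem_ker, Matrix.mulVecLin_apply]
      ext p
      have h := congrArg A.subtype (hv0 i p)
      simp only [map_sum, map_mul, map_zero] at h
      exact h
    · simp [π₁, Fintype.linearCombination_apply, LinearMap.funLeft]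
  · have h := redsTo_sum_smul hβ fun l => v (.inl l) i
    simp only [hvred, vb, Sum.elim_inl, hc] at h
    exact h

end GoodReductionDatum

end FermatAgent.JacCharts
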