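import Fermat.Agent.JacCharts.Rational
import Fermat.Agent.JacCharts.Extend

/-!
# The local model of a finite subgroup of `J₀(N)` at a place of good reduction

The coordinates in inertia-rational charts, one for each residual class, generate an algebra of
functions which is a `LocalModel`; by descent it gives a model over `ℤ_(ℓ)`.
-/

set_option autoImplicit false

noncomputable section

open AlgebraicCurve ModularCurve FermatAgent.Curve.RR

namespace FermatAgent.JacCharts

local notation "Qb" => AlgebraicClosure ℚ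
local notation "GQ" => AlgebraicClosure ℚ ≃ₐ[ℚ] AlgebraicClosure ℚ

namespace GoodReductionDatum

variable {N : ℕ} {A : ValuationSubring (AlgebraicClosure ℚ)} {k : Type*} [Field k] {π : A →+* k}
variable {d : GoodReductionDatum A π (modularFunctionFieldBar N) (modularFunctionFieldFullC k N)}
variable [RRSetting (AlgebraicClosure ℚ) (modularFunctionFieldBar N)]
  [RRSetting k (modularFunctionFieldFullC k N)]
variable {B : Divisor (AlgebraicClosure ℚ) (modularFunctionFieldBar N)}

/-- A chart all whose data are fixed by inertia. -/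
def Chart.IsInertiaFixed (C : d.Chart B) : Prop :=
  ∀ σ ∈ A.inertiaSubgroupIn ℚ, galAut N σ • C.D = C.D ∧
    (∀ c, galAut N σ • C.w0 c = C.w0 c) ∧ ∀ l, galAut N σ • C.u l = C.u l

theorem Chart.coords_galAut_inertia (hd : d.IsLaurent) (C : d.Chart B) (hC : C.IsInertiaFixed)
    (hB : 4 * (genusFF Qb (modularFunctionFieldBar N) : ℤ) + 2 ≤ Divisor.degree B)
    (hBfix : ∀ σ : GQ, galAut N σ • B = B)
    {σ : GQ} (hσ : σ ∈ A.inertiaSubgroupIn ℚ) {y : JZero N} (hy : C.Fits y)
    (c : Fin (ell (d.redDiv B - C.Eb))) (l : Fin C.s) :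
    (C.coords (galAut N σ • y) c l : Qb) = σ (C.coords y c l) :=
  Chart.coords_smul C C hB (hd.compatible_inertia hσ) (hBfix σ) (hC σ hσ).1.symm
    (one_smul _ _).symm (Equiv.refl _) (Equiv.refl _) (fun c => ((hC σ hσ).2.1 c).symm)
    (fun l => ((hC σ hσ).2.2 l).symm) hy c l

variable [Infinite k]

theorem exists_fixed_chart (hd : d.IsLaurent)
    (hlift : ∀ c : k, ∃ z : A, π z = c ∧ ∀ σ ∈ A.inertiaSubgroupIn ℚ, σ (z : Qb) = z)
    (hB : 4 * (genusFF Qb (modularFunctionFieldBar N) : ℤ) + 2 ≤ Divisor.degree B)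
    (hBfix : ∀ σ : GQ, galAut N σ • B = B) (y : JZero N) :
    ∃ C : d.Chart B, C.Fits y ∧ C.IsInertiaFixed := by
  obtain ⟨C, hC, hD, hw, hu⟩ := exists_fitting_chart (d := d) hB
    (fun f => ∀ σ ∈ A.inertiaSubgroupIn ℚ, galAut N σ • f = f)
    (fun fb hfb => hd.exists_fixed_lift hlift hB (fun σ _ => hBfix σ) hfb)
    (fun D => ∀ σ ∈ A.inertiaSubgroupIn ℚ, galAut N σ • D = D)
    (fun Db => hd.exists_fixed_divisor hlift hB (fun σ _ => hBfix σ) Db) y
  exact ⟨C, hC, fun σ hσ => ⟨hD σ hσ, fun c => hw c σ hσ, fun l => hu l σ hσ⟩⟩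

section Local

variable {T : Type} [AddCommGroup T] (ι : T →+ JZero N)

/-- Two elements of `T` have the same reduction. -/
def SameRed (d : GoodReductionDatum A π (modularFunctionFieldBar N)
    (modularFunctionFieldFullC k N)) (x₀ x : T) : Prop :=
  d.redPic0 (ι x) = d.redPic0 (ι x₀)

/-- The coordinate functions of a chart on a residual class. -/
def classCoords (Ch : T → d.Chart B) (x₀ : T) : Set ({x // d.SameRed ι x₀ x} → A) :=
  Set.range fun (p : Fin (ell (d.redDiv B - (Ch x₀).Eb)) × Fin (Ch x₀).s)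
    (x : {x // d.SameRed ι x₀ x}) => (Ch x₀).coords (ι x.1) p.1 p.2

/-- The generators of the local model. -/
def modelGens (Ch : T → d.Chart B) : Set (T → Qb) :=
  Set.range (fun x₀ => extendFun (d.SameRed ι x₀) (1 : {x // d.SameRed ι x₀ x} → A)) ∪
    {f | ∃ x₀, ∃ h ∈ classCoords ι Ch x₀, f = extendFun (d.SameRed ι x₀) h}

/-- The algebra of the local model. -/
def modelAlg (Ch : T → d.Chart B) : Subalgebra A (T → Qb) :=
  Algebra.adjoin A (modelGens ι Ch)

/-- The algebra generated by the two pullbacks of the model. -/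
abbrev pairAlg (Ch : T → d.Chart B) : Subalgebra A (T × T → Qb) :=
  Algebra.adjoin A (pullFun (R := A) (Prod.fst : T × T → T) '' (modelAlg ι Ch : Set (T → Qb)) ∪
    pullFun (R := A) (Prod.snd : T × T → T) '' (modelAlg ι Ch : Set (T → Qb)))

variable {ι}
variable (Ch : T → d.Chart B)

omit [Infinite k] in
theorem indicator_mem (x₀ : T) :
    extendFun (d.SameRed ι x₀) (1 : {x // d.SameRed ι x₀ x} → A) ∈ modelAlg ι Ch :=
  Algebra.subset_adjoin (Or.inl ⟨x₀, rfl⟩)

omit [Infinite k] in
theorem extendFun_mem_modelAlg {x₀ : T} {f : {x // d.SameRed ι x₀ x} → A}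
    (hf : f ∈ Algebra.adjoin A (classCoords ι Ch x₀)) :
    extendFun (d.SameRed ι x₀) f ∈ modelAlg ι Ch :=
  extendFun_mem (indicator_mem Ch x₀)
    (fun h hh => Algebra.subset_adjoin (Or.inr ⟨x₀, h, hh, rfl⟩)) hf

omit [Infinite k] in
theorem val_mem_modelAlg {f : T → Qb} (hf : f ∈ modelAlg ι Ch) (x : T) : f x ∈ A := by
  induction hf using Algebra.adjoin_induction with
  | mem g hg =>
    have : ∀ (x₀ : T) (h : {x // d.SameRed ι x₀ x} → A), extendFun (d.SameRed ι x₀) h x ∈ A :=
      fun x₀ h => by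
        by_cases hx : d.SameRed ι x₀ x
        · rw [extendFun_of_pos h hx]
          exact (h ⟨x, hx⟩).2
        · rw [extendFun_of_neg h hx]
          exact zero_mem _
    rcases hg with ⟨x₀, rfl⟩ | ⟨x₀, h, -, rfl⟩ <;> exact this _ _
  | algebraMap r => exact r.2
  | add a b _ _ ha hb => exact add_mem ha hb
  | mul a b _ _ ha hb => exact mul_mem ha hb

variable (hB : 4 * (genusFF (AlgebraicClosure ℚ) (modularFunctionFieldBar N) : ℤ) + 2 ≤
  Divisor.degree B)
variable (hfit : ∀ x, (Ch x).Fits (ι x))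

include hfit in
omit [Infinite k] in
theorem fits_of_sameRed {x₀ x : T} (h : d.SameRed ι x₀ x) : (Ch x₀).Fits (ι x) :=
  ((Ch x₀).fits_congr h).mpr (hfit x₀)

include hB hfit in
omit [Infinite k] in
theorem isCongr_classCoords (x₀ : T) :
    IsCongr π (Algebra.adjoin A (classCoords ι Ch x₀)) :=
  isCongr_adjoin (by
    rintro _ ⟨p, rfl⟩ i j
    simp [(Ch x₀).pi_coords hB (fits_of_sameRed Ch hfit i.2),
      (Ch x₀).pi_coords hB (fits_of_sameRed Ch hfit j.2)])

include hB hfit in
omit [Infinite k] in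
theorem modelAlg_separates (hinj : Function.Injective ι) (x y : T)
    (h : ∀ f ∈ modelAlg ι Ch, f x = f y) : x = y := by
  have hy : d.SameRed ι x y := by
    by_contra hy
    have := h _ (indicator_mem Ch x)
    rw [extendFun_of_pos _ (show d.SameRed ι x x from rfl), extendFun_of_neg _ hy] at this
    simp at this
  refine hinj ((Ch x).eq_of_coords hB (hfit x) (fits_of_sameRed Ch hfit hy) ?_)
  funext c l
  have := h _ (extendFun_mem_modelAlg Ch (Algebra.subset_adjoin ⟨(c, l), rfl⟩))
  rw [extendFun_of_pos _ (show d.SameRed ι x x from rfl), extendFun_of_pos _ hy] at this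
  exact Subtype.ext this

variable [DistribMulAction (AlgebraicClosure ℚ ≃ₐ[ℚ] AlgebraicClosure ℚ) T]
variable (hι : ∀ (σ : AlgebraicClosure ℚ ≃ₐ[ℚ] AlgebraicClosure ℚ) (x : T),
  ι (σ • x) = galAut N σ • ι x)

omit [Infinite k] in
include hι in
theorem sameRed_smul {σ : GQ} {gb : SemilinearAut k (modularFunctionFieldFullC k N)}
    (hg : d.Compatible (galAut N σ) gb) (x₀ x : T) :
    d.SameRed ι (σ • x₀) (σ • x) ↔ d.SameRed ι x₀ x := by
  simp only [SameRed, hι, hg.redPic0_smul]
  exact (MulAction.injective gb).eq_iff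

omit [Infinite k] in
include hι in
theorem twist_indicator {σ : GQ} {gb : SemilinearAut k (modularFunctionFieldFullC k N)}
    (hg : d.Compatible (galAut N σ) gb) (x₀ : T) :
    twist σ (extendFun (d.SameRed ι x₀) (1 : {x // d.SameRed ι x₀ x} → A)) =
      extendFun (d.SameRed ι (σ • x₀)) (1 : {x // d.SameRed ι (σ • x₀) x} → A) := by
  refine extendFun_eq (fun x h => ?_) fun x h => ?_
  · have h' : d.SameRed ι x₀ (σ⁻¹ • x) := by
      rw [← sameRed_smul hι hg, smul_inv_smul]; exact h
    rw [twist_apply, extendFun_of_pos _ h']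
    simp
  · have h' : ¬ d.SameRed ι x₀ (σ⁻¹ • x) := fun h' => h (by
      rw [← sameRed_smul hι hg, smul_inv_smul] at h'; exact h')
    rw [twist_apply, extendFun_of_neg _ h', map_zero]

variable (hd : d.IsLaurent) (hBfix : ∀ σ : AlgebraicClosure ℚ ≃ₐ[ℚ] AlgebraicClosure ℚ,
  galAut N σ • B = B)
variable (hfixed : ∀ x, (Ch x).IsInertiaFixed)

omit [Infinite k] in
include hι hd hB hBfix hfit hfixed in
theorem twist_inertia {σ : GQ} (hσ : σ ∈ A.inertiaSubgroupIn ℚ) {f : T → Qb}
    (hf : f ∈ modelGens ι Ch) : twist σ f = f := by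
  have hg := hd.compatible_inertia hσ
  have hsame : ∀ x₀ x : T, d.SameRed ι x₀ (σ⁻¹ • x) ↔ d.SameRed ι x₀ x := fun x₀ x => by
    conv_rhs => rw [← smul_inv_smul σ x]
    simp only [SameRed]
    rw [hι σ, hg.redPic0_smul, one_smul]
  rcases hf with ⟨x₀, rfl⟩ | ⟨x₀, h, ⟨p, rfl⟩, rfl⟩
  · refine extendFun_eq (fun x hx => ?_) fun x hx => ?_
    · rw [twist_apply]
      dsimp only
      rw [extendFun_of_pos _ ((hsame x₀ x).mpr hx)]
      simp
    · rw [twist_apply]
      dsimp only
      rw [extendFun_of_neg _ (fun h => hx ((hsame x₀ x).mp h)), map_zero]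
  · refine extendFun_eq (fun x hx => ?_) fun x hx => ?_
    · have h' := (hsame x₀ x).mpr hx
      rw [twist_apply, extendFun_of_pos _ h']
      have h2 := Chart.coords_galAut_inertia hd (Ch x₀) (hfixed x₀) hB hBfix hσ
        (fits_of_sameRed Ch hfit h') p.1 p.2
      rw [← hι, smul_inv_smul] at h2
      exact h2.symm
    · rw [twist_apply, extendFun_of_neg _ (fun h => hx ((hsame x₀ x).mp h)), map_zero]

variable (hτ : ∀ g : A.decompositionSubgroup ℚ, ∃ τ : k ≃+* k, ∀ a : A, τ (π a) = π (g • a))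
variable [Finite T]

include hι hd hB hBfix hfit hτ in
theorem twist_mem_modelAlg {σ : GQ} (hσ : σ ∈ A.decompositionSubgroup ℚ) {f : T → Qb}
    (hf : f ∈ modelAlg ι Ch) : twist σ f ∈ modelAlg ι Ch := by
  obtain ⟨τ, hτ'⟩ := hτ ⟨σ, hσ⟩
  have hg : d.Compatible (galAut N σ) (ES.coeffSemilinear N τ) :=
    hd.compatible_galAut ⟨σ, hσ⟩ τ hτ'
  induction hf using Algebra.adjoin_induction with
  | mem g hgen =>
    rcases hgen with ⟨x₀, rfl⟩ | ⟨x₀, h, ⟨p, rfl⟩, rfl⟩
    · rw [twist_indicator hι hg x₀]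
      exact indicator_mem Ch _
    · obtain ⟨C', ec, el, hD', hE', hw', hu'⟩ := exists_smul_chart hB hg (hBfix σ) (Ch x₀)
      set x₁ := σ • x₀ with hx₁
      have : Fintype {x // d.SameRed ι x₁ x} := Fintype.ofFinite _
      have hback : ∀ x, d.SameRed ι x₁ x → d.SameRed ι x₀ (σ⁻¹ • x) := fun x hx => by
        rw [← sameRed_smul hι hg, smul_inv_smul]; exact hx
      have hfit' : ∀ i : {x // d.SameRed ι x₁ x}, C'.Fits (ι i.1) := fun i => by
        have := (Chart.fits_smul (Ch x₀) C' hg hD' hE' (fits_of_sameRed Ch hfit (hback _ i.2))).1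
        rwa [← hι, smul_inv_smul] at this
      have hmem := coords_mem_of_rat hB (isCongr_classCoords Ch hB hfit x₁) C'
        (x := fun i : {x // d.SameRed ι x₁ x} => ι i.1)
        (M := fun i => (Ch x₁).divisor (ι i.1)) (D₀ := (Ch x₁).D)
        ((Ch x₁).rat_divisor hB (fun i => fits_of_sameRed Ch hfit i.2)
          fun c l => Algebra.subset_adjoin ⟨(c, l), rfl⟩)
        (Ch x₁).Eb_nonneg (Ch x₁).degree_Eb
        (fun i => ((Ch x₁).divisor_spec (fits_of_sameRed Ch hfit i.2)).2.2) hfit'
        (ec.symm p.1) (el.symm p.2)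
      convert extendFun_mem_modelAlg Ch hmem using 1
      refine extendFun_eq (fun x hx => ?_) fun x hx => ?_
      · rw [twist_apply, extendFun_of_pos _ (hback x hx)]
        have h2 := Chart.coords_smul (Ch x₀) C' hB hg (hBfix σ) hD' hE' ec el hw' hu'
          (fits_of_sameRed Ch hfit (hback x hx)) (ec.symm p.1) (el.symm p.2)
        rw [← hι, smul_inv_smul, Equiv.apply_symm_apply, Equiv.apply_symm_apply] at h2
        exact h2.symm
      · rw [twist_apply, extendFun_of_neg _ (fun h => hx (by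
          rw [← sameRed_smul hι hg, smul_inv_smul] at h; exact h)), map_zero]
  | algebraMap r =>
    exact (modelAlg ι Ch).algebraMap_mem ⟨σ (r : Qb), galois_mem_of_decomposition hσ r.2⟩
  | add a b _ _ ha hb =>
    rw [show twist σ (a + b) = twist σ a + twist σ b from funext fun x => by
      simp [twist_apply]]
    exact add_mem ha hb
  | mul a b _ _ ha hb =>
    rw [show twist σ (a * b) = twist σ a * twist σ b from funext fun x => by
      simp [twist_apply]]
    exact mul_mem ha hb

omit [DistribMulAction (AlgebraicClosure ℚ ≃ₐ[ℚ] AlgebraicClosure ℚ) T] in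
include hB hfit in
theorem addMap_mem_pairAlg {f : T → Qb} (hf : f ∈ modelAlg ι Ch) :
    (fun z : T × T => f (z.1 + z.2)) ∈ pairAlg ι Ch := by
  have hle : modelAlg ι Ch ≤
      (pairAlg ι Ch).comap (pullFun (R := A) fun z : T × T => z.1 + z.2) := by
    refine Algebra.adjoin_le fun g hg => ?_
    show (fun z : T × T => g (z.1 + z.2)) ∈ pairAlg ι Ch
    have : Fintype T := Fintype.ofFinite T
    have hS : ∀ {a : T → Qb}, a ∈ modelAlg ι Ch →
        pullFun (R := A) (Prod.fst : T × T → T) a ∈ pairAlg ι Ch ∧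
          pullFun (R := A) (Prod.snd : T × T → T) a ∈ pairAlg ι Ch := fun {a} ha =>
      ⟨Algebra.subset_adjoin (Or.inl ⟨a, ha, rfl⟩), Algebra.subset_adjoin (Or.inr ⟨a, ha, rfl⟩)⟩
    let P : T × T → T × T → Prop := fun ab z => d.SameRed ι ab.1 z.1 ∧ d.SameRed ι ab.2 z.2
    have he : ∀ ab, extendFun (P ab) (1 : {z // P ab z} → A) ∈ pairAlg ι Ch := fun ab => by
      rw [← extendFun_eq (g := pullFun (R := A) Prod.fst
          (extendFun (d.SameRed ι ab.1) (1 : {x // d.SameRed ι ab.1 x} → A)) *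
        pullFun (R := A) Prod.snd
          (extendFun (d.SameRed ι ab.2) (1 : {x // d.SameRed ι ab.2 x} → A)))
        (fun z hz => by
          rw [Pi.mul_apply, pullFun_apply, pullFun_apply, extendFun_of_pos _ hz.1,
            extendFun_of_pos _ hz.2]
          simp)
        (fun z hz => by
          rw [Pi.mul_apply, pullFun_apply, pullFun_apply]
          by_cases h1 : d.SameRed ι ab.1 z.1
          · rw [extendFun_of_neg _ (fun h2 => hz ⟨h1, h2⟩), mul_zero]
          · rw [extendFun_of_neg _ h1, zero_mul])]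
      exact mul_mem (hS (indicator_mem Ch _)).1 (hS (indicator_mem Ch _)).2
    refine mem_of_cover Finset.univ (fun ab => extendFun (P ab) (1 : {z // P ab z} → A))
      (fun ab _ => he ab) (fun ab _ => ?_)
      fun z => ⟨z, Finset.mem_univ z, by
        rw [extendFun_of_pos _ (show P z z from ⟨rfl, rfl⟩)]; simp⟩
    have hsum : ∀ x₀ z, P ab z → (d.SameRed ι x₀ (z.1 + z.2) ↔
        d.redPic0 (ι ab.1) + d.redPic0 (ι ab.2) = d.redPic0 (ι x₀)) := fun x₀ z hz => by
      have h1 : d.redPic0 (ι z.1) = _ := hz.1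
      have h2 : d.redPic0 (ι z.2) = _ := hz.2
      simp only [SameRed, map_add, h1, h2]
    have hzero : ∀ (x₀ : T) (h : {x // d.SameRed ι x₀ x} → A),
        ¬ d.redPic0 (ι ab.1) + d.redPic0 (ι ab.2) = d.redPic0 (ι x₀) →
        (fun z : T × T => extendFun (d.SameRed ι x₀) h (z.1 + z.2)) *
          extendFun (P ab) (1 : {z // P ab z} → A) = 0 := fun x₀ h hne => funext fun z => by
      rw [Pi.mul_apply, Pi.zero_apply]
      by_cases hz : P ab z
      · rw [extendFun_of_neg h (fun h' => hne ((hsum x₀ z hz).mp h')), zero_mul]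
      · rw [extendFun_of_neg _ hz, mul_zero]
    rcases hg with ⟨x₀, rfl⟩ | ⟨x₀, h, ⟨p, rfl⟩, rfl⟩
    · by_cases hx : d.redPic0 (ι ab.1) + d.redPic0 (ι ab.2) = d.redPic0 (ι x₀)
      · rw [show (fun z : T × T => extendFun (d.SameRed ι x₀)
            (1 : {x // d.SameRed ι x₀ x} → A) (z.1 + z.2)) *
          extendFun (P ab) (1 : {z // P ab z} → A) =
            extendFun (P ab) (1 : {z // P ab z} → A) from extendFun_eq
              (fun z hz => by
                rw [Pi.mul_apply, extendFun_of_pos _ ((hsum x₀ z hz).mpr hx),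
                  extendFun_of_pos _ hz]
                simp)
              (fun z hz => by rw [Pi.mul_apply, extendFun_of_neg _ hz, mul_zero])]
        exact he ab
      · rw [hzero x₀ _ hx]
        exact zero_mem _
    · by_cases hx : d.redPic0 (ι ab.1) + d.redPic0 (ι ab.2) = d.redPic0 (ι x₀)
      · have : Fintype {z // P ab z} := Fintype.ofFinite _
        let C₁ := Ch ab.1
        let C₂ := Ch ab.2
        let s : Set ({z // P ab z} → A) :=
          Set.range (fun (q : Fin (ell (d.redDiv B - C₁.Eb)) × Fin C₁.s) (z : {z // P ab z}) =>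
              C₁.coords (ι z.1.1) q.1 q.2) ∪
            Set.range (fun (q : Fin (ell (d.redDiv B - C₂.Eb)) × Fin C₂.s) (z : {z // P ab z}) =>
              C₂.coords (ι z.1.2) q.1 q.2)
        have hf₁ : ∀ z : {z // P ab z}, C₁.Fits (ι z.1.1) := fun z =>
          fits_of_sameRed Ch hfit z.2.1
        have hf₂ : ∀ z : {z // P ab z}, C₂.Fits (ι z.1.2) := fun z =>
          fits_of_sameRed Ch hfit z.2.2
        have hR : IsCongr π (Algebra.adjoin A s) := isCongr_adjoin (by
          rintro _ (⟨q, rfl⟩ | ⟨q, rfl⟩) i j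
          · simp [C₁.pi_coords hB (hf₁ i), C₁.pi_coords hB (hf₁ j)]
          · simp [C₂.pi_coords hB (hf₂ i), C₂.pi_coords hB (hf₂ j)])
        have hmem := coords_add_mem hB hR C₁ C₂ (Ch x₀)
          (x := fun z : {z // P ab z} => ι z.1.1) (y := fun z => ι z.1.2) hf₁ hf₂
          (fun z => by
            rw [← map_add]
            exact fits_of_sameRed Ch hfit ((hsum x₀ z.1 z.2).mpr hx))
          (fun c l => Algebra.subset_adjoin (Or.inl ⟨(c, l), rfl⟩))
          (fun c l => Algebra.subset_adjoin (Or.inr ⟨(c, l), rfl⟩)) p.1 p.2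
        have hs : ∀ h ∈ s, extendFun (P ab) h ∈ pairAlg ι Ch := by
          rintro _ (⟨q, rfl⟩ | ⟨q, rfl⟩)
          · rw [← extendFun_eq (g := pullFun (R := A) Prod.fst (extendFun (d.SameRed ι ab.1)
                (fun x : {x // d.SameRed ι ab.1 x} => C₁.coords (ι x.1) q.1 q.2)) *
              extendFun (P ab) (1 : {z // P ab z} → A))
              (fun z hz => by
                rw [Pi.mul_apply, pullFun_apply, extendFun_of_pos _ hz.1, extendFun_of_pos _ hz]
                simp)
              (fun z hz => by rw [Pi.mul_apply, extendFun_of_neg _ hz, mul_zero])]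
            exact mul_mem (hS (extendFun_mem_modelAlg Ch
              (Algebra.subset_adjoin ⟨q, rfl⟩))).1 (he ab)
          · rw [← extendFun_eq (g := pullFun (R := A) Prod.snd (extendFun (d.SameRed ι ab.2)
                (fun x : {x // d.SameRed ι ab.2 x} => C₂.coords (ι x.1) q.1 q.2)) *
              extendFun (P ab) (1 : {z // P ab z} → A))
              (fun z hz => by
                rw [Pi.mul_apply, pullFun_apply, extendFun_of_pos _ hz.2, extendFun_of_pos _ hz]
                simp)
              (fun z hz => by rw [Pi.mul_apply, extendFun_of_neg _ hz, mul_zero])]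
            exact mul_mem (hS (extendFun_mem_modelAlg Ch
              (Algebra.subset_adjoin ⟨q, rfl⟩))).2 (he ab)
        convert extendFun_mem (he ab) hs hmem using 1
        refine extendFun_eq (fun z hz => ?_)
          (fun z hz => by rw [Pi.mul_apply, extendFun_of_neg _ hz, mul_zero])
        rw [Pi.mul_apply, extendFun_of_pos _ ((hsum x₀ z hz).mpr hx), extendFun_of_pos _ hz]
        simp
      · rw [hzero x₀ _ hx]
        exact zero_mem _
  exact hle hf

end Local

/-- The local model of a finite Galois stable subgroup of `J₀(N)`. -/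
theorem nonempty_localModel (hd : d.IsLaurent)
    (hlift : ∀ c : k, ∃ z : A, π z = c ∧ ∀ σ ∈ A.inertiaSubgroupIn ℚ, σ (z : Qb) = z)
    (hτ : ∀ g : A.decompositionSubgroup ℚ, ∃ τ : k ≃+* k, ∀ a : A, τ (π a) = π (g • a))
    (hB : 4 * (genusFF Qb (modularFunctionFieldBar N) : ℤ) + 2 ≤ Divisor.degree B)
    (hBfix : ∀ σ : GQ, galAut N σ • B = B)
    {T : Type} [AddCommGroup T] [Finite T] [DistribMulAction GQ T] (ι : T →+ JZero N)
    (hinj : Function.Injective ι) (hι : ∀ (σ : GQ) (x : T), ι (σ • x) = galAut N σ • ι x) :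
    Nonempty (LocalModel T A) := by
  choose Ch hfit hfixed using fun x : T => exists_fixed_chart (d := d) hd hlift hB hBfix (ι x)
  refine ⟨⟨modelAlg ι Ch, fun f hf x => val_mem_modelAlg Ch hf x,
    modelAlg_separates Ch hB hfit hinj,
    fun σ hσ f hf => twist_mem_modelAlg Ch hB hfit hι hd hBfix hτ hσ hf, ?_,
    fun f hf => addMap_mem_pairAlg Ch hB hfit hf⟩⟩
  refine Algebra.adjoin_mono fun g hg => ?_
  exact ⟨Algebra.subset_adjoin hg,
    fun σ hσ => twist_inertia Ch hB hfit hι hd hBfix hfixed hσ hg⟩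

end GoodReductionDatum

end FermatAgent.JacCharts
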