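import Fermat.Agent.JacCharts.Datum
import Mathlib

/-!
# Independence of coefficient families

A finite family of functions is independent when some square matrix of its values is invertible;
independence after a specialisation lifts. Coefficients of linear combinations in a field of
Laurent series.
-/

set_option autoImplicit false

noncomputable section

open AlgebraicCurve

namespace FermatAgent.JacCharts

/-- Independent families of functions have an invertible square of values. -/
theorem exists_index_det_ne_zero {L : Type*} [Field L] {ι : Type*} {m : Type*} [Fintype m]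
    [DecidableEq m] {v : m → ι → L} (h : LinearIndependent L v) :
    ∃ n : m → ι, (Matrix.of fun i j => v j (n i)).det ≠ 0 := by
  classical
  let r : ι → (m → L) := fun i j => v j i
  have htop : Submodule.span L (Set.range r) = ⊤ := by
    by_contra hne
    obtain ⟨f, hf0, hf⟩ := Submodule.exists_le_ker_of_lt_top _ (lt_top_iff_ne_top.mpr hne)
    apply hf0
    have hz : ∀ j, f (Pi.single j 1) = 0 := by
      refine Fintype.linearIndependent_iff.mp h _ (funext fun i => ?_)
      have := hf (Submodule.subset_span ⟨i, rfl⟩)
      rw [LinearMap.mem_ker, pi_eq_sum_univ (r i)] at this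
      simp only [map_sum, map_smul, smul_eq_mul, r] at this
      simp only [Finset.sum_apply, Pi.smul_apply, smul_eq_mul, Pi.zero_apply]
      rw [← this]
      refine Finset.sum_congr rfl fun j _ => ?_
      rw [mul_comm]
      congr 2
      ext x
      simp [Pi.single_apply, eq_comm]
    ext j
    simpa using hz j
  let b := Module.Basis.ofSpan htop.ge
  let e := b.indexEquiv (Pi.basisFun L m)
  have hb : ∀ x, b x = (x : m → L) := fun x => by simp [b]
  choose n hn using fun i => (Module.Basis.ofSpan_subset htop.ge ⟨e.symm i, rfl⟩ : _ ∈ Set.range r)
  refine ⟨n, ?_⟩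
  have hrows : LinearIndependent L (Matrix.of fun i j => v j (n i)).row := by
    have : (Matrix.of fun i j => v j (n i)).row = fun i => b (e.symm i) := funext fun i => hn i
    rw [this]
    exact b.linearIndependent.comp _ e.symm.injective
  exact isUnit_iff_ne_zero.mp
    ((Matrix.isUnit_iff_isUnit_det _).mp (Matrix.linearIndependent_rows_iff_isUnit.mp hrows))

/-- Independence after a specialisation `ψ` implies independence after any map `φ` whose
kernel is contained in that of `ψ`. -/
theorem linearIndependent_of_residual {R L L' : Type*} [CommRing R] [Field L] [Field L']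
    (φ : R →+* L) (ψ : R →+* L') (hφ : ∀ r, ψ r ≠ 0 → φ r ≠ 0) {ι : Type*} {m : Type*}
    [Fintype m] {v : m → ι → R} (h : LinearIndependent L' fun j i => ψ (v j i)) :
    LinearIndependent L fun j i => φ (v j i) := by
  classical
  obtain ⟨n, hn⟩ := exists_index_det_ne_zero h
  rw [Fintype.linearIndependent_iff]
  intro c hc
  have hdet : (Matrix.of fun i j => φ (v j (n i))).det ≠ 0 := by
    have h' : ∀ {L'' : Type _} [Field L''] (χ : R →+* L''),
        (Matrix.of fun i j => χ (v j (n i))) = χ.mapMatrix (Matrix.of fun i j => v j (n i)) :=
      fun χ => Matrix.ext fun _ _ => rfl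
    rw [h' φ, ← RingHom.map_det]
    refine hφ _ ?_
    rw [RingHom.map_det]
    exact hn
  have hz : Matrix.mulVec (Matrix.of fun i j => φ (v j (n i))) c = 0 := funext fun i => by
    have := congrFun hc (n i)
    simpa [Matrix.mulVec, dotProduct, mul_comm] using this
  exact fun j => congrFun (Matrix.eq_zero_of_mulVec_eq_zero hdet hz) j

/-- Coefficients of a scalar multiple. -/
theorem coe_coeff_smul {L : Type*} [Field L] {E : IntermediateField L (LaurentSeries L)}
    (c : L) (x : E) (n : ℤ) :
    ((c • x : E) : LaurentSeries L).coeff n = c * (x : LaurentSeries L).coeff n := by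
  rw [Algebra.smul_def]
  show ((algebraMap L (LaurentSeries L) c) * (x : LaurentSeries L)).coeff n = _
  rw [ModularCurve.algebraMap_laurentSeries_eq_single, HahnSeries.coeff_single_zero_mul]

theorem coe_coeff_sum {L : Type*} [Field L] {E : IntermediateField L (LaurentSeries L)}
    {ι : Type*} (s : Finset ι) (c : ι → L) (x : ι → E) (n : ℤ) :
    ((∑ i ∈ s, c i • x i : E) : LaurentSeries L).coeff n =
      ∑ i ∈ s, c i * (x i : LaurentSeries L).coeff n := by
  classical
  induction s using Finset.induction with
  | empty => simp
  | @insert a s ha ih =>
    rw [Finset.sum_insert ha, Finset.sum_insert ha, IntermediateField.coe_add,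
      HahnSeries.coeff_add, ih, coe_coeff_smul]

end FermatAgent.JacCharts
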