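import Fermat.Agent.JacCharts.Chart

/-!
# Existence of charts, uniqueness of the reduction of places, torsion in the kernel of reduction

The kernel of `Pic⁰ F → Pic⁰ Fb` has no torsion prime to the residue characteristic: for a
chart at `0` and the ideal `𝔞` generated by the coordinates of `x`, the addition theorem makes
`j ↦ coords (j • x)` linear modulo `𝔞²`, so `m • x = 0` gives `𝔞 = 𝔞²`.
-/

set_option autoImplicit false

noncomputable section

open AlgebraicCurve FermatAgent.Curve.RR

namespace FermatAgent.JacCharts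

section SquareZero

variable {A : Type*} [CommRing A]

/-- Families on the square `Bool × Bool` which are additive modulo `𝔞²` with increments in `𝔞`. -/
def squareAlgebra (𝔞 : Ideal A) : Subalgebra A (Bool × Bool → A) where
  carrier := {f | f (true, false) - f (false, false) ∈ 𝔞 ∧ f (false, true) - f (false, false) ∈ 𝔞 ∧
    f (true, true) - f (true, false) - f (false, true) + f (false, false) ∈ 𝔞 * 𝔞}
  add_mem' {f g} hf hg := by
    obtain ⟨h1, h2, h3⟩ := hf
    obtain ⟨g1, g2, g3⟩ := hg
    refine ⟨?_, ?_, ?_⟩ <;> simp only [Pi.add_apply]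
    · convert add_mem h1 g1 using 1; ring
    · convert add_mem h2 g2 using 1; ring
    · convert add_mem h3 g3 using 1; ring
  mul_mem' {f g} hf hg := by
    obtain ⟨h1, h2, h3⟩ := hf
    obtain ⟨g1, g2, g3⟩ := hg
    have hsq : 𝔞 * 𝔞 ≤ 𝔞 := Ideal.mul_le_left
    refine ⟨?_, ?_, ?_⟩ <;> simp only [Pi.mul_apply]
    · convert add_mem (𝔞.mul_mem_right (g (true, false)) h1)
        (𝔞.mul_mem_left (f (false, false)) g1) using 1
      ring
    · convert add_mem (𝔞.mul_mem_right (g (false, true)) h2)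
        (𝔞.mul_mem_left (f (false, false)) g2) using 1
      ring
    · have e1 : g (true, true) - g (true, false) ∈ 𝔞 := by
        convert add_mem g2 (hsq g3) using 1; ring
      have e2 : g (true, true) - g (false, true) ∈ 𝔞 := by
        convert add_mem g1 (hsq g3) using 1; ring
      convert add_mem (add_mem ((𝔞 * 𝔞).mul_mem_right (g (true, true)) h3)
        ((𝔞 * 𝔞).mul_mem_left (f (false, false)) g3))
        (add_mem (Ideal.mul_mem_mul h1 e1) (Ideal.mul_mem_mul h2 e2)) using 1
      ring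
  algebraMap_mem' a := by
    refine ⟨?_, ?_, ?_⟩ <;> simp [Pi.algebraMap_apply]

theorem isCongr_squareAlgebra {k : Type*} [Field k] {π : A →+* k} {𝔞 : Ideal A}
    (h : ∀ a ∈ 𝔞, π a = 0) : IsCongr π (squareAlgebra 𝔞) := by
  rintro f ⟨h1, h2, h3⟩
  have e1 := h _ h1
  have e2 := h _ h2
  have e3 := h _ (Ideal.mul_le_left (I := 𝔞) (J := 𝔞) h3)
  simp only [map_sub, map_add] at e1 e2 e3
  have hall : ∀ i, π (f i) = π (f (false, false)) := by
    rintro ⟨_ | _, _ | _⟩
    · rfl
    · exact sub_eq_zero.mp e2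
    · exact sub_eq_zero.mp e1
    · rw [sub_eq_zero.mp e1, sub_eq_zero.mp e2] at e3
      linear_combination e3
  exact fun i j => (hall i).trans (hall j).symm

end SquareZero

namespace GoodReductionDatum

variable {K : Type*} [Field K] {A : ValuationSubring K} {k : Type*} [Field k] {π : A →+* k}
variable {F : Type*} [Field F] [Algebra K F] {Fb : Type*} [Field Fb] [Algebra k Fb]
variable {d : GoodReductionDatum A π F Fb}
variable [RRSetting K F] [RRSetting k Fb] [Infinite k] {B : Divisor K F}

omit [RRSetting K F] [Infinite k] in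
/-- Charts with prescribed base divisor and lifts satisfying `P`. -/
theorem exists_chart (P : F → Prop)
    (hP : ∀ fb ∈ riemannRochSpace (d.redDiv B),
      ∃ f ∈ riemannRochSpace B, d.RedsTo f fb ∧ P f)
    (D : Divisor K F) (hD : Divisor.degree D = genusFF K F) (Eb : Divisor k Fb) (hEb : 0 ≤ Eb)
    (hdeg : Divisor.degree Eb = genusFF K F) (hell : ell Eb = 1) :
    ∃ C : d.Chart B, C.D = D ∧ C.Eb = Eb ∧ (∀ c, P (C.w0 c)) ∧ ∀ l, P (C.u l) := by
  classical
  set V := riemannRochSpace (d.redDiv B)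
  set W := riemannRochSpace (d.redDiv B - Eb)
  have hWV : W ≤ V := L_mono (sub_le_self _ hEb)
  obtain ⟨W', hW'⟩ := Submodule.exists_isCompl (W.comap V.subtype)
  let e : Module.Basis (Fin (ell (d.redDiv B - Eb))) k W := Module.finBasis k W
  have : Module.Free k W' := Module.Free.of_divisionRing k W'
  let e' := Module.finBasis k W'
  let wb : Fin (ell (d.redDiv B - Eb)) → Fb := fun c => ((e c : W) : Fb)
  let ub : Fin (Module.finrank k W') → Fb := fun l => (((e' l : W') : V) : Fb)
  choose w hwL hw hwP using fun c => hP (wb c) (hWV (e c).2)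
  choose u huL hu huP using fun l => hP (ub l) ((e' l : W') : V).2
  let b := (e.map (Submodule.comapSubtypeEquivOfLe hWV).symm).prod e'
    |>.map (Submodule.prodEquivOfIsCompl _ _ hW')
  have hb : ∀ j, ((b j : V) : Fb) = Sum.elim wb ub j := by
    rintro (c | l) <;> simp [b, wb, ub]
  have hind : LinearIndependent k (Sum.elim wb ub) := by
    rw [← funext hb]
    exact b.linearIndependent.map' V.subtype (Submodule.ker_subtype _)
  refine ⟨⟨D, Eb, hD, hEb, hdeg, hell, w, wb, _, u, ub, hwL, huL, hw, hu, fun c => (e c).2, hind,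
    ?_⟩, rfl, rfl, hwP, huP⟩
  rw [← funext hb, show (fun j => ((b j : V) : Fb)) = V.subtype ∘ b from rfl, Set.range_comp,
    Submodule.span_image, b.span_eq, Submodule.map_top, Submodule.range_subtype]

/-- Every class fits some chart. -/
theorem exists_fitting_chart (hB : 4 * (genusFF K F : ℤ) + 2 ≤ Divisor.degree B) (P : F → Prop)
    (hP : ∀ fb ∈ riemannRochSpace (d.redDiv B),
      ∃ f ∈ riemannRochSpace B, d.RedsTo f fb ∧ P f)
    (Q : Divisor K F → Prop) (hQ : ∀ Db : Divisor k Fb, ∃ D, d.redDiv D = Db ∧ Q D)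
    (x : Pic0 K F) :
    ∃ C : d.Chart B, C.Fits x ∧ Q C.D ∧ (∀ c, P (C.w0 c)) ∧ ∀ l, P (C.u l) := by
  obtain ⟨Z, Zb, -, -, hZb, hZdeg, hZell, -⟩ := d.exists_aux hB Set.finite_empty
  obtain ⟨Dx, hDx⟩ := exists_isRep x
  obtain ⟨D, hD, hQD⟩ := hQ (Zb - d.redDiv Dx)
  have hdegD : Divisor.degree D = genusFF K F := by
    rw [← degree_redDiv (d := d), hD, map_sub, hZdeg, degree_redDiv, hDx.degree_eq, sub_zero]
  obtain ⟨C, hC, hCE, hw, hu⟩ := exists_chart P hP D hdegD Zb hZb hZdeg hZell
  refine ⟨C, C.fits_iff.mpr fun Db hDb => ?_, hC ▸ hQD, hw, hu⟩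
  have h := hDb.sub_mem (redPic0_of_isRep (d := d) hDx)
  rwa [hC, hCE, hD, show Db + (Zb - d.redDiv Dx) - Zb = Db - d.redDiv Dx by abel]

omit [RRSetting k Fb] [Infinite k] in
theorem exists_bound : ∃ B : Divisor K F, 4 * (genusFF K F : ℤ) + 2 ≤ Divisor.degree B := by
  obtain ⟨P₀⟩ := RRSetting.nonempty_place (K := K) (F := F)
  refine ⟨Finsupp.single P₀ (4 * (genusFF K F : ℤ) + 2), ?_⟩
  rw [Divisor.degree_single, RRSetting.deg_eq_one]
  simp

theorem exists_fitting_chart' (hB : 4 * (genusFF K F : ℤ) + 2 ≤ Divisor.degree B)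
    (x : Pic0 K F) : ∃ C : d.Chart B, C.Fits x := by
  obtain ⟨C, hC, -⟩ := exists_fitting_chart (d := d) hB (fun _ => True)
    (fun fb hfb => by
      obtain ⟨f, hf, hf'⟩ := d.exists_redsTo_of_mem_L (by omega) hfb
      exact ⟨f, hf, hf', trivial⟩)
    (fun _ => True)
    (fun Db => by
      classical
      choose P hP using fun Q => d.exists_place_eq hB Q
      refine ⟨Finsupp.mapDomain P Db, ?_, trivial⟩
      rw [Finsupp.mapDomain.addMonoidHom_apply, ← Finsupp.mapDomain_comp]
      simp [Function.comp_def, hP]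
      exact Finsupp.mapDomain_id) x
  exact ⟨C, hC⟩

/-- The kernel of reduction has no torsion prime to the residue characteristic. -/
theorem eq_zero_of_redPic0_eq_zero_of_nsmul_eq_zero {x : Pic0 K F} (hx : d.redPic0 x = 0)
    {m : ℕ} (hm : (m : k) ≠ 0) (hmx : m • x = 0) : x = 0 := by
  obtain ⟨B, hB⟩ := exists_bound (K := K) (F := F)
  obtain ⟨C, hC0⟩ := exists_fitting_chart' (d := d) hB (0 : Pic0 K F)
  have hfit : ∀ j : ℕ, C.Fits (j • x) := fun j =>
    (C.fits_congr (by rw [map_nsmul, hx, smul_zero, map_zero])).mpr hC0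
  have hfx : C.Fits x := by simpa using hfit 1
  let δ : Fin (ell (d.redDiv B - C.Eb)) × Fin C.s → A :=
    fun p => C.coords x p.1 p.2 - C.coords 0 p.1 p.2
  let 𝔞 : Ideal A := Ideal.span (Set.range δ)
  have hπ : ∀ a ∈ 𝔞, π a = 0 := fun a ha => by
    induction ha using Submodule.span_induction with
    | mem z hz =>
      obtain ⟨p, rfl⟩ := hz
      simp [δ, C.pi_coords hB hfx, C.pi_coords hB hC0]
    | zero => simp
    | add _ _ _ _ h h' => simp [h, h']
    | smul c z _ h => simp [h]
  have key : ∀ (j : ℕ) (p : Fin (ell (d.redDiv B - C.Eb)) × Fin C.s),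
      C.coords (j • x) p.1 p.2 - C.coords 0 p.1 p.2 - j • δ p ∈ 𝔞 * 𝔞 := by
    intro j
    induction j with
    | zero => intro p; simp
    | succ j ih =>
      intro p
      let X : Bool × Bool → Pic0 K F := fun b => if b.1 then j • x else 0
      let Y : Bool × Bool → Pic0 K F := fun b => if b.2 then x else 0
      have hXY : ∀ b, C.Fits (X b + Y b) := by
        rintro ⟨_ | _, _ | _⟩
        · simpa [X, Y] using hC0
        · simpa [X, Y] using hfx
        · simpa [X, Y] using hfit j
        · simpa [X, Y, succ_nsmul] using hfit (j + 1)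
      have hj : ∀ c l, C.coords (j • x) c l - C.coords 0 c l ∈ 𝔞 := fun c l => by
        have h1 : j • δ (c, l) ∈ 𝔞 :=
          nsmul_mem (Ideal.subset_span (s := Set.range δ) ⟨(c, l), rfl⟩) j
        convert add_mem (Ideal.mul_le_left (I := 𝔞) (J := 𝔞) (ih (c, l))) h1 using 1
        simp
      have h := coords_add_mem hB (isCongr_squareAlgebra hπ) C C C (x := X) (y := Y)
        (fun b => by
          rcases b with ⟨_ | _, _⟩
          · simpa [X] using hC0
          · simpa [X] using hfit j)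
        (fun b => by
          rcases b with ⟨_, _ | _⟩
          · simpa [Y] using hC0
          · simpa [Y] using hfx) hXY
        (fun c l => ⟨by simpa [X] using hj c l, by simp [X], by simp [X]⟩)
        (fun c l => ⟨by simp [Y], by simpa [Y, δ] using (Ideal.subset_span (s := Set.range δ) ⟨(c, l), rfl⟩ :
          δ (c, l) ∈ 𝔞), by simp [Y]⟩) p.1 p.2
      obtain ⟨-, -, h3⟩ := h
      simp only [X, Y, if_true, Bool.false_eq_true, if_false, add_zero, zero_add] at h3
      rw [← succ_nsmul] at h3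
      convert add_mem h3 (ih p) using 1
      simp only [δ, succ_nsmul]
      ring
  have hle : 𝔞 ≤ 𝔞 * 𝔞 := by
    refine Ideal.span_le.mpr ?_
    rintro _ ⟨p, rfl⟩
    have h := key m p
    rw [hmx, sub_self, zero_sub, neg_mem_iff, nsmul_eq_mul] at h
    obtain ⟨u, hu⟩ := (d.isUnit_iff_pi_ne_zero (m : A)).mpr (by rwa [map_natCast])
    rw [← hu] at h
    simpa using (𝔞 * 𝔞).mul_mem_left ((u⁻¹ : Aˣ) : A) h
  have hbot : 𝔞 = ⊥ := by
    refine Submodule.eq_bot_of_le_smul_of_le_jacobson_bot 𝔞 𝔞
      (Submodule.fg_span (Set.finite_range δ)) (by rwa [smul_eq_mul]) ?_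
    rw [IsLocalRing.jacobson_eq_maximalIdeal ⊥ bot_ne_top]
    exact fun a ha => (d.pi_eq_zero_iff a).mp (hπ a ha)
  refine C.eq_of_coords hB hfx hC0 (funext fun c => funext fun l => ?_)
  have : δ (c, l) ∈ 𝔞 := Ideal.subset_span ⟨(c, l), rfl⟩
  rw [hbot, Ideal.mem_bot, sub_eq_zero] at this
  exact this

omit [Infinite k] in
/-- The reduction of places is determined by the compatibility with divisors. -/
theorem place_unique (r : Place K F → Place k Fb)
    (hr : ∀ x : d.integers, d.red x ≠ 0 → ∀ D : Divisor K F,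
      (∀ P : Place K F, D P = P.ord (x : F)) →
        ∀ Q : Place k Fb, Finsupp.mapDomain r D Q = Q.ord (d.red x)) :
    r = d.place := by
  classical
  funext P
  by_contra hne
  set n := 2 * genusFF K F + 1 with hn
  obtain ⟨fb, hfb0, hord, hpos⟩ := exists_single_pole (K := k) (F := Fb) (d.place P) (n := n)
    (by rw [d.genus_eq]; omega) (by omega)
  have hfb : fb ∈ riemannRochSpace (d.redDiv (Finsupp.single P (n : ℤ))) := by
    rw [Finsupp.mapDomain.addMonoidHom_apply, Finsupp.mapDomain_single, mem_L_iff hfb0]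
    intro Q
    rcases eq_or_ne Q (d.place P) with rfl | hQ
    · rw [Finsupp.single_eq_same, hord]
    · rw [Finsupp.single_eq_of_ne hQ, neg_zero]
      exact hpos Q hQ
  obtain ⟨f, hf, hm, rfl⟩ := d.exists_redsTo_of_mem_L (by
    rw [Divisor.degree_single, RRSetting.deg_eq_one, hn]; push_cast; omega) hfb
  have hf0 : f ≠ 0 := RedsTo.ne_zero ⟨hm, rfl⟩ hfb0
  have hE : 0 ≤ divOf (K := K) f + Finsupp.single P (n : ℤ) := (mem_L_iff_divOf hf0).mp hf
  have h1 := hr ⟨f, hm⟩ hfb0 (divOf (K := K) f) (fun v => divOf_apply hf0 v) (d.place P)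
  rw [hord] at h1
  have h2 : 0 ≤ Finsupp.mapDomain r (divOf (K := K) f + Finsupp.single P (n : ℤ)) (d.place P) := by
    simp only [Finsupp.mapDomain, Finsupp.sum_apply]
    refine Finset.sum_nonneg fun v _ => ?_
    show 0 ≤ (Finsupp.single (r v) ((divOf (K := K) f + Finsupp.single P (n : ℤ)) v)) (d.place P)
    rw [Finsupp.single_apply]
    split
    · simpa using Finsupp.le_def.mp hE v
    · exact le_rfl
  rw [Finsupp.mapDomain_add, Finsupp.mapDomain_single, Finsupp.add_apply, h1,
    Finsupp.single_eq_of_ne (Ne.symm hne)] at h2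
  omega

end GoodReductionDatum

end FermatAgent.JacCharts
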