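import Fermat.Agent.JacCharts.Family

/-!
# Rational families of effective divisors

Constant families, sums of families with disjoint reductions, passage from `B` to `B + B`, and
the effective divisor `E ~ P - M` of a family with `l(Pb - Mb) = 1` are rational.
-/

set_option autoImplicit false

noncomputable section

open AlgebraicCurve FermatAgent.Curve.RR

namespace FermatAgent.JacCharts

section Curve

variable {K F : Type*} [Field K] [Field F] [Algebra K F] [RRSetting K F]

theorem self_mem_L {f : F} (hf : f ≠ 0) : f ∈ riemannRochSpace (-divOf (K := K) f) := by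
  rw [mem_L_iff_divOf hf]
  simp

theorem inv_mem_L {f : F} (hf : f ≠ 0) : f⁻¹ ∈ riemannRochSpace (divOf (K := K) f) := by
  rw [mem_L_iff (inv_ne_zero hf)]
  intro v
  rw [divOf_apply hf, v.ord_inv]

theorem mem_L_of_forall_mul_mem {D D' : Divisor K F}
    (h : 2 * (genusFF K F : ℤ) ≤ Divisor.degree D) {q : F}
    (hq : ∀ χ ∈ riemannRochSpace D, χ * q ∈ riemannRochSpace D') :
    q ∈ riemannRochSpace (D' - D) := by
  rcases eq_or_ne q 0 with rfl | hq0
  · exact zero_mem _
  rw [mem_L_iff hq0]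
  intro v
  obtain ⟨χ, hχ, hχ0, hord⟩ := exists_mem_ord_eq h v
  have := (mem_L_iff (mul_ne_zero hχ0 hq0)).mp (hq χ hχ) v
  rw [v.ord_mul hχ0 hq0, hord] at this
  simp only [Finsupp.sub_apply]
  omega

/-- `L(D)·L(G) = L(D + G)` when `G - D` is a non-special class of degree `g`. -/
theorem L_add_le_span_mul [Infinite K] {D G : Divisor K F}
    (hD : 2 * (genusFF K F : ℤ) ≤ Divisor.degree D)
    (hG : 2 * (genusFF K F : ℤ) - 1 ≤ Divisor.degree G)
    (hdeg : Divisor.degree (G - D) = genusFF K F) (hell : ell (G - D) = 1) :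
    riemannRochSpace (D + G) ≤ Submodule.span K
      {z : F | ∃ x ∈ riemannRochSpace D, ∃ y ∈ riemannRochSpace G, z = x * y} := by
  classical
  obtain ⟨v₀⟩ := RRSetting.nonempty_place (K := K) (F := F)
  obtain ⟨φ₁, hφ₁, hφ₁0, -⟩ := exists_mem_ord_eq hD v₀
  obtain ⟨φ₂, hφ₂, hφ₂0, hord⟩ :=
    exists_mem_forall_ord_eq hD (divOf (K := K) φ₁ + D).support
  let T : riemannRochSpace G × riemannRochSpace G →ₗ[K] F :=
    (LinearMap.mulRight K φ₁).comp ((Submodule.subtype _).comp (LinearMap.fst K _ _)) +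
      (LinearMap.mulRight K φ₂).comp ((Submodule.subtype _).comp (LinearMap.snd K _ _))
  have hT : ∀ p, T p = (p.1 : F) * φ₁ + (p.2 : F) * φ₂ := fun p => rfl
  have hker : Module.finrank K (LinearMap.ker T) ≤ 1 := by
    let u : LinearMap.ker T →ₗ[K] F :=
      (LinearMap.mulRight K φ₂⁻¹).comp
        ((Submodule.subtype _).comp ((LinearMap.fst K _ _).comp (Submodule.subtype _)))
    have hu : ∀ p, u p ∈ riemannRochSpace (G - D) := by
      rintro ⟨p, hp⟩
      show (p.1 : F) * φ₂⁻¹ ∈ _
      rw [LinearMap.mem_ker, hT] at hp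
      rcases eq_or_ne (p.1 : F) 0 with h0 | h0
      · simp [h0]
      have hp2 : (p.2 : F) ≠ 0 := fun h => h0 (by simpa [h, hφ₁0] using hp)
      have hneg : ∀ v : Place K F,
          v.ord ((p.1 : F) * φ₂⁻¹) = v.ord (p.2 : F) - v.ord φ₁ := by
        intro v
        have h1 : (p.1 : F) * φ₁ = -((p.2 : F) * φ₂) := eq_neg_of_add_eq_zero_left hp
        have h2 := congrArg (fun z => v.ord z) h1
        simp only [Place.ord] at h2
        rw [Valuation.map_neg] at h2
        have h3 : v.ord ((p.1 : F) * φ₁) = v.ord ((p.2 : F) * φ₂) := h2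
        rw [v.ord_mul h0 hφ₁0, v.ord_mul hp2 hφ₂0] at h3
        rw [v.ord_mul h0 (inv_ne_zero hφ₂0), v.ord_inv]
        omega
      rw [mem_L_iff (mul_ne_zero h0 (inv_ne_zero hφ₂0))]
      intro v
      simp only [Finsupp.sub_apply]
      by_cases hv : v ∈ (divOf (K := K) φ₁ + D).support
      · have := (mem_L_iff h0).mp p.1.2 v
        rw [v.ord_mul h0 (inv_ne_zero hφ₂0), v.ord_inv, hord v hv]
        omega
      · rw [Finsupp.notMem_support_iff, Finsupp.add_apply, divOf_apply hφ₁0] at hv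
        have := (mem_L_iff hp2).mp p.2.2 v
        rw [hneg v]
        omega
    refine le_trans (LinearMap.finrank_le_finrank_of_injective
      (f := u.codRestrict _ hu) ?_) hell.le
    refine (injective_iff_map_eq_zero _).mpr ?_
    rintro ⟨p, hp⟩ hp0
    have h1 : (p.1 : F) * φ₂⁻¹ = 0 := congrArg Subtype.val hp0
    have h1' : (p.1 : F) = 0 := by simpa [hφ₂0] using h1
    rw [LinearMap.mem_ker, hT] at hp
    have h2' : (p.2 : F) = 0 := by simpa [h1', hφ₂0] using hp
    exact Subtype.ext (Prod.ext (Subtype.ext h1') (Subtype.ext h2'))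
  have hrange : LinearMap.range T ≤ riemannRochSpace (D + G) := by
    rintro _ ⟨p, rfl⟩
    rw [hT, add_comm D G]
    exact add_mem (mul_mem_L p.1.2 hφ₁) (mul_mem_L p.2.2 hφ₂)
  have hDG : 2 * (genusFF K F : ℤ) - 1 ≤ Divisor.degree (D + G) := by
    rw [map_add]
    omega
  have h1 := ell_eq_of_degree_ge hDG
  have h2 := ell_eq_of_degree_ge hG
  have h3 := LinearMap.finrank_range_add_finrank_ker T
  rw [Module.finrank_prod] at h3
  rw [map_sub] at hdeg
  rw [map_add] at h1
  have heq := Submodule.eq_of_le_of_finrank_le hrange (by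
    have e1 : ell (D + G) = Module.finrank K (riemannRochSpace (D + G)) := rfl
    have e2 : ell G = Module.finrank K (riemannRochSpace G) := rfl
    omega)
  rw [← heq]
  rintro _ ⟨p, rfl⟩
  rw [hT]
  exact add_mem (Submodule.subset_span ⟨φ₁, hφ₁, _, p.1.2, mul_comm _ _⟩)
    (Submodule.subset_span ⟨φ₂, hφ₂, _, p.2.2, mul_comm _ _⟩)

end Curve

namespace GoodReductionDatum

variable {K : Type*} [Field K] {A : ValuationSubring K} {k : Type*} [Field k] {π : A →+* k}
variable {F : Type*} [Field F] [Algebra K F] {Fb : Type*} [Field Fb] [Algebra k Fb]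
variable {d : GoodReductionDatum A π F Fb}
variable {I : Type*} [Fintype I] {R : Subalgebra A (I → A)}
variable [RRSetting K F] [RRSetting k Fb]

omit [Fintype I] in
theorem Rat.degree_eq {G : Divisor K F} {X : I → Divisor K F} {Xb : Divisor k Fb}
    (h : d.Rat R G X Xb) (i : I) : Divisor.degree (X i) = Divisor.degree Xb := by
  rw [← h.red_eq i, degree_redDiv]

omit [Fintype I] in
/-- Constant families are rational. -/
theorem rat_const (G : Divisor K F) {X : Divisor K F} (hX : 0 ≤ X)
    (hd : 2 * (genusFF K F : ℤ) - 1 ≤ Divisor.degree G - Divisor.degree X) :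
    d.Rat R G (fun _ => X) (d.redDiv X) := by
  refine ⟨fun _ => hX, fun _ => rfl, fun fb hfb => ?_⟩
  rw [← map_sub] at hfb
  obtain ⟨f, hf, hf'⟩ := d.exists_redsTo_of_mem_L (by rw [map_sub]; exact hd) hfb
  exact ⟨fun _ => f, const_mem_RFam (L_mono (sub_le_self G hX) hf) hf'.mem,
    fun _ => ⟨hf, hf'⟩⟩

/-- Sums of rational families with disjoint reductions. -/
theorem Rat.sum (hR : IsCongr π R) {G : Divisor K F} {E Z : I → Divisor K F}
    {Eb Zb : Divisor k Fb} (hE : d.Rat R G E Eb) (hZ : d.Rat R G Z Zb)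
    (hdis : ∀ Q, Eb Q = 0 ∨ Zb Q = 0) (hEb : 0 ≤ Eb) (hZb : 0 ≤ Zb)
    (hd : 2 * (genusFF K F : ℤ) - 1 ≤
      Divisor.degree G - Divisor.degree Eb - Divisor.degree Zb) :
    d.Rat R G (fun i => E i + Z i) (Eb + Zb) := by
  refine ⟨fun i => add_nonneg (hE.nonneg i) (hZ.nonneg i),
    fun i => by rw [map_add, hE.red_eq, hZ.red_eq], fun fb hfb => ?_⟩
  obtain ⟨w₁, wb₁, hw₁, hwb₁, hind₁, hspan₁, hspan₁'⟩ := hE.exists_basis
  obtain ⟨w₂, wb₂, hw₂, hwb₂, hind₂, hspan₂, hspan₂'⟩ := hZ.exists_basis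
  have hdeg0 := degree_nonneg hEb
  have hdeg0' := degree_nonneg hZb
  have hGd : 2 * (genusFF K F : ℤ) - 1 ≤ Divisor.degree G := by omega
  have hsum : ∀ i, Divisor.degree (G - (E i + Z i)) =
      Divisor.degree G - Divisor.degree Eb - Divisor.degree Zb := fun i => by
    rw [map_sub, map_add, hE.degree_eq, hZ.degree_eq]; ring
  let γ : Bool → Type := fun b => Fin (if b then ell (d.redDiv G - Eb) else ell (d.redDiv G - Zb))
  refine exists_lift_family (d := d) hR hGd (α := Bool) (fun _ => 0) (fun _ => G) (fun _ => zero_add G)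
    (fun _ _ => 1) (fun _ => 1) (fun _ => const_mem_RFam (one_mem_L le_rfl) redsTo_one.mem)
    (fun _ _ => redsTo_one) (γ := γ)
    (fun b => match b with | true => w₁ | false => w₂)
    (fun b => match b with | true => wb₁ | false => wb₂)
    (fun b => match b with | true => hw₁ | false => hw₂)
    (fun b => match b with | true => hwb₁ | false => hwb₂)
    (fun b => match b with | true => hind₁ | false => hind₂)
    (fun i => riemannRochSpace (G - (E i + Z i)))
    (fun i => L_mono (sub_le_self G (add_nonneg (hE.nonneg i) (hZ.nonneg i))))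
    (ell (d.redDiv G - (Eb + Zb))) (fun i => ?_) (fun i h hh b => ?_)
    (riemannRochSpace (d.redDiv G - (Eb + Zb))) le_rfl (fun hb _ hcond => ?_)
    (L_mono (sub_le_self _ (add_nonneg hEb hZb)) hfb) (fun b => ?_)
  · rw [show ell (d.redDiv G - (Eb + Zb)) = ell (G - (E i + Z i)) by
      rw [← ell_redDiv_of_degree_ge (d := d) (G := G - (E i + Z i)) (by rw [hsum]; exact hd),
        map_sub, map_add, hE.red_eq, hZ.red_eq]]
    rfl
  · show (1 : F) * h ∈ _
    rw [one_mul]
    cases b
    · show h ∈ Submodule.span K (Set.range fun c => w₂ c i)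
      rw [hspan₂']
      exact L_mono (sub_le_sub_left (le_add_of_nonneg_left (hE.nonneg i)) _) hh
    · show h ∈ Submodule.span K (Set.range fun c => w₁ c i)
      rw [hspan₁']
      exact L_mono (sub_le_sub_left (le_add_of_nonneg_right (hZ.nonneg i)) _) hh
  · have h1 : hb ∈ Submodule.span k (Set.range wb₁) := by simpa using hcond true
    have h2 : hb ∈ Submodule.span k (Set.range wb₂) := by simpa using hcond false
    rw [hspan₁, mem_riemannRochSpace_iff] at h1
    rw [hspan₂, mem_riemannRochSpace_iff] at h2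
    rw [mem_riemannRochSpace_iff]
    intro v
    rcases h1 v with h | h
    · exact Or.inl h
    rcases h2 v with h' | h'
    · exact Or.inl h'
    right
    simp only [Finsupp.sub_apply, Finsupp.add_apply] at h h' ⊢
    rcases hdis v with h0 | h0 <;> omega
  · show (1 : Fb) * fb ∈ _
    rw [one_mul]
    cases b
    · show fb ∈ Submodule.span k (Set.range wb₂)
      rw [hspan₂]
      exact L_mono (sub_le_sub_left (le_add_of_nonneg_left hEb) _) hfb
    · show fb ∈ Submodule.span k (Set.range wb₁)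
      rw [hspan₁]
      exact L_mono (sub_le_sub_left (le_add_of_nonneg_right hZb) _) hfb

omit [Fintype I] in
/-- From `B` to `B + B`. -/
theorem Rat.double [Infinite k] {B : Divisor K F} {E : I → Divisor K F} {Eb : Divisor k Fb}
    (hB : 4 * (genusFF K F : ℤ) + 2 ≤ Divisor.degree B) (hdeg : Divisor.degree Eb = genusFF K F)
    (hell : ell Eb = 1) (hE : d.Rat R B E Eb) : d.Rat R (B + B) E Eb := by
  refine ⟨hE.nonneg, hE.red_eq, ?_⟩
  let S : Submodule k Fb :=
    { carrier := {fb | ∃ h ∈ d.RFam R (B + B),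
        ∀ i, h i ∈ riemannRochSpace (B + B - E i) ∧ d.RedsTo (h i) fb}
      zero_mem' := ⟨0, zero_mem _, fun i => ⟨zero_mem _, redsTo_zero⟩⟩
      add_mem' := by
        rintro a b ⟨h, hh, hh'⟩ ⟨h', hg, hg'⟩
        exact ⟨h + h', add_mem hh hg,
          fun i => ⟨add_mem (hh' i).1 (hg' i).1, (hh' i).2.add (hg' i).2⟩⟩
      smul_mem' := by
        rintro c fb ⟨h, hh, hh'⟩
        obtain ⟨a, rfl⟩ := d.residue_surjective c
        exact ⟨fun i => (a : K) • h i, smul_mem_RFam (R.algebraMap_mem a) hh,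
          fun i => ⟨Submodule.smul_mem _ _ (hh' i).1, (hh' i).2.smul a⟩⟩ }
  suffices riemannRochSpace (d.redDiv (B + B) - Eb) ≤ S from fun fb hfb => this hfb
  have hgen := L_add_le_span_mul (D := d.redDiv B - Eb) (G := d.redDiv B)
    (by rw [map_sub, degree_redDiv, hdeg, d.genus_eq]; omega)
    (by rw [degree_redDiv, d.genus_eq]; omega)
    (by rw [sub_sub_cancel, hdeg, d.genus_eq]) (by rw [sub_sub_cancel, hell])
  rw [show d.redDiv (B + B) - Eb = d.redDiv B - Eb + d.redDiv B by rw [map_add]; abel]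
  refine hgen.trans (Submodule.span_le.mpr ?_)
  rintro _ ⟨x, hx, y, hy, rfl⟩
  obtain ⟨h, hh, hh'⟩ := hE.exists_lift x hx
  obtain ⟨f, hf, hf'⟩ := d.exists_redsTo_of_mem_L (by omega) hy
  refine ⟨h * fun _ => f, mul_mem_RFam hh (const_mem_RFam hf hf'.mem), fun i => ⟨?_, ?_⟩⟩
  · rw [show B + B - E i = B - E i + B by abel]
    exact mul_mem_L (hh' i).1 hf
  · exact (hh' i).2.mul hf'

/-- The effective divisor linearly equivalent to `P - M` is rational. -/
theorem Rat.of_linearEquiv (hR : IsCongr π R) {B : Divisor K F}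
    (hB : 4 * (genusFF K F : ℤ) + 2 ≤ Divisor.degree B)
    {P M E : I → Divisor K F} {Pb Mb Eb : Divisor k Fb}
    (hP₁ : d.Rat R B P Pb) (hP₂ : d.Rat R (B + B) P Pb) (hM : d.Rat R B M Mb)
    (hPle : Divisor.degree Pb ≤ 2 * (genusFF K F : ℤ)) (hMb : 0 ≤ Mb)
    (hdeg : Divisor.degree Pb - Divisor.degree Mb = genusFF K F) (hell : ell (Pb - Mb) = 1)
    (hEb : 0 ≤ Eb) (hEbP : Eb - (Pb - Mb) ∈ Divisor.principal (K := k) (F := Fb))
    (hE : ∀ i, 0 ≤ E i) (hEP : ∀ i, E i - (P i - M i) ∈ Divisor.principal (K := K) (F := F)) :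
    d.Rat R B E Eb := by
  have hellE : ell Eb = 1 := (ell_eq_of_sub_mem_principal hEbP).trans hell
  have hred : ∀ i, d.redDiv (E i) = Eb := fun i => by
    refine eq_of_ell_eq_one hEb (redDiv_nonneg (hE i)) hellE ?_
    have h := sub_mem (redDiv_mem_principal (d := d) (hEP i)) hEbP
    rw [map_sub, map_sub, hP₁.red_eq, hM.red_eq] at h
    simpa [sub_sub_sub_cancel_right] using h
  have hdM : 0 ≤ Divisor.degree Mb := degree_nonneg hMb
  have hgk : genusFF k Fb = genusFF K F := d.genus_eq
  have hdegEb : Divisor.degree Eb = genusFF K F := by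
    rw [degree_eq_of_linearEquiv hEbP, map_sub, hdeg]
  refine ⟨hE, hred, ?_⟩
  obtain ⟨wP, wPb, hwP, hwPb, hindP, hspanP, hspanP'⟩ := hP₁.exists_basis
  obtain ⟨wQ, wQb, hwQ, hwQb, hindQ, hspanQ, hspanQ'⟩ := hP₂.exists_basis
  obtain ⟨wM, wMb, hwM, hwMb, hindM, hspanM, hspanM'⟩ := hM.exists_basis
  obtain ⟨v₀⟩ := RRSetting.nonempty_place (K := k) (F := Fb)
  obtain ⟨φb, hφb, hφb0, -⟩ := exists_mem_ord_eq (D := d.redDiv B - Pb)
    (by rw [map_sub, degree_redDiv, hgk]; omega) v₀
  obtain ⟨φ, hφ, hφ'⟩ := hP₁.exists_lift φb hφb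
  choose f hf0 hf using hEP
  obtain ⟨fb, hfb0, hfb⟩ := hEbP
  have hdivf : ∀ i, divOf (K := K) (f i) = E i - (P i - M i) := fun i =>
    Finsupp.ext fun v => by rw [divOf_apply (hf0 i), ← hf i v]
  have hdivfb : divOf (K := k) fb = Eb - (Pb - Mb) :=
    Finsupp.ext fun v => by rw [divOf_apply hfb0, ← hfb v]
  have hfbP : ∀ x ∈ riemannRochSpace (d.redDiv B - Pb),
      fb * x ∈ riemannRochSpace (d.redDiv B - Mb) := fun x hx => by
    refine L_mono ?_ (mul_mem_L (self_mem_L (K := k) hfb0) hx)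
    rw [hdivfb, show -(Eb - (Pb - Mb)) + (d.redDiv B - Pb) = d.redDiv B - Mb - Eb by abel]
    exact sub_le_self _ hEb
  have hmulspan : ∀ (x : F) (ι : Type) (w : ι → F) (u : F), u ∈ Submodule.span K (Set.range w) →
      x * u ∈ Submodule.span K (Set.range fun c => x * w c) := fun x ι w u hu => by
    have h := Submodule.mem_map_of_mem (f := LinearMap.mulLeft K x) hu
    rw [Submodule.map_span, ← Set.range_comp] at h
    exact h
  have hmulspanb : ∀ (x : Fb) (ι : Type) (w : ι → Fb) (u : Fb),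
      u ∈ Submodule.span k (Set.range w) →
      x * u ∈ Submodule.span k (Set.range fun c => x * w c) := fun x ι w u hu => by
    have h := Submodule.mem_map_of_mem (f := LinearMap.mulLeft k x) hu
    rw [Submodule.map_span, ← Set.range_comp] at h
    exact h
  have hinj : ∀ (x : Fb), x ≠ 0 → LinearMap.ker (LinearMap.mulLeft k x) = ⊥ := fun x hx => by
    rw [LinearMap.ker_eq_bot']
    intro y hy
    simpa [hx] using hy
  -- the function `ψ`
  have hψ : ∃ ψ ∈ d.RFam R B, ∀ i,
      ψ i ∈ Submodule.span K {φ i * f i} ∧ d.RedsTo (ψ i) (φb * fb) := by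
    refine exists_lift_family (d := d) hR (by omega) (α := Fin (ell (d.redDiv B - Pb))) (fun _ => B) (fun _ => B + B)
      (fun _ => rfl) wP wPb hwP hwPb (γ := fun _ => Fin (ell (d.redDiv B - Mb)))
      (fun _ c => φ * wM c) (fun _ c => φb * wMb c)
      (fun _ c => mul_mem_RFam hφ (hwM c)) (fun _ c i => (hφ' i).2.mul (hwMb c i))
      (fun _ => hindM.map' (LinearMap.mulLeft k φb) (hinj φb hφb0))
      (fun i => Submodule.span K {φ i * f i}) (fun i => ?_) 1
      (fun i => (finrank_span_singleton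
        (mul_ne_zero ((hφ' i).2.ne_zero hφb0) (hf0 i))).ge) (fun i h hh a => ?_)
      ((riemannRochSpace (Pb - Mb)).map (LinearMap.mulLeft k φb))
      ((Submodule.finrank_map_le _ _).trans hell.le) (fun hb _ hcond => ?_) ?_ (fun a => ?_)
    · rw [Submodule.span_singleton_le_iff_mem]
      refine L_mono ?_ (mul_mem_L (hφ' i).1 (self_mem_L (K := K) (hf0 i)))
      rw [hdivf, show B - P i + -(E i - (P i - M i)) = B - (E i + M i) by abel]
      exact sub_le_self B (add_nonneg (hE i) (hM.nonneg i))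
    · obtain ⟨c, rfl⟩ := Submodule.mem_span_singleton.mp hh
      rw [mul_smul_comm]
      refine Submodule.smul_mem _ c ?_
      rw [show wP a i * (φ i * f i) = φ i * (f i * wP a i) by ring]
      refine hmulspan (φ i) _ (fun c => wM c i) _ ?_
      rw [hspanM']
      refine L_mono ?_ (mul_mem_L (self_mem_L (K := K) (hf0 i))
        (hspanP' i ▸ Submodule.subset_span ⟨a, rfl⟩ : wP a i ∈ riemannRochSpace (B - P i)))
      rw [hdivf, show -(E i - (P i - M i)) + (B - P i) = B - M i - E i by abel]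
      exact sub_le_self _ (hE i)
    · refine ⟨hb * φb⁻¹, ?_, by rw [LinearMap.mulLeft_apply]; field_simp⟩
      have h := mem_L_of_forall_mul_mem (D := d.redDiv B - Pb) (D' := d.redDiv B - Mb)
        (q := hb * φb⁻¹) (by rw [map_sub, degree_redDiv, hgk]; omega) ?_
      · rwa [sub_sub_sub_cancel_left] at h
      intro χ hχ
      rw [← hspanP] at hχ
      induction hχ using Submodule.span_induction with
      | mem x hx =>
        obtain ⟨a, rfl⟩ := hx
        obtain ⟨c, hc⟩ := Submodule.mem_span_range_iff_exists_fun k |>.mp (hcond a)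
        rw [← hspanM, Submodule.mem_span_range_iff_exists_fun]
        refine ⟨c, ?_⟩
        have : φb * ∑ j, c j • wMb j = wPb a * hb := by
          rw [← hc, Finset.mul_sum]
          exact Finset.sum_congr rfl fun j _ => mul_smul_comm _ _ _
        rw [← mul_assoc, ← this, mul_comm φb, mul_assoc, mul_inv_cancel₀ hφb0, mul_one]
      | zero => simp
      | add x y _ _ hx hy => simpa [add_mul] using add_mem hx hy
      | smul c x _ hx => simpa [smul_mul_assoc] using Submodule.smul_mem _ c hx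
    · refine L_mono ?_ (mul_mem_L hφb (self_mem_L (K := k) hfb0))
      rw [hdivfb, show d.redDiv B - Pb + -(Eb - (Pb - Mb)) = d.redDiv B - (Eb + Mb) by abel]
      exact sub_le_self _ (add_nonneg hEb hMb)
    · rw [show wPb a * (φb * fb) = φb * (fb * wPb a) by ring]
      refine hmulspanb φb _ wMb _ ?_
      rw [hspanM]
      exact hfbP _ (hspanP ▸ Submodule.subset_span ⟨a, rfl⟩)
  obtain ⟨ψ, hψR, hψ'⟩ := hψ
  -- the space `L(B - E)`
  intro hb hhb
  refine exists_lift_family (d := d) hR (by omega) (α := Fin (ell (d.redDiv B - Mb))) (fun _ => B + B)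
    (fun _ => B + (B + B)) (fun _ => add_assoc B B B) (fun a => φ * wM a)
    (fun a => φb * wMb a) (fun a => mul_mem_RFam hφ (hwM a))
    (fun a i => (hφ' i).2.mul (hwMb a i))
    (γ := fun _ => Fin (ell (d.redDiv (B + B) - Pb)))
    (fun _ c => ψ * wQ c) (fun _ c => (φb * fb) * wQb c)
    (fun _ c => mul_mem_RFam hψR (hwQ c)) (fun _ c i => (hψ' i).2.mul (hwQb c i))
    (fun _ => hindQ.map' (LinearMap.mulLeft k (φb * fb)) (hinj _ (mul_ne_zero hφb0 hfb0)))
    (fun i => riemannRochSpace (B - E i)) (fun i => L_mono (sub_le_self B (hE i)))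
    (ell (d.redDiv B - Eb)) (fun i => ?_) (fun i h hh a => ?_)
    (riemannRochSpace (d.redDiv B - Eb)) le_rfl (fun x hx hcond => ?_)
    (L_mono (sub_le_self _ hEb) hhb) (fun a => ?_)
  · rw [← hred i, ← map_sub, ell_redDiv_of_degree_ge (d := d)]
    · rfl
    · rw [map_sub, ← degree_redDiv (d := d) (E i), hred i, hdegEb]
      omega
  · obtain ⟨c, hc⟩ := Submodule.mem_span_singleton.mp (hψ' i).1
    have hc0 : c ≠ 0 := by
      rintro rfl
      exact (hψ' i).2.ne_zero (mul_ne_zero hφb0 hfb0) (by rw [← hc, zero_smul])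
    have hfi := hf0 i
    show φ i * wM a i * h ∈ Submodule.span K (Set.range fun c => ψ i * wQ c i)
    rw [show φ i * wM a i * h = ψ i * (c⁻¹ • (h * wM a i * (f i)⁻¹)) by
      rw [← hc, smul_mul_smul_comm, mul_inv_cancel₀ hc0, one_smul]
      field_simp]
    refine hmulspan (ψ i) _ (fun c => wQ c i) _ ?_
    rw [hspanQ']
    refine Submodule.smul_mem _ _ ?_
    have h1 := mul_mem_L (mul_mem_L hh
      (hspanM' i ▸ Submodule.subset_span ⟨a, rfl⟩ : wM a i ∈ riemannRochSpace (B - M i)))
      (inv_mem_L (K := K) (hf0 i))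
    rwa [hdivf, show B - E i + (B - M i) + (E i - (P i - M i)) = B + B - P i by abel] at h1
  · have h := mem_L_of_forall_mul_mem (D := d.redDiv B - Mb)
      (D' := d.redDiv (B + B) - Pb) (q := x * fb⁻¹)
      (by rw [map_sub, degree_redDiv, hgk]; omega) ?_
    · have h2 := mul_mem_L (self_mem_L (K := k) hfb0) h
      rw [mul_left_comm, mul_inv_cancel₀ hfb0, mul_one, hdivfb, map_add,
        show -(Eb - (Pb - Mb)) + (d.redDiv B + d.redDiv B - Pb - (d.redDiv B - Mb))
          = d.redDiv B - Eb by abel] at h2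
      exact h2
    intro χ hχ
    rw [← hspanM] at hχ
    induction hχ using Submodule.span_induction with
    | mem z hz =>
      obtain ⟨a, rfl⟩ := hz
      obtain ⟨c, hc⟩ := Submodule.mem_span_range_iff_exists_fun k |>.mp (hcond a)
      rw [← hspanQ, Submodule.mem_span_range_iff_exists_fun]
      refine ⟨c, ?_⟩
      have : φb * (fb * ∑ j, c j • wQb j) = φb * (wMb a * x) := by
        rw [← mul_assoc, ← mul_assoc, ← hc, Finset.mul_sum]
        exact Finset.sum_congr rfl fun j _ => mul_smul_comm _ _ _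
      rw [← mul_assoc, ← mul_left_cancel₀ hφb0 this, mul_comm fb, mul_assoc,
        mul_inv_cancel₀ hfb0, mul_one]
    | zero => simp
    | add x y _ _ hx hy => simpa [add_mul] using add_mem hx hy
    | smul c x _ hx => simpa [smul_mul_assoc] using Submodule.smul_mem _ c hx
  · rw [show φb * wMb a * hb = φb * fb * (hb * wMb a * fb⁻¹) by field_simp]
    refine hmulspanb (φb * fb) _ wQb _ ?_
    rw [hspanQ]
    have h1 := mul_mem_L (mul_mem_L hhb
      (hspanM ▸ Submodule.subset_span ⟨a, rfl⟩ : wMb a ∈ riemannRochSpace (d.redDiv B - Mb)))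
      (inv_mem_L (K := k) hfb0)
    rwa [hdivfb, show d.redDiv B - Eb + (d.redDiv B - Mb) + (Eb - (Pb - Mb))
      = d.redDiv (B + B) - Pb by rw [map_add]; abel] at h1

end GoodReductionDatum

end FermatAgent.JacCharts
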