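import Fermat.Agent.JacCharts.Torsion
import Fermat.Prelude.Def_AlgebraicCurve_BaseChangeGalois

/-!
# Semilinear automorphisms compatible with a good reduction datum

If a semilinear automorphism `g` of `F` preserves integers and reduces to `gb` on `Fb`, then the
reduction of places is equivariant, charts can be transported and coordinates are equivariant.
-/

set_option autoImplicit false

noncomputable section

open AlgebraicCurve FermatAgent.Curve.RR

namespace FermatAgent.JacCharts

section Semilinear

variable {K F : Type*} [Field K] [Field F] [Algebra K F] (g : SemilinearAut K F)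

theorem semilinear_smul_const (c : K) (f : F) :
    g • (c • f) = SemilinearAut.baseAut g c • g • f := by
  rw [Algebra.smul_def, Algebra.smul_def, smul_mul', SemilinearAut.smul_algebraMap]

theorem semilinear_smul_ne_zero {f : F} (hf : f ≠ 0) : g • f ≠ 0 :=
  (smul_ne_zero_iff_ne g).mpr hf

theorem semilinear_smul_nonneg {D : Divisor K F} (h : 0 ≤ D) : 0 ≤ g • D := by
  rw [Finsupp.le_def]
  intro v
  rw [SemilinearAut.divisor_smul_apply]
  exact Finsupp.le_def.mp h _

theorem semilinear_smul_mem_L {D : Divisor K F} {f : F} (hf : f ∈ riemannRochSpace D) :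
    g • f ∈ riemannRochSpace (g • D) := by
  rcases eq_or_ne f 0 with rfl | hf0
  · rw [smul_zero]
    exact zero_mem _
  rw [mem_L_iff hf0] at hf
  rw [mem_L_iff (semilinear_smul_ne_zero g hf0)]
  intro v
  have h := SemilinearAut.ord_smul g (g⁻¹ • v) f
  rw [smul_inv_smul] at h
  rw [SemilinearAut.divisor_smul_apply, h]
  exact hf _

theorem linearIndependent_semilinear_smul {ι : Type*} [Fintype ι] {v : ι → F}
    (h : LinearIndependent K v) : LinearIndependent K fun i => g • v i := by
  rw [Fintype.linearIndependent_iff] at h ⊢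
  intro c hc i
  have h1 := congrArg (g⁻¹ • ·) hc
  simp only [Finset.smul_sum, smul_zero, semilinear_smul_const, inv_smul_smul] at h1
  have h2 := h _ h1 i
  exact (map_eq_zero_iff _ (SemilinearAut.baseAut g⁻¹).injective).mp h2

theorem IsRep.semilinear_smul {x : Pic0 K F} {D : Divisor K F} (h : IsRep x D) :
    IsRep (g • x) (g • D) := by
  obtain ⟨hD, rfl⟩ := h
  exact ⟨SemilinearAut.smul_mem_degZero g hD, SemilinearAut.pic0_smul_mk g _⟩

variable [RRSetting K F]

theorem semilinear_smul_divOf {f : F} (hf : f ≠ 0) :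
    g • divOf (K := K) f = divOf (K := K) (g • f) := by
  ext v
  rw [SemilinearAut.divisor_smul_apply, divOf_apply hf, divOf_apply (semilinear_smul_ne_zero g hf)]
  have h := SemilinearAut.ord_smul g (g⁻¹ • v) f
  rw [smul_inv_smul] at h
  exact h.symm

theorem ell_semilinear_smul_eq_one {E : Divisor K F} (h0 : 0 ≤ E) (h : ell E = 1) :
    ell (g • E) = 1 := by
  have hspan : riemannRochSpace E = Submodule.span K {(1 : F)} := by
    refine (Submodule.eq_of_le_of_finrank_le
      (Submodule.span_le.mpr (Set.singleton_subset_iff.mpr (one_mem_L h0))) ?_).symm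
    rw [finrank_span_singleton (one_ne_zero (α := F))]
    exact h.le
  have hle : riemannRochSpace (g • E) ≤ Submodule.span K {(1 : F)} := fun f hf => by
    have h1 := semilinear_smul_mem_L g⁻¹ hf
    rw [inv_smul_smul, hspan, Submodule.mem_span_singleton] at h1
    obtain ⟨c, hc⟩ := h1
    rw [Submodule.mem_span_singleton]
    refine ⟨SemilinearAut.baseAut g c, ?_⟩
    have := congrArg (g • ·) hc
    simp only [semilinear_smul_const, smul_one, smul_inv_smul] at this
    exact this
  have hge : Submodule.span K {(1 : F)} ≤ riemannRochSpace (g • E) :=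
    Submodule.span_le.mpr (Set.singleton_subset_iff.mpr (one_mem_L (semilinear_smul_nonneg g h0)))
  show Module.finrank K (riemannRochSpace (g • E)) = 1
  rw [le_antisymm hle hge, finrank_span_singleton (one_ne_zero (α := F))]

end Semilinear

namespace GoodReductionDatum

variable {K : Type*} [Field K] {A : ValuationSubring K} {k : Type*} [Field k] {π : A →+* k}
variable {F : Type*} [Field F] [Algebra K F] {Fb : Type*} [Field Fb] [Algebra k Fb]
variable {d : GoodReductionDatum A π F Fb}

variable (d) in
/-- `g` preserves the integral structure and reduces to `gb`. -/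
structure Compatible (g : SemilinearAut K F) (gb : SemilinearAut k Fb) : Prop where
  baseAut_mem : ∀ a : A, SemilinearAut.baseAut g (a : K) ∈ A
  redsTo_smul : ∀ (f : F) (fb : Fb), d.RedsTo f fb → d.RedsTo (g • f) (gb • fb)

theorem redsTo_of_mul_eq {x z y : F} {zb yb : Fb} (hz : d.RedsTo z zb) (hz0 : zb ≠ 0)
    (hy : d.RedsTo y yb) (h : x * z = y) : d.RedsTo x (yb / zb) := by
  suffices hmem : x ∈ d.integers by
    obtain ⟨xb, hx⟩ : ∃ xb, d.RedsTo x xb := ⟨_, hmem, rfl⟩
    have := hx.mul hz
    rw [h] at this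
    rwa [hy.unique this, mul_div_assoc, div_self hz0, mul_one]
  rcases eq_or_ne x 0 with rfl | hx0
  · exact zero_mem _
  obtain ⟨c, hc, fb, hfb, hr⟩ := d.exists_scale hx0
  by_cases hcA : c⁻¹ ∈ A
  · have := hr.smul ⟨c⁻¹, hcA⟩
    rw [inv_smul_smul₀ hc] at this
    exact this.mem
  · exfalso
    obtain ⟨a, ha, ha0⟩ := d.inv_mem_of_notMem hcA
    rw [inv_inv] at ha
    have h1 := hy.smul a
    rw [ha0, zero_smul, ha] at h1
    have h2 := hr.mul hz
    rw [smul_mul_assoc, h] at h2
    exact mul_ne_zero hfb hz0 (h2.unique h1)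

variable {g : SemilinearAut K F} {gb : SemilinearAut k Fb}
variable [RRSetting K F] [RRSetting k Fb]

theorem Compatible.place_smul (hg : d.Compatible g gb) (P : Place K F) :
    d.place (g • P) = gb • d.place P := by
  have h := congrFun (place_unique (d := d) (fun P => gb⁻¹ • d.place (g • P))
    fun x hx0 D hD Q => ?_) P
  · rw [← h, smul_inv_smul]
  · have hD' : ∀ P, (g • D) P = P.ord (g • (x : F)) := fun P => by
      rw [SemilinearAut.divisor_smul_apply, hD]
      have h := SemilinearAut.ord_smul g (g⁻¹ • P) (x : F)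
      rw [smul_inv_smul] at h
      exact h.symm
    obtain ⟨hm, hred⟩ := hg.redsTo_smul _ _ (redsTo_red x)
    have hne : d.red ⟨g • (x : F), hm⟩ ≠ 0 := by
      rw [hred]
      exact semilinear_smul_ne_zero gb hx0
    have h2 := d.mapDomain_place ⟨g • (x : F), hm⟩ hne (g • D) hD' (gb • Q)
    rw [hred, SemilinearAut.ord_smul] at h2
    rw [← h2, show (fun P => gb⁻¹ • d.place (g • P)) =
      (fun Q => gb⁻¹ • Q) ∘ d.place ∘ (fun P => g • P) from rfl, Finsupp.mapDomain_comp,
      Finsupp.mapDomain_comp]
    show (gb⁻¹ • Finsupp.mapDomain d.place (g • D)) Q = _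
    rw [SemilinearAut.divisor_smul_apply, inv_inv]

theorem Compatible.redDiv_smul (hg : d.Compatible g gb) (D : Divisor K F) :
    d.redDiv (g • D) = gb • d.redDiv D := by
  induction D using Finsupp.induction with
  | zero => simp
  | single_add v n D _ _ ih =>
    have h1 : ∀ w, d.redDiv (Finsupp.single w n) = Finsupp.single (d.place w) n := fun w =>
      Finsupp.mapDomain_single
    rw [smul_add, map_add, map_add, smul_add, ih, SemilinearAut.smul_single, h1, h1,
      SemilinearAut.smul_single, hg.place_smul]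

theorem Compatible.redPic0_smul (hg : d.Compatible g gb) (x : Pic0 K F) :
    d.redPic0 (g • x) = gb • d.redPic0 x := by
  obtain ⟨D, hD⟩ := exists_isRep x
  have h1 := redPic0_of_isRep (d := d) (hD.semilinear_smul g)
  have h2 := (redPic0_of_isRep (d := d) hD).semilinear_smul gb
  rw [hg.redDiv_smul] at h1
  exact h1.unique h2

namespace Chart

variable {B : Divisor K F} (C C' : d.Chart B)

theorem fits_smul (hg : d.Compatible g gb) (hD : C'.D = g • C.D) (hE : C'.Eb = gb • C.Eb)
    {x : Pic0 K F} (hx : C.Fits x) :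
    C'.Fits (g • x) ∧ C'.divisor (g • x) = g • C.divisor x := by
  obtain ⟨h1, h2, h3⟩ := C.divisor_spec hx
  have e2 : d.redDiv (g • C.divisor x) = C'.Eb := by rw [hg.redDiv_smul, h2, hE]
  have e3 : IsRep (g • x) (g • C.divisor x - C'.D) := by
    rw [hD, ← smul_sub]
    exact h3.semilinear_smul g
  exact ⟨⟨_, semilinear_smul_nonneg g h1, e2, e3⟩,
    C'.divisor_eq (semilinear_smul_nonneg g h1) e2 e3⟩

/-- Coordinates are equivariant. -/
theorem coords_smul (hB : 4 * (genusFF K F : ℤ) + 2 ≤ Divisor.degree B) (hg : d.Compatible g gb)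
    (hgB : g • B = B) (hD : C'.D = g • C.D) (hE : C'.Eb = gb • C.Eb)
    (ec : Fin (ell (d.redDiv B - C'.Eb)) ≃ Fin (ell (d.redDiv B - C.Eb)))
    (el : Fin C'.s ≃ Fin C.s) (hw : ∀ c, C'.w0 c = g • C.w0 (ec c))
    (hu : ∀ l, C'.u l = g • C.u (el l)) {x : Pic0 K F} (hx : C.Fits x)
    (c : Fin (ell (d.redDiv B - C'.Eb))) (l : Fin C'.s) :
    (C'.coords (g • x) c l : K) = SemilinearAut.baseAut g (C.coords x (ec c) (el l)) := by
  obtain ⟨hfit, hdiv⟩ := fits_smul C C' hg hD hE hx
  let a : Fin C'.s → A := fun l =>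
    ⟨SemilinearAut.baseAut g (C.coords x (ec c) (el l)), hg.baseAut_mem _⟩
  rw [C'.coords_eq hB hfit (a := a) ?_]
  have h := semilinear_smul_mem_L g (C.coords_spec hB hx (ec c))
  rw [smul_sub, hgB, ← hdiv, smul_add, ← hw, Finset.smul_sum, ← el.sum_comp] at h
  simp only [semilinear_smul_const, ← hu] at h
  exact h

end Chart

set_option maxHeartbeats 800000 in
/-- The transported chart. -/
theorem exists_smul_chart {B : Divisor K F}
    (hB : 4 * (genusFF K F : ℤ) + 2 ≤ Divisor.degree B) (hg : d.Compatible g gb) (hgB : g • B = B)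
    (C : d.Chart B) :
    ∃ (C' : d.Chart B) (ec : Fin (ell (d.redDiv B - C'.Eb)) ≃ Fin (ell (d.redDiv B - C.Eb)))
      (el : Fin C'.s ≃ Fin C.s), C'.D = g • C.D ∧ C'.Eb = gb • C.Eb ∧
        (∀ c, C'.w0 c = g • C.w0 (ec c)) ∧ ∀ l, C'.u l = g • C.u (el l) := by
  have hrB : gb • d.redDiv B = d.redDiv B := by rw [← hg.redDiv_smul, hgB]
  have hdeg : Divisor.degree (gb • C.Eb) = genusFF K F := by
    rw [SemilinearAut.degree_smul, C.degree_Eb]
  have hq : ell (d.redDiv B - gb • C.Eb) = ell (d.redDiv B - C.Eb) := by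
    have h1 := ell_eq_of_degree_ge (K := k) (F := Fb) (D := d.redDiv B - gb • C.Eb)
      (by rw [map_sub, degree_redDiv, hdeg, d.genus_eq]; omega)
    have h2 := ell_eq_of_degree_ge (K := k) (F := Fb) (D := d.redDiv B - C.Eb)
      (by rw [map_sub, degree_redDiv, C.degree_Eb, d.genus_eq]; omega)
    rw [map_sub, hdeg, ← C.degree_Eb, ← map_sub, ← h2] at h1
    exact_mod_cast h1
  have hfun : Sum.elim (fun c => gb • C.w0b (finCongr hq c)) (fun l => gb • C.ub l) =
      fun j => gb • Sum.elim C.w0b C.ub (Sum.map (finCongr hq) id j) := by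
    funext j
    rcases j with c | l <;> rfl
  have hinj : Function.Injective (Sum.map (finCongr hq) (id : Fin C.s → Fin C.s)) :=
    (finCongr hq).injective.sumMap Function.injective_id
  have hind : LinearIndependent k
      (Sum.elim (fun c => gb • C.w0b (finCongr hq c)) (fun l => gb • C.ub l)) := by
    rw [hfun]
    exact linearIndependent_semilinear_smul gb (C.indep.comp _ hinj)
  have hspan : Submodule.span k
      (Set.range (Sum.elim (fun c => gb • C.w0b (finCongr hq c)) (fun l => gb • C.ub l))) =
        riemannRochSpace (d.redDiv B) := by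
    refine Submodule.eq_of_le_of_finrank_le (Submodule.span_le.mpr ?_) ?_
    · rw [hfun]
      rintro _ ⟨j, rfl⟩
      have h := semilinear_smul_mem_L gb (C.span_eq.le (Submodule.subset_span
        (Set.mem_range_self (Sum.map (finCongr hq) id j))))
      exact (congrArg riemannRochSpace hrB).le h
    · rw [finrank_span_eq_card hind, ← C.span_eq, finrank_span_eq_card C.indep,
        Fintype.card_sum, Fintype.card_sum, Fintype.card_fin, Fintype.card_fin, hq,
        Fintype.card_fin]
  refine ⟨⟨g • C.D, gb • C.Eb, by rw [SemilinearAut.degree_smul, C.degree_D],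
    semilinear_smul_nonneg gb C.Eb_nonneg, hdeg,
    ell_semilinear_smul_eq_one gb C.Eb_nonneg C.ell_Eb,
    fun c => g • C.w0 (finCongr hq c), fun c => gb • C.w0b (finCongr hq c), C.s,
    fun l => g • C.u l, fun l => gb • C.ub l,
    fun c => (congrArg riemannRochSpace hgB).le (semilinear_smul_mem_L g (C.w0_mem _)),
    fun l => (congrArg riemannRochSpace hgB).le (semilinear_smul_mem_L g (C.u_mem l)),
    fun c => hg.redsTo_smul _ _ (C.w0_redsTo _), fun l => hg.redsTo_smul _ _ (C.u_redsTo l),
    fun c => ?_, hind, hspan⟩, finCongr hq, Equiv.refl _, rfl, rfl, fun _ => rfl, fun _ => rfl⟩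
  have := semilinear_smul_mem_L gb (C.w0b_mem (finCongr hq c))
  rwa [smul_sub, hrB] at this

end GoodReductionDatum

end FermatAgent.JacCharts
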